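/-
T1B (S44), brick F8' slice S5 HOL (brick 594), helper31: FRAMED LINES.

A *framing* of a two-chart module `M` is an `R01`-linear map `ε : M.N01 → F` into a field `F ⊇ R01`
(for a line on a two-chart ring with domain charts and `F = Frac R01`: a rational trivialisation;
every nonzero `ε` is injective then).  It realises the chart modules as `R_j`-submodules of `F`:

  `frame0 M ε = { ε (r0 x) | x ∈ N0 } ⊆ F`,   `frame1 M ε = { ε (r1 x) | x ∈ N1 } ⊆ F`.

* `frame_unit`     : `frame_j unit (x ↦ x • g) = R_j ∙ g`;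
* `frame_tensor`   : `frame_j (L ⊗ M) (ε_L · ε_M) = frame_j L ε_L * frame_j M ε_M`;
* `frame_iso`      : invariance under isomorphisms;
* `frame_tpow`     : `frame_j (M^{⊗n}) (ε^n) = (frame_j M ε) ^ n`;
* **`exists_pow_eq_span`** : if `M^{⊗p} ≅ O` and `ε ≠ 0` then there is ONE `g ≠ 0` in `F` with
  `(frame0 M ε) ^ p = R0 ∙ g` and `(frame1 M ε) ^ p = R1 ∙ g`; in particular both are invertible
  (`exists_mul_eq_one`), and `Hol31.Local.isRegularAt_dlog_residue` applies to `f := g`.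
* `mk_pow` : `(LinePic.mk c M hM) ^ n = LinePic.mk c (tpow n M) _`, so the hypothesis is `x ^ p = 1` in
  `LinePic c` (i.e. `PicX c0 O`).
-/
import Mathlib
import Fermat.Agent.Jac.LineOps39.Tensor
import Fermat.Agent.Jac.JGroup85Pic

set_option autoImplicit false
set_option linter.unusedSectionVars false

universe u v

open TensorProduct

namespace Fermat.Agent.T1B.Hol31.Frame

open Fermat.Agent.Jac Fermat.Agent.Jac.LineOps39 Fermat.Agent.Jac.JGroup85Pic

variable {A R0 R1 R01 : Type u} [CommRing A] [CommRing R0] [CommRing R1] [CommRing R01]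
  [Algebra A R0] [Algebra A R1] [Algebra A R01] [Algebra R0 R01] [Algebra R1 R01]
  [IsScalarTower A R0 R01] [IsScalarTower A R1 R01]
  {F : Type v} [Field F] [Algebra R0 F] [Algebra R1 F] [Algebra R01 F]
  [IsScalarTower R0 R01 F] [IsScalarTower R1 R01 F]

/-! ### Frames -/

/-- The image of the chart-`0` module in `F` under a framing. -/
def frame0 (M : QC2 A R0 R1 R01) (ε : M.N01 →ₗ[R01] F) : Submodule R0 F :=
  LinearMap.range ((ε.restrictScalars R0).comp M.r0)

/-- The image of the chart-`1` module in `F` under a framing. -/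
def frame1 (M : QC2 A R0 R1 R01) (ε : M.N01 →ₗ[R01] F) : Submodule R1 F :=
  LinearMap.range ((ε.restrictScalars R1).comp M.r1)

theorem mem_frame0 {M : QC2 A R0 R1 R01} {ε : M.N01 →ₗ[R01] F} {z : F} :
    z ∈ frame0 M ε ↔ ∃ x : M.N0, ε (M.r0 x) = z := by
  unfold frame0
  rw [LinearMap.mem_range]
  rfl

theorem mem_frame1 {M : QC2 A R0 R1 R01} {ε : M.N01 →ₗ[R01] F} {z : F} :
    z ∈ frame1 M ε ↔ ∃ x : M.N1, ε (M.r1 x) = z := by
  unfold frame1
  rw [LinearMap.mem_range]
  rfl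

/-- The framing `x ↦ x • g` of the structure sheaf. -/
def unitFraming (g : F) : (QC2.unit : QC2 A R0 R1 R01).N01 →ₗ[R01] F :=
  (LinearMap.toSpanSingleton R01 F g : R01 →ₗ[R01] F)

theorem unitFraming_apply (g : F) (x : R01) :
    (unitFraming (A := A) (R0 := R0) (R1 := R1) g : R01 →ₗ[R01] F) x = x • g := rfl

/-- Every framing of the structure sheaf is `x ↦ x • ε 1`. -/
theorem framing_unit_eq (ε : (QC2.unit : QC2 A R0 R1 R01).N01 →ₗ[R01] F) :
    ε = unitFraming ((ε : R01 →ₗ[R01] F) (1 : R01)) := by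
  have h : (ε : R01 →ₗ[R01] F) =
      (LinearMap.toSpanSingleton R01 F ((ε : R01 →ₗ[R01] F) (1 : R01)) : R01 →ₗ[R01] F) := by
    apply LinearMap.ext_ring
    rw [LinearMap.toSpanSingleton_apply, one_smul]
    rfl
  exact h

theorem frame0_unit (g : F) :
    frame0 (QC2.unit : QC2 A R0 R1 R01) (unitFraming g) = Submodule.span R0 {g} := by
  ext z
  rw [mem_frame0, Submodule.mem_span_singleton]
  constructor
  · rintro ⟨(x : R0), hx⟩
    refine ⟨x, ?_⟩
    rw [← hx]
    change x • g = (algebraMap R0 R01 x) • g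
    rw [algebraMap_smul]
  · rintro ⟨x, hx⟩
    refine ⟨(show (QC2.unit : QC2 A R0 R1 R01).N0 from x), ?_⟩
    rw [← hx]
    change (algebraMap R0 R01 x) • g = x • g
    rw [algebraMap_smul]

theorem frame1_unit (g : F) :
    frame1 (QC2.unit : QC2 A R0 R1 R01) (unitFraming g) = Submodule.span R1 {g} := by
  ext z
  rw [mem_frame1, Submodule.mem_span_singleton]
  constructor
  · rintro ⟨(x : R1), hx⟩
    refine ⟨x, ?_⟩
    rw [← hx]
    change x • g = (algebraMap R1 R01 x) • g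
    rw [algebraMap_smul]
  · rintro ⟨x, hx⟩
    refine ⟨(show (QC2.unit : QC2 A R0 R1 R01).N1 from x), ?_⟩
    rw [← hx]
    change (algebraMap R1 R01 x) • g = x • g
    rw [algebraMap_smul]

/-- Invariance under isomorphisms. -/
theorem frame0_iso {L M : QC2 A R0 R1 R01} (e : QC2.Iso L M) (ε : M.N01 →ₗ[R01] F) :
    frame0 L (ε.comp e.e01.toLinearMap) = frame0 M ε := by
  ext z
  rw [mem_frame0, mem_frame0]
  constructor
  · rintro ⟨x, rfl⟩
    exact ⟨e.e0 x, by rw [← e.comm0]; rfl⟩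
  · rintro ⟨x, rfl⟩
    refine ⟨e.e0.symm x, ?_⟩
    change ε (e.e01 (L.r0 (e.e0.symm x))) = _
    rw [e.comm0, LinearEquiv.apply_symm_apply]

theorem frame1_iso {L M : QC2 A R0 R1 R01} (e : QC2.Iso L M) (ε : M.N01 →ₗ[R01] F) :
    frame1 L (ε.comp e.e01.toLinearMap) = frame1 M ε := by
  ext z
  rw [mem_frame1, mem_frame1]
  constructor
  · rintro ⟨x, rfl⟩
    exact ⟨e.e1 x, by rw [← e.comm1]; rfl⟩
  · rintro ⟨x, rfl⟩
    refine ⟨e.e1.symm x, ?_⟩
    change ε (e.e01 (L.r1 (e.e1.symm x))) = _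
    rw [e.comm1, LinearEquiv.apply_symm_apply]

/-! ### Tensor products -/

/-- `x ⊗ y ↦ εL x * εM y` on an honest tensor product. -/
noncomputable def mulMap {P Q : Type u} [AddCommGroup P] [AddCommGroup Q] [Module R01 P]
    [Module R01 Q] (εP : P →ₗ[R01] F) (εQ : Q →ₗ[R01] F) : P ⊗[R01] Q →ₗ[R01] F :=
  (LinearMap.mul' R01 F).comp (TensorProduct.map εP εQ)

theorem mulMap_tmul {P Q : Type u} [AddCommGroup P] [AddCommGroup Q] [Module R01 P]
    [Module R01 Q] (εP : P →ₗ[R01] F) (εQ : Q →ₗ[R01] F) (x : P) (y : Q) :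
    mulMap εP εQ (x ⊗ₜ[R01] y) = εP x * εQ y := by
  rw [mulMap, LinearMap.comp_apply, TensorProduct.map_tmul, LinearMap.mul'_apply]

/-- The product framing of `L ⊗ M`: `x ⊗ y ↦ ε_L x * ε_M y`. -/
noncomputable def tensorFraming {L M : QC2 A R0 R1 R01} (εL : L.N01 →ₗ[R01] F)
    (εM : M.N01 →ₗ[R01] F) : (tensor L M).N01 →ₗ[R01] F :=
  (mulMap εL εM : L.N01 ⊗[R01] M.N01 →ₗ[R01] F)

theorem tensorFraming_tmul {L M : QC2 A R0 R1 R01} (εL : L.N01 →ₗ[R01] F)
    (εM : M.N01 →ₗ[R01] F) (x : L.N01) (y : M.N01) :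
    (tensorFraming εL εM : L.N01 ⊗[R01] M.N01 →ₗ[R01] F) (x ⊗ₜ[R01] y) = εL x * εM y :=
  mulMap_tmul εL εM x y

theorem frame0_tensor {L M : QC2 A R0 R1 R01} (εL : L.N01 →ₗ[R01] F) (εM : M.N01 →ₗ[R01] F) :
    frame0 (tensor L M) (tensorFraming εL εM) = frame0 L εL * frame0 M εM := by
  have key : ∀ w : L.N0 ⊗[R0] M.N0,
      mulMap εL εM (tmap (S := R01) L.r0 M.r0 w) ∈ frame0 L εL * frame0 M εM := by
    intro w
    induction w using TensorProduct.induction_on with
    | zero => rw [map_zero, map_zero]; exact Submodule.zero_mem _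
    | tmul x y =>
      rw [tmap_tmul, mulMap_tmul]
      exact Submodule.mul_mem_mul (mem_frame0.mpr ⟨x, rfl⟩) (mem_frame0.mpr ⟨y, rfl⟩)
    | add x y hx hy =>
      rw [map_add, map_add]
      exact Submodule.add_mem _ hx hy
  apply le_antisymm
  · rintro z hz
    obtain ⟨w, rfl⟩ := mem_frame0.mp hz
    exact key w
  · rw [Submodule.mul_le]
    intro a ha b hb
    obtain ⟨x, rfl⟩ := mem_frame0.mp ha
    obtain ⟨y, rfl⟩ := mem_frame0.mp hb
    refine mem_frame0.mpr ⟨(x ⊗ₜ[R0] y : L.N0 ⊗[R0] M.N0), ?_⟩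
    change mulMap εL εM (tmap (S := R01) L.r0 M.r0 (x ⊗ₜ[R0] y)) = _
    rw [tmap_tmul, mulMap_tmul]

theorem frame1_tensor {L M : QC2 A R0 R1 R01} (εL : L.N01 →ₗ[R01] F) (εM : M.N01 →ₗ[R01] F) :
    frame1 (tensor L M) (tensorFraming εL εM) = frame1 L εL * frame1 M εM := by
  have key : ∀ w : L.N1 ⊗[R1] M.N1,
      mulMap εL εM (tmap (S := R01) L.r1 M.r1 w) ∈ frame1 L εL * frame1 M εM := by
    intro w
    induction w using TensorProduct.induction_on with
    | zero => rw [map_zero, map_zero]; exact Submodule.zero_mem _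
    | tmul x y =>
      rw [tmap_tmul, mulMap_tmul]
      exact Submodule.mul_mem_mul (mem_frame1.mpr ⟨x, rfl⟩) (mem_frame1.mpr ⟨y, rfl⟩)
    | add x y hx hy =>
      rw [map_add, map_add]
      exact Submodule.add_mem _ hx hy
  apply le_antisymm
  · rintro z hz
    obtain ⟨w, rfl⟩ := mem_frame1.mp hz
    exact key w
  · rw [Submodule.mul_le]
    intro a ha b hb
    obtain ⟨x, rfl⟩ := mem_frame1.mp ha
    obtain ⟨y, rfl⟩ := mem_frame1.mp hb
    refine mem_frame1.mpr ⟨(x ⊗ₜ[R1] y : L.N1 ⊗[R1] M.N1), ?_⟩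
    change mulMap εL εM (tmap (S := R01) L.r1 M.r1 (x ⊗ₜ[R1] y)) = _
    rw [tmap_tmul, mulMap_tmul]

/-! ### Tensor powers -/

/-- Tensor powers of a two-chart module. -/
noncomputable def tpow (M : QC2 A R0 R1 R01) : ℕ → QC2 A R0 R1 R01
  | 0 => QC2.unit
  | n + 1 => tensor (tpow M n) M

theorem isLine_tpow {M : QC2 A R0 R1 R01} (hM : M.IsLine) : ∀ n, (tpow M n).IsLine
  | 0 => isLine_unit
  | n + 1 => isLine_tensor (isLine_tpow hM n) hM

/-- Powers in the Picard group are classes of tensor powers. -/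
theorem mk_pow (c : TwoChart A R0 R1 R01) {M : QC2 A R0 R1 R01} (hM : M.IsLine) (n : ℕ) :
    (LinePic.mk c M hM) ^ n = LinePic.mk c (tpow M n) (isLine_tpow hM n) := by
  induction n with
  | zero => rw [pow_zero]; rfl
  | succ n ih => rw [pow_succ, ih, LinePic.mk_mul_mk]; rfl

/-- `x ^ p = 1` in the Picard group gives an isomorphism `O ≅ M^{⊗p}`. -/
theorem nonempty_iso_tpow_of_pow_eq_one (c : TwoChart A R0 R1 R01) {M : QC2 A R0 R1 R01}
    (hM : M.IsLine) {p : ℕ} (h : (LinePic.mk c M hM) ^ p = 1) :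
    Nonempty (QC2.Iso (QC2.unit : QC2 A R0 R1 R01) (tpow M p)) := by
  rw [mk_pow, LinePic.one_def, LinePic.mk_eq_mk_iff] at h
  obtain ⟨e⟩ := h
  exact ⟨isoSymm e⟩

/-- The power framing of `M^{⊗n}`. -/
noncomputable def powFraming {M : QC2 A R0 R1 R01} (ε : M.N01 →ₗ[R01] F) :
    ∀ n, (tpow M n).N01 →ₗ[R01] F
  | 0 => unitFraming (1 : F)
  | n + 1 => tensorFraming (powFraming ε n) ε

/-- The element `x ⊗ ⋯ ⊗ x` of `M^{⊗n}` on the overlap. -/
noncomputable def powElt {M : QC2 A R0 R1 R01} (x : M.N01) : ∀ n, (tpow M n).N01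
  | 0 => (1 : R01)
  | n + 1 => (powElt x n ⊗ₜ[R01] x : (tpow M n).N01 ⊗[R01] M.N01)

theorem powFraming_powElt {M : QC2 A R0 R1 R01} (ε : M.N01 →ₗ[R01] F) (x : M.N01) :
    ∀ n, powFraming ε n (powElt x n) = ε x ^ n
  | 0 => by
    change (unitFraming (A := A) (R0 := R0) (R1 := R1) (1 : F) : R01 →ₗ[R01] F) (1 : R01) = _
    rw [unitFraming_apply, one_smul, pow_zero]
  | n + 1 => by
    change (tensorFraming (powFraming ε n) ε : (tpow M n).N01 ⊗[R01] M.N01 →ₗ[R01] F)
      (powElt x n ⊗ₜ[R01] x) = _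
    rw [tensorFraming_tmul, powFraming_powElt ε x n, pow_succ]

theorem frame0_tpow {M : QC2 A R0 R1 R01} (ε : M.N01 →ₗ[R01] F) :
    ∀ n, frame0 (tpow M n) (powFraming ε n) = frame0 M ε ^ n
  | 0 => by
    change frame0 (QC2.unit : QC2 A R0 R1 R01) (unitFraming (1 : F)) = _
    rw [frame0_unit, pow_zero, Submodule.one_eq_span]
  | n + 1 => by
    change frame0 (tensor (tpow M n) M) (tensorFraming (powFraming ε n) ε) = _
    rw [frame0_tensor, frame0_tpow ε n, pow_succ]

theorem frame1_tpow {M : QC2 A R0 R1 R01} (ε : M.N01 →ₗ[R01] F) :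
    ∀ n, frame1 (tpow M n) (powFraming ε n) = frame1 M ε ^ n
  | 0 => by
    change frame1 (QC2.unit : QC2 A R0 R1 R01) (unitFraming (1 : F)) = _
    rw [frame1_unit, pow_zero, Submodule.one_eq_span]
  | n + 1 => by
    change frame1 (tensor (tpow M n) M) (tensorFraming (powFraming ε n) ε) = _
    rw [frame1_tensor, frame1_tpow ε n, pow_succ]

/-- **Framed form of `M^{⊗p} ≅ O`.**  For a nonzero framing `ε` of `M` and an isomorphism
`ψ : O ≅ M^{⊗p}` there is ONE `g ≠ 0` in `F` generating the `p`-th powers of both frames. -/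
theorem exists_pow_eq_span {M : QC2 A R0 R1 R01} (ε : M.N01 →ₗ[R01] F) (hε : ε ≠ 0) (p : ℕ)
    (ψ : QC2.Iso (QC2.unit : QC2 A R0 R1 R01) (tpow M p)) :
    ∃ g : F, g ≠ 0 ∧ frame0 M ε ^ p = Submodule.span R0 {g} ∧
      frame1 M ε ^ p = Submodule.span R1 {g} := by
  set ε' : (QC2.unit : QC2 A R0 R1 R01).N01 →ₗ[R01] F :=
    (powFraming ε p).comp ψ.e01.toLinearMap with hε'
  have hunit := framing_unit_eq ε'
  refine ⟨(ε' : R01 →ₗ[R01] F) (1 : R01), ?_, ?_, ?_⟩
  · -- `g ≠ 0`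
    obtain ⟨x, hx⟩ : ∃ x, ε x ≠ 0 := by
      by_contra hcon
      push Not at hcon
      exact hε (LinearMap.ext hcon)
    intro hg
    have h0 : ε' = 0 := by
      rw [hunit, hg]
      apply LinearMap.ext_ring
      change (unitFraming (A := A) (R0 := R0) (R1 := R1) (0 : F) : R01 →ₗ[R01] F) (1 : R01) = 0
      rw [unitFraming_apply, smul_zero]
    have h1 : ε' (ψ.e01.symm (powElt x p)) = ε x ^ p := by
      rw [hε']
      change powFraming ε p (ψ.e01 (ψ.e01.symm (powElt x p))) = _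
      rw [LinearEquiv.apply_symm_apply, powFraming_powElt]
    rw [h0] at h1
    exact pow_ne_zero p hx h1.symm
  · have h := frame0_unit (A := A) (R0 := R0) (R1 := R1) (R01 := R01)
      ((ε' : R01 →ₗ[R01] F) (1 : R01))
    rw [← hunit] at h
    rw [← frame0_tpow ε p, ← frame0_iso ψ (powFraming ε p)]
    exact h
  · have h := frame1_unit (A := A) (R0 := R0) (R1 := R1) (R01 := R01)
      ((ε' : R01 →ₗ[R01] F) (1 : R01))
    rw [← hunit] at h
    rw [← frame1_tpow ε p, ← frame1_iso ψ (powFraming ε p)]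
    exact h

/-- A submodule whose `p`-th power (`p ≥ 1`) is generated by a nonzero element is invertible. -/
theorem exists_mul_eq_one_of_pow_eq_span {R : Type*} [CommRing R] [Algebra R F]
    {I : Submodule R F} {p : ℕ} (hp : p ≠ 0) {g : F} (hg : g ≠ 0)
    (h : I ^ p = Submodule.span R {g}) : ∃ J : Submodule R F, I * J = 1 := by
  obtain ⟨n, rfl⟩ := Nat.exists_eq_succ_of_ne_zero hp
  refine ⟨I ^ n * Submodule.span R {g⁻¹}, ?_⟩
  rw [← mul_assoc, ← pow_succ', h, Submodule.span_mul_span, Set.singleton_mul_singleton,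
    mul_inv_cancel₀ hg, Submodule.one_eq_span]

/-! ### Existence of a framing, and the Picard-group form -/

/-- An invertible module over a nontrivial ring has a nonzero functional. -/
theorem exists_dual_ne_zero (R N : Type*) [CommRing R] [Nontrivial R] [AddCommGroup N]
    [Module R N] [Module.Invertible R N] : ∃ f : Module.Dual R N, f ≠ 0 := by
  by_contra hcon
  push Not at hcon
  have : Subsingleton (Module.Dual R N) := ⟨fun a b => (hcon a).trans (hcon b).symm⟩
  have e := Module.Invertible.linearEquiv R N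
  have : Subsingleton (Module.Dual R N ⊗[R] N) := inferInstance
  exact (not_subsingleton R) (e.symm.toEquiv.subsingleton)

/-- A line on a two-chart ring has a nonzero framing in any field `F` into which `R0` injects. -/
theorem exists_framing_ne_zero {M : QC2 A R0 R1 R01} (hM : M.IsLine)
    (hinj : Function.Injective (algebraMap R0 F)) : ∃ ε : M.N01 →ₗ[R01] F, ε ≠ 0 := by
  have := hM.inv0
  have : Nontrivial R0 := (algebraMap R0 F).domain_nontrivial
  obtain ⟨f, hf⟩ := exists_dual_ne_zero R0 M.N0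
  let g : M.N0 →ₗ[R0] F := (Algebra.linearMap R0 F).comp f
  refine ⟨M.bc0.lift g, fun h0 => hf ?_⟩
  ext x
  have h1 : M.bc0.lift g (M.r0 x) = g x := M.bc0.lift_eq g x
  rw [h0, LinearMap.zero_apply] at h1
  have h2 : algebraMap R0 F (f x) = 0 := h1.symm
  rw [LinearMap.zero_apply]
  exact hinj (by rw [h2, map_zero])

/-- **S5 HOL, framed form.**  If the class of the line `M` is killed by `p ≠ 0` in the Picard group
of the two-chart ring, then `M` has a framing whose frames `I0 ⊆ F` (over `R0`) and `I1 ⊆ F`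
(over `R1`) are invertible submodules with `I0 ^ p = R0 ∙ g`, `I1 ^ p = R1 ∙ g` for ONE `g ≠ 0`.
(`Hol31.Local.isRegularAt_dlog_residue` then applies at every prime of both charts with `f := g`.) -/
theorem exists_frames_of_pow_eq_one (c : TwoChart A R0 R1 R01) {M : QC2 A R0 R1 R01}
    (hM : M.IsLine) (hinj : Function.Injective (algebraMap R0 F)) {p : ℕ} (hp : p ≠ 0)
    (h : (LinePic.mk c M hM) ^ p = 1) :
    ∃ (ε : M.N01 →ₗ[R01] F) (g : F), ε ≠ 0 ∧ g ≠ 0 ∧
      frame0 M ε ^ p = Submodule.span R0 {g} ∧ frame1 M ε ^ p = Submodule.span R1 {g} ∧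
      (∃ J0 : Submodule R0 F, frame0 M ε * J0 = 1) ∧
      (∃ J1 : Submodule R1 F, frame1 M ε * J1 = 1) := by
  obtain ⟨ε, hε⟩ := exists_framing_ne_zero (F := F) hM hinj
  obtain ⟨ψ⟩ := nonempty_iso_tpow_of_pow_eq_one c hM h
  obtain ⟨g, hg, h0, h1⟩ := exists_pow_eq_span ε hε p ψ
  exact ⟨ε, g, hε, hg, h0, h1, exists_mul_eq_one_of_pow_eq_span hp hg h0,
    exists_mul_eq_one_of_pow_eq_span hp hg h1⟩

end Fermat.Agent.T1B.Hol31.Frame
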