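/-
T1B (S44), brick F8' slice S5 HOL (brick 594), helper31: DICT-EXT.

The T1A dictionary (`T1/Dict59`, `T1/Adapt96`) attaches field-level line pairs `LinePair K t` only to
IDEAL sheaves `ofIdeals c D`.  Here it is extended to arbitrary FRAMED lines: for a line `N` on the
two-chart ring `c`, chart isomorphisms `E : ChartIso c t` and a framing `φ : N.N01 → F`
(`e01`-semilinear, nonzero) we build

* `framePair E hN φ : LinePair K t`, `I_j = { φ (r_j x) | x ∈ N_j }`                       (D1);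
* `exists_isScale_of_iso` / `exists_isScale_of_mk_eq` : isomorphic framed lines have line pairs that
  differ by a nonzero scalar of `F` (so the class of the line pair only depends on `LinePic.mk c N`)  (D2);
* `isMul_framePair_tensor`, `isUnitPair_framePair_unit`, `isScale_framePair_unit`            (D3, D4);
* `framePair_ofIdeals` : on ideal sheaves with the inclusion framing this is `E.toLinePair D`  (D5);
* `mul_ordInf_eq_of_pow_eq_span` : local form of (D7): `I ^ p = R ∙ g ⟹ p * min ord_w I = ord_w g`;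
* `exists_pow_eq_span_of_pow_eq_one` : `(LinePic.mk c N hN) ^ p = 1` ⟹ for every framing `φ` there is ONE
  `g ≠ 0` with `(framePair E hN φ).I_j ^ p = C_j ∙ g` on both charts.
The divisor side (`K = L ⊆ ℚ̄`, `F = L·F_M`; (D6), (D7), `Hecke3.IsPData`) is in `DictExtDiv.lean`.
-/
import Mathlib
import Fermat.Agent.T1B.Hol31.Frame
import Fermat.Agent.T1.Adapt96.Main
import Fermat.Agent.T1.Dict59.OrdInf

set_option autoImplicit false
set_option linter.unusedSectionVars false
set_option linter.style.haveILetI false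

universe u v

open TensorProduct

namespace Fermat.Agent.T1B.Hol31.DictExt

open Fermat.Agent.Jac Fermat.Agent.Jac.LineOps39 Fermat.Agent.Jac.JGroup85Pic
open Fermat.Agent.T1.Dict59 Fermat.Agent.T1.Adapt96

variable {K R0 R1 R01 : Type u} [Field K] [CommRing R0] [CommRing R1] [CommRing R01]
  [Algebra K R0] [Algebra K R1] [Algebra K R01] [Algebra R0 R01] [Algebra R1 R01]
  [IsScalarTower K R0 R01] [IsScalarTower K R1 R01]
  {F : Type v} [Field F] [Algebra K F]
  {c : TwoChart K R0 R1 R01} {t : F}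

/-! ### Framings relative to chart isomorphisms -/

/-- A nonzero framing of the two-chart module `N`, relative to chart isomorphisms `E`: an additive map
`N.N01 → F`, semilinear along `E.e01 : R01 → F`. -/
structure Framing (E : ChartIso c t) (N : QC2 K R0 R1 R01) where
  toFun : N.N01 → F
  map_add' : ∀ x y, toFun (x + y) = toFun x + toFun y
  map_smul' : ∀ (r : R01) (x : N.N01), toFun (r • x) = E.e01 r * toFun x
  exists_ne : ∃ x, toFun x ≠ 0

namespace Framing

variable {E : ChartIso c t} {N : QC2 K R0 R1 R01}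

instance : CoeFun (Framing E N) (fun _ => N.N01 → F) := ⟨Framing.toFun⟩

theorem map_add (φ : Framing E N) (x y : N.N01) : φ (x + y) = φ x + φ y := φ.map_add' x y

theorem map_smul (φ : Framing E N) (r : R01) (x : N.N01) : φ (r • x) = E.e01 r * φ x :=
  φ.map_smul' r x

theorem map_zero (φ : Framing E N) : φ 0 = 0 := by
  have h := φ.map_smul 0 0
  rwa [zero_smul, RingHom.map_zero, zero_mul] at h

theorem map_smul0 (φ : Framing E N) (r : R0) (x : N.N01) : φ (r • x) = E.ι0 r * φ x := by
  rw [← algebraMap_smul R01 r x, φ.map_smul, E.e01_algebraMap0]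

theorem map_smul1 (φ : Framing E N) (r : R1) (x : N.N01) : φ (r • x) = E.ι1 r * φ x := by
  rw [← algebraMap_smul R01 r x, φ.map_smul, E.e01_algebraMap1]

/-- The framing as an `R01`-linear map (`F` an `R01`-algebra through `E.e01`). -/
def toLin (φ : Framing E N) :
    letI := E.alg01
    N.N01 →ₗ[R01] F :=
  letI := E.alg01
  { toFun := φ
    map_add' := φ.map_add
    map_smul' := fun r x => φ.map_smul r x }

theorem toLin_apply (φ : Framing E N) (x : N.N01) :
    (letI := E.alg01; φ.toLin x) = φ x := rfl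

theorem toLin_ne_zero (φ : Framing E N) :
    letI := E.alg01
    φ.toLin ≠ 0 := by
  letI := E.alg01
  obtain ⟨x, hx⟩ := φ.exists_ne
  intro h
  apply hx
  have := φ.toLin_apply x
  rw [h] at this
  exact this.symm

/-- A nonzero `R01`-linear map `N.N01 → F` is a framing. -/
def ofLin (E : ChartIso c t) (N : QC2 K R0 R1 R01)
    (ε : letI := E.alg01; N.N01 →ₗ[R01] F) (hε : letI := E.alg01; ε ≠ 0) : Framing E N :=
  letI := E.alg01
  { toFun := ε
    map_add' := ε.map_add
    map_smul' := fun r x => ε.map_smul r x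
    exists_ne := by
      by_contra hcon
      push Not at hcon
      exact hε (LinearMap.ext hcon) }

theorem ofLin_apply (E : ChartIso c t) (N : QC2 K R0 R1 R01)
    (ε : letI := E.alg01; N.N01 →ₗ[R01] F) (hε : letI := E.alg01; ε ≠ 0) (x : N.N01) :
    ofLin E N ε hε x = (letI := E.alg01; ε x) := rfl

theorem toLin_ofLin (E : ChartIso c t) (N : QC2 K R0 R1 R01)
    (ε : letI := E.alg01; N.N01 →ₗ[R01] F) (hε : letI := E.alg01; ε ≠ 0) :
    (ofLin E N ε hε).toLin = ε := rfl

end Framing

/-! ### (D1) The line pair of a framed line -/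

variable (E : ChartIso c t) {N : QC2 K R0 R1 R01}

/-- The chart-`0` frame `{ φ (r0 x) | x ∈ N0 }` as a `C0 t`-submodule of `F`. -/
def frameI0 (φ : Framing E N) : Submodule (C0 (K := K) t) F where
  carrier := {z | ∃ x : N.N0, φ (N.r0 x) = z}
  add_mem' := by
    rintro _ _ ⟨x, rfl⟩ ⟨y, rfl⟩
    exact ⟨x + y, by rw [_root_.map_add, φ.map_add]⟩
  zero_mem' := ⟨0, by rw [_root_.map_zero, φ.map_zero]⟩
  smul_mem' := by
    rintro a _ ⟨x, rfl⟩
    refine ⟨E.e0.symm a • x, ?_⟩
    rw [_root_.map_smul, φ.map_smul0, ChartIso.ι0_apply, RingEquiv.apply_symm_apply]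
    rfl

/-- The chart-`1` frame `{ φ (r1 x) | x ∈ N1 }` as a `C1 t`-submodule of `F`. -/
def frameI1 (φ : Framing E N) : Submodule (C1 (K := K) t) F where
  carrier := {z | ∃ x : N.N1, φ (N.r1 x) = z}
  add_mem' := by
    rintro _ _ ⟨x, rfl⟩ ⟨y, rfl⟩
    exact ⟨x + y, by rw [_root_.map_add, φ.map_add]⟩
  zero_mem' := ⟨0, by rw [_root_.map_zero, φ.map_zero]⟩
  smul_mem' := by
    rintro a _ ⟨x, rfl⟩
    refine ⟨E.e1.symm a • x, ?_⟩
    rw [_root_.map_smul, φ.map_smul1, ChartIso.ι1_apply, RingEquiv.apply_symm_apply]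
    rfl

theorem mem_frameI0 {φ : Framing E N} {z : F} :
    z ∈ frameI0 E φ ↔ ∃ x : N.N0, φ (N.r0 x) = z := Iff.rfl

theorem mem_frameI1 {φ : Framing E N} {z : F} :
    z ∈ frameI1 E φ ↔ ∃ x : N.N1, φ (N.r1 x) = z := Iff.rfl

/-- The frames of `Frame.lean` (as `R_j`-submodules through `E`) have the same elements. -/
theorem mem_frame0_iff {φ : Framing E N} {z : F} :
    (letI := E.alg0; letI := E.alg01; haveI := E.tower0; z ∈ Frame.frame0 N φ.toLin) ↔
      z ∈ frameI0 E φ := by
  letI := E.alg0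
  letI := E.alg1
  letI := E.alg01
  haveI := E.tower0
  haveI := E.tower1
  rw [Frame.mem_frame0]
  rfl

theorem mem_frame1_iff {φ : Framing E N} {z : F} :
    (letI := E.alg1; letI := E.alg01; haveI := E.tower1; z ∈ Frame.frame1 N φ.toLin) ↔
      z ∈ frameI1 E φ := by
  letI := E.alg0
  letI := E.alg1
  letI := E.alg01
  haveI := E.tower0
  haveI := E.tower1
  rw [Frame.mem_frame1]
  rfl

theorem frameI0_fg (φ : Framing E N) [Module.Finite R0 N.N0] : (frameI0 E φ).FG := by
  classical
  obtain ⟨S, hS⟩ := (Module.Finite.fg_top : (⊤ : Submodule R0 N.N0).FG)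
  refine ⟨S.image (fun x => φ (N.r0 x)), le_antisymm ?_ ?_⟩
  · rw [Submodule.span_le]
    intro z hz
    rw [Finset.coe_image] at hz
    obtain ⟨x, -, rfl⟩ := hz
    exact ⟨x, rfl⟩
  · rintro _ ⟨x, rfl⟩
    have hx : x ∈ Submodule.span R0 (S : Set N.N0) := by rw [hS]; exact Submodule.mem_top
    induction hx using Submodule.span_induction with
    | mem y hy =>
      exact Submodule.subset_span (by rw [Finset.coe_image]; exact ⟨y, hy, rfl⟩)
    | zero => rw [_root_.map_zero, φ.map_zero]; exact Submodule.zero_mem _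
    | add y y' _ _ hy hy' => rw [_root_.map_add, φ.map_add]; exact Submodule.add_mem _ hy hy'
    | smul r y _ hy =>
      have : φ (N.r0 (r • y)) = E.e0 r • φ (N.r0 y) := by
        rw [_root_.map_smul, φ.map_smul0]
        rfl
      rw [this]
      exact Submodule.smul_mem _ _ hy

theorem frameI1_fg (φ : Framing E N) [Module.Finite R1 N.N1] : (frameI1 E φ).FG := by
  classical
  obtain ⟨S, hS⟩ := (Module.Finite.fg_top : (⊤ : Submodule R1 N.N1).FG)
  refine ⟨S.image (fun x => φ (N.r1 x)), le_antisymm ?_ ?_⟩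
  · rw [Submodule.span_le]
    intro z hz
    rw [Finset.coe_image] at hz
    obtain ⟨x, -, rfl⟩ := hz
    exact ⟨x, rfl⟩
  · rintro _ ⟨x, rfl⟩
    have hx : x ∈ Submodule.span R1 (S : Set N.N1) := by rw [hS]; exact Submodule.mem_top
    induction hx using Submodule.span_induction with
    | mem y hy =>
      exact Submodule.subset_span (by rw [Finset.coe_image]; exact ⟨y, hy, rfl⟩)
    | zero => rw [_root_.map_zero, φ.map_zero]; exact Submodule.zero_mem _
    | add y y' _ _ hy hy' => rw [_root_.map_add, φ.map_add]; exact Submodule.add_mem _ hy hy'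
    | smul r y _ hy =>
      have : φ (N.r1 (r • y)) = E.e1 r • φ (N.r1 y) := by
        rw [_root_.map_smul, φ.map_smul1]
        rfl
      rw [this]
      exact Submodule.smul_mem _ _ hy

/-- A framing that kills `r0 (N0)` is zero. -/
theorem eq_zero_of_r0 (φ : Framing E N) (h : ∀ x : N.N0, φ (N.r0 x) = 0) (y : N.N01) :
    φ y = 0 := by
  refine N.bc0.inductionOn y (fun y => φ y = 0) φ.map_zero h ?_ ?_
  · intro s n hn
    rw [φ.map_smul, hn, mul_zero]
  · intro n₁ n₂ h1 h2
    rw [φ.map_add, h1, h2, add_zero]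

/-- A framing that kills `r1 (N1)` is zero. -/
theorem eq_zero_of_r1 (φ : Framing E N) (h : ∀ x : N.N1, φ (N.r1 x) = 0) (y : N.N01) :
    φ y = 0 := by
  refine N.bc1.inductionOn y (fun y => φ y = 0) φ.map_zero h ?_ ?_
  · intro s n hn
    rw [φ.map_smul, hn, mul_zero]
  · intro n₁ n₂ h1 h2
    rw [φ.map_add, h1, h2, add_zero]

theorem frameI0_ne_bot (φ : Framing E N) : frameI0 E φ ≠ ⊥ := by
  intro h
  obtain ⟨y, hy⟩ := φ.exists_ne
  refine hy (eq_zero_of_r0 E φ (fun x => ?_) y)
  have h1 : φ (N.r0 x) ∈ frameI0 E φ := ⟨x, rfl⟩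
  rwa [h, Submodule.mem_bot] at h1

theorem frameI1_ne_bot (φ : Framing E N) : frameI1 E φ ≠ ⊥ := by
  intro h
  obtain ⟨y, hy⟩ := φ.exists_ne
  refine hy (eq_zero_of_r1 E φ (fun x => ?_) y)
  have h1 : φ (N.r1 x) ∈ frameI1 E φ := ⟨x, rfl⟩
  rwa [h, Submodule.mem_bot] at h1

/-- Overlap: `I0[1/t] ⊆ I1[t]`. -/
theorem frame_ov01 (φ : Framing E N) :
    ∀ x ∈ frameI0 E φ, ∃ k : ℕ, t⁻¹ ^ k * x ∈ frameI1 E φ := by
  rintro _ ⟨x, rfl⟩
  have := c.away1
  have hloc : IsLocalizedModule (Submonoid.powers c.s) N.r1 :=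
    (isLocalizedModule_iff_isBaseChange (Submonoid.powers c.s) R01 N.r1).mpr N.bc1
  obtain ⟨⟨n1, ⟨_, k, rfl⟩⟩, hk⟩ := IsLocalizedModule.surj (Submonoid.powers c.s) N.r1 (N.r0 x)
  refine ⟨k, n1, ?_⟩
  have hk' : N.r1 n1 = (c.s ^ k) • N.r0 x := hk.symm
  rw [hk', φ.map_smul1, _root_.map_pow, ChartIso.ι1_apply, E.map_s]

/-- Overlap: `I1[t] ⊆ I0[1/t]`. -/
theorem frame_ov10 (φ : Framing E N) :
    ∀ x ∈ frameI1 E φ, ∃ k : ℕ, t ^ k * x ∈ frameI0 E φ := by
  rintro _ ⟨x, rfl⟩
  have := c.away0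
  have hloc : IsLocalizedModule (Submonoid.powers c.t) N.r0 :=
    (isLocalizedModule_iff_isBaseChange (Submonoid.powers c.t) R01 N.r0).mpr N.bc0
  obtain ⟨⟨n0, ⟨_, k, rfl⟩⟩, hk⟩ := IsLocalizedModule.surj (Submonoid.powers c.t) N.r0 (N.r1 x)
  refine ⟨k, n0, ?_⟩
  have hk' : N.r0 n0 = (c.t ^ k) • N.r1 x := hk.symm
  rw [hk', φ.map_smul0, _root_.map_pow, ChartIso.ι0_apply, E.map_t]

/-- **(D1) The line pair of a framed line.** -/
def framePair (hN : N.IsLine) (φ : Framing E N) : LinePair K t where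
  I0 := frameI0 E φ
  I1 := frameI1 E φ
  fg0 := by
    have := hN.inv0
    exact frameI0_fg E φ
  fg1 := by
    have := hN.inv1
    exact frameI1_fg E φ
  ne0 := frameI0_ne_bot E φ
  ne1 := frameI1_ne_bot E φ
  ov01 := frame_ov01 E φ
  ov10 := frame_ov10 E φ

theorem mem_framePair_I0 {hN : N.IsLine} {φ : Framing E N} {z : F} :
    z ∈ (framePair E hN φ).I0 ↔ ∃ x : N.N0, φ (N.r0 x) = z := Iff.rfl

theorem mem_framePair_I1 {hN : N.IsLine} {φ : Framing E N} {z : F} :
    z ∈ (framePair E hN φ).I1 ↔ ∃ x : N.N1, φ (N.r1 x) = z := Iff.rfl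

/-! ### (D2) Independence of the framing and of the representative -/

variable {N' : QC2 K R0 R1 R01}

/-- Transport of a framing along an isomorphism. -/
def Framing.comp {E : ChartIso c t} (φ' : Framing E N') (e : QC2.Iso N N') : Framing E N where
  toFun x := φ' (e.e01 x)
  map_add' x y := by rw [_root_.map_add, φ'.map_add]
  map_smul' r x := by rw [_root_.map_smul, φ'.map_smul]
  exists_ne := by
    obtain ⟨y, hy⟩ := φ'.exists_ne
    exact ⟨e.e01.symm y, by rwa [LinearEquiv.apply_symm_apply]⟩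

theorem Framing.comp_apply {E : ChartIso c t} (φ' : Framing E N') (e : QC2.Iso N N')
    (x : N.N01) : φ'.comp e x = φ' (e.e01 x) := rfl

/-- Invariance of the line pair under isomorphisms. -/
theorem framePair_comp (hN : N.IsLine) (hN' : N'.IsLine) (e : QC2.Iso N N')
    (φ' : Framing E N') : framePair E hN (φ'.comp e) = framePair E hN' φ' := by
  refine LinePair.ext' (fun z => ?_) (fun z => ?_)
  · rw [mem_framePair_I0, mem_framePair_I0]
    constructor
    · rintro ⟨x, rfl⟩
      exact ⟨e.e0 x, by rw [← e.comm0]; rfl⟩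
    · rintro ⟨x, rfl⟩
      refine ⟨e.e0.symm x, ?_⟩
      rw [Framing.comp_apply, e.comm0, LinearEquiv.apply_symm_apply]
  · rw [mem_framePair_I1, mem_framePair_I1]
    constructor
    · rintro ⟨x, rfl⟩
      exact ⟨e.e1 x, by rw [← e.comm1]; rfl⟩
    · rintro ⟨x, rfl⟩
      refine ⟨e.e1.symm x, ?_⟩
      rw [Framing.comp_apply, e.comm1, LinearEquiv.apply_symm_apply]

/-- On a line, two framings are proportional: `ψ x * φ y = ψ y * φ x`. -/
theorem framing_mul_comm (hN : N.IsLine) (φ ψ : Framing E N) (x y : N.N01) :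
    ψ x * φ y = ψ y * φ x := by
  letI := E.alg01
  have := hN.inv0
  have hinv : Module.Invertible R01 N.N01 := Module.Invertible.congr N.bc0.equiv
  have h := congrArg (Frame.mulMap ψ.toLin φ.toLin)
    (Module.Invertible.tmul_comm (R := R01) (m₁ := x) (m₂ := y))
  rw [Frame.mulMap_tmul, Frame.mulMap_tmul] at h
  exact h

/-- On a line, two framings differ by a nonzero scalar of `F`. -/
theorem exists_scalar (hN : N.IsLine) (φ ψ : Framing E N) :
    ∃ f : F, f ≠ 0 ∧ ∀ x, ψ x = f * φ x := by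
  obtain ⟨x0, hx0⟩ := φ.exists_ne
  obtain ⟨y0, hy0⟩ := ψ.exists_ne
  have key : ∀ x, ψ x = ψ x0 / φ x0 * φ x := by
    intro x
    rw [div_mul_eq_mul_div, eq_div_iff hx0]
    exact framing_mul_comm E hN φ ψ x x0
  refine ⟨ψ x0 / φ x0, ?_, key⟩
  intro h
  apply hy0
  rw [key y0, h, zero_mul]

/-- Proportional framings give scaled line pairs. -/
theorem isScale_of_scalar (hN : N.IsLine) (φ ψ : Framing E N) {f : F}
    (h : ∀ x, ψ x = f * φ x) : LinePair.IsScale f (framePair E hN φ) (framePair E hN ψ) := by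
  constructor
  · intro z
    rw [mem_framePair_I0]
    constructor
    · rintro ⟨x, rfl⟩
      exact ⟨φ (N.r0 x), ⟨x, rfl⟩, h _⟩
    · rintro ⟨_, ⟨x, rfl⟩, rfl⟩
      exact ⟨x, h _⟩
  · intro z
    rw [mem_framePair_I1]
    constructor
    · rintro ⟨x, rfl⟩
      exact ⟨φ (N.r1 x), ⟨x, rfl⟩, h _⟩
    · rintro ⟨_, ⟨x, rfl⟩, rfl⟩
      exact ⟨x, h _⟩

/-- **(D2), isomorphism form**: the line pairs of two framed isomorphic lines differ by a nonzero
scalar of `F`. -/
theorem exists_isScale_of_iso (hN : N.IsLine) (hN' : N'.IsLine) (e : QC2.Iso N N')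
    (φ : Framing E N) (φ' : Framing E N') :
    ∃ f : F, f ≠ 0 ∧ LinePair.IsScale f (framePair E hN φ) (framePair E hN' φ') := by
  obtain ⟨f, hf, h⟩ := exists_scalar E hN φ (φ'.comp e)
  refine ⟨f, hf, ?_⟩
  rw [← framePair_comp E hN hN' e φ']
  exact isScale_of_scalar E hN φ (φ'.comp e) h

/-- **(D2), Picard form**: if two framed lines have the same class in `LinePic c`, their line pairs
differ by a nonzero scalar of `F`. -/
theorem exists_isScale_of_mk_eq (hN : N.IsLine) (hN' : N'.IsLine)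
    (h : LinePic.mk c N hN = LinePic.mk c N' hN') (φ : Framing E N) (φ' : Framing E N') :
    ∃ f : F, f ≠ 0 ∧ LinePair.IsScale f (framePair E hN φ) (framePair E hN' φ') := by
  rw [LinePic.mk_eq_mk_iff] at h
  obtain ⟨e⟩ := h
  exact exists_isScale_of_iso E hN hN' e φ φ'

/-- Every line has a framing. -/
theorem nonempty_framing (hN : N.IsLine) : Nonempty (Framing E N) := by
  letI := E.alg0
  letI := E.alg1
  letI := E.alg01
  haveI := E.tower0
  haveI := E.tower1
  have hinj : Function.Injective (algebraMap R0 F) := E.ι0_injective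
  obtain ⟨ε, hε⟩ := Frame.exists_framing_ne_zero (F := F) hN hinj
  exact ⟨Framing.ofLin E N ε hε⟩

/-! ### (D3) Tensor products -/

/-- The product framing of `N ⊗ N'`: `x ⊗ y ↦ φ x * φ' y`. -/
noncomputable def Framing.tensor {E : ChartIso c t} (φ : Framing E N) (φ' : Framing E N') :
    Framing E (tensor N N') :=
  letI := E.alg01
  Framing.ofLin E (LineOps39.tensor N N')
    (Frame.mulMap φ.toLin φ'.toLin : N.N01 ⊗[R01] N'.N01 →ₗ[R01] F) (by
    obtain ⟨x, hx⟩ := φ.exists_ne
    obtain ⟨y, hy⟩ := φ'.exists_ne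
    intro h
    have h1 := Frame.mulMap_tmul φ.toLin φ'.toLin x y
    have h2 : (Frame.mulMap φ.toLin φ'.toLin : N.N01 ⊗[R01] N'.N01 →ₗ[R01] F) = 0 := h
    rw [h2] at h1
    exact mul_ne_zero hx hy h1.symm)

theorem Framing.tensor_apply {E : ChartIso c t} (φ : Framing E N) (φ' : Framing E N')
    (w : N.N01 ⊗[R01] N'.N01) :
    (φ.tensor φ') (show (LineOps39.tensor N N').N01 from w) =
      (letI := E.alg01; Frame.mulMap φ.toLin φ'.toLin w) := rfl

theorem Framing.tensor_tmul {E : ChartIso c t} (φ : Framing E N) (φ' : Framing E N')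
    (x : N.N01) (y : N'.N01) :
    (φ.tensor φ') (show (LineOps39.tensor N N').N01 from x ⊗ₜ[R01] y) = φ x * φ' y := by
  letI := E.alg01
  exact Frame.mulMap_tmul φ.toLin φ'.toLin x y

/-- **(D3)** the line pair of a tensor product (with the product framing) is the product. -/
theorem isMul_framePair_tensor (hN : N.IsLine) (hN' : N'.IsLine) (φ : Framing E N)
    (φ' : Framing E N') :
    LinePair.IsMul (framePair E hN φ) (framePair E hN' φ')
      (framePair E (isLine_tensor hN hN') (φ.tensor φ')) := by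
  letI := E.alg01
  constructor
  · intro z
    rw [mem_framePair_I0]
    constructor
    · rintro ⟨w, rfl⟩
      change Frame.mulMap φ.toLin φ'.toLin (tmap (S := R01) N.r0 N'.r0 w) ∈ _
      induction w using TensorProduct.induction_on with
      | zero => rw [_root_.map_zero, _root_.map_zero]; exact Submodule.zero_mem _
      | tmul x y =>
        rw [tmap_tmul, Frame.mulMap_tmul]
        exact Submodule.subset_span ⟨_, ⟨x, rfl⟩, _, ⟨y, rfl⟩, rfl⟩
      | add x y hx hy =>
        rw [_root_.map_add, _root_.map_add]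
        exact Submodule.add_mem _ hx hy
    · intro hz
      change z ∈ (framePair E (isLine_tensor hN hN') (φ.tensor φ')).I0
      induction hz using Submodule.span_induction with
      | mem z hz =>
        obtain ⟨_, ⟨x, rfl⟩, _, ⟨y, rfl⟩, rfl⟩ := hz
        refine ⟨(x ⊗ₜ[R0] y : N.N0 ⊗[R0] N'.N0), ?_⟩
        change Frame.mulMap φ.toLin φ'.toLin (tmap (S := R01) N.r0 N'.r0 (x ⊗ₜ[R0] y)) = _
        rw [tmap_tmul, Frame.mulMap_tmul]
        rfl
      | zero => exact Submodule.zero_mem _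
      | add z z' _ _ hz hz' => exact Submodule.add_mem _ hz hz'
      | smul r z _ hz => exact Submodule.smul_mem _ r hz
  · intro z
    rw [mem_framePair_I1]
    constructor
    · rintro ⟨w, rfl⟩
      change Frame.mulMap φ.toLin φ'.toLin (tmap (S := R01) N.r1 N'.r1 w) ∈ _
      induction w using TensorProduct.induction_on with
      | zero => rw [_root_.map_zero, _root_.map_zero]; exact Submodule.zero_mem _
      | tmul x y =>
        rw [tmap_tmul, Frame.mulMap_tmul]
        exact Submodule.subset_span ⟨_, ⟨x, rfl⟩, _, ⟨y, rfl⟩, rfl⟩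
      | add x y hx hy =>
        rw [_root_.map_add, _root_.map_add]
        exact Submodule.add_mem _ hx hy
    · intro hz
      change z ∈ (framePair E (isLine_tensor hN hN') (φ.tensor φ')).I1
      induction hz using Submodule.span_induction with
      | mem z hz =>
        obtain ⟨_, ⟨x, rfl⟩, _, ⟨y, rfl⟩, rfl⟩ := hz
        refine ⟨(x ⊗ₜ[R1] y : N.N1 ⊗[R1] N'.N1), ?_⟩
        change Frame.mulMap φ.toLin φ'.toLin (tmap (S := R01) N.r1 N'.r1 (x ⊗ₜ[R1] y)) = _
        rw [tmap_tmul, Frame.mulMap_tmul]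
        rfl
      | zero => exact Submodule.zero_mem _
      | add z z' _ _ hz hz' => exact Submodule.add_mem _ hz hz'
      | smul r z _ hz => exact Submodule.smul_mem _ r hz

/-! ### (D4) The structure sheaf -/

/-- The framing `x ↦ e01 x * g` of the structure sheaf (`g ≠ 0`). -/
def Framing.unit (E : ChartIso c t) (g : F) (hg : g ≠ 0) :
    Framing E (QC2.unit : QC2 K R0 R1 R01) where
  toFun x := E.e01 (show R01 from x) * g
  map_add' x y := by
    change E.e01 ((show R01 from x) + (show R01 from y)) * g = _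
    rw [_root_.map_add, add_mul]
  map_smul' r x := by
    change E.e01 (r * (show R01 from x)) * g = _
    rw [_root_.map_mul, mul_assoc]
  exists_ne := ⟨(1 : R01), by
    change E.e01 (1 : R01) * g ≠ 0
    rw [_root_.map_one, one_mul]
    exact hg⟩

theorem Framing.unit_apply (E : ChartIso c t) (g : F) (hg : g ≠ 0) (x : R01) :
    Framing.unit E g hg (show (QC2.unit : QC2 K R0 R1 R01).N01 from x) = E.e01 x * g := rfl

theorem mem_framePair_unit_I0 (g : F) (hg : g ≠ 0) (z : F) :
    z ∈ (framePair E (isLine_unit (A := K) (R0 := R0) (R1 := R1) (R01 := R01))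
      (Framing.unit E g hg)).I0 ↔ ∃ a ∈ C0 (K := K) t, z = a * g := by
  rw [mem_framePair_I0]
  constructor
  · rintro ⟨(x : R0), rfl⟩
    refine ⟨E.ι0 x, (E.e0 x).2, ?_⟩
    change E.e01 (algebraMap R0 R01 x) * g = _
    rw [E.e01_algebraMap0]
  · rintro ⟨a, ha, rfl⟩
    refine ⟨(show (QC2.unit : QC2 K R0 R1 R01).N0 from E.e0.symm ⟨a, ha⟩), ?_⟩
    change E.e01 (algebraMap R0 R01 (E.e0.symm ⟨a, ha⟩)) * g = _
    rw [E.e01_algebraMap0, ChartIso.ι0_apply, RingEquiv.apply_symm_apply]

theorem mem_framePair_unit_I1 (g : F) (hg : g ≠ 0) (z : F) :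
    z ∈ (framePair E (isLine_unit (A := K) (R0 := R0) (R1 := R1) (R01 := R01))
      (Framing.unit E g hg)).I1 ↔ ∃ a ∈ C1 (K := K) t, z = a * g := by
  rw [mem_framePair_I1]
  constructor
  · rintro ⟨(x : R1), rfl⟩
    refine ⟨E.ι1 x, (E.e1 x).2, ?_⟩
    change E.e01 (algebraMap R1 R01 x) * g = _
    rw [E.e01_algebraMap1]
  · rintro ⟨a, ha, rfl⟩
    refine ⟨(show (QC2.unit : QC2 K R0 R1 R01).N1 from E.e1.symm ⟨a, ha⟩), ?_⟩
    change E.e01 (algebraMap R1 R01 (E.e1.symm ⟨a, ha⟩)) * g = _
    rw [E.e01_algebraMap1, ChartIso.ι1_apply, RingEquiv.apply_symm_apply]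

/-- **(D4)** the structure sheaf with the framing `x ↦ e01 x` gives the unit line pair. -/
theorem isUnitPair_framePair_unit :
    LinePair.IsUnitPair (framePair E (isLine_unit (A := K) (R0 := R0) (R1 := R1) (R01 := R01))
      (Framing.unit E 1 one_ne_zero)) := by
  constructor
  · intro z
    rw [mem_framePair_unit_I0]
    constructor
    · rintro ⟨a, ha, rfl⟩
      rwa [mul_one]
    · intro hz
      exact ⟨z, hz, (mul_one z).symm⟩
  · intro z
    rw [mem_framePair_unit_I1]
    constructor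
    · rintro ⟨a, ha, rfl⟩
      rwa [mul_one]
    · intro hz
      exact ⟨z, hz, (mul_one z).symm⟩

/-- **(D4)** the structure sheaf with the framing `x ↦ e01 x * g` is `g •` the unit line pair. -/
theorem isScale_framePair_unit (g : F) (hg : g ≠ 0) :
    LinePair.IsScale g
      (framePair E (isLine_unit (A := K) (R0 := R0) (R1 := R1) (R01 := R01))
        (Framing.unit E 1 one_ne_zero))
      (framePair E (isLine_unit (A := K) (R0 := R0) (R1 := R1) (R01 := R01))
        (Framing.unit E g hg)) := by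
  refine isScale_of_scalar E _ _ _ (fun x => ?_)
  change E.e01 (show R01 from x) * g = g * (E.e01 (show R01 from x) * 1)
  rw [mul_one, mul_comm]

/-! ### (D5) Ideal sheaves -/

/-- The underlying element of `R01` of an overlap section of an ideal sheaf. -/
def ofIdealsVal (D : IdealPair R0 R1 R01) (x : (ofIdeals c D).N01) : R01 :=
  (show ↥(D.unitSubPair (A := K)).S01 from x).1

theorem ofIdealsVal_add (D : IdealPair R0 R1 R01) (x y : (ofIdeals c D).N01) :
    ofIdealsVal D (x + y) = ofIdealsVal D x + ofIdealsVal D y := rfl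

theorem ofIdealsVal_smul (D : IdealPair R0 R1 R01) (r : R01) (x : (ofIdeals c D).N01) :
    ofIdealsVal D (r • x) = r * ofIdealsVal D x := rfl

theorem ofIdealsVal_r0 (D : IdealPair R0 R1 R01) (x : D.I0) :
    ofIdealsVal D ((ofIdeals c D).r0 (show (ofIdeals c D).N0 from x)) = algebraMap R0 R01 x.1 :=
  rfl

theorem ofIdealsVal_r1 (D : IdealPair R0 R1 R01) (x : D.I1) :
    ofIdealsVal D ((ofIdeals c D).r1 (show (ofIdeals c D).N1 from x)) = algebraMap R1 R01 x.1 :=
  rfl

/-- The inclusion framing of an ideal sheaf `O(-D) ⊆ O`: `x ↦ e01 x`. -/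
def Framing.incl (E : ChartIso c t) (D : IdealPair R0 R1 R01) (hD0 : D.I0 ≠ ⊥) :
    Framing E (ofIdeals c D) where
  toFun x := E.e01 (ofIdealsVal D x)
  map_add' x y := by rw [ofIdealsVal_add, _root_.map_add]
  map_smul' r x := by rw [ofIdealsVal_smul, _root_.map_mul]
  exists_ne := by
    obtain ⟨a, ha, ha0⟩ := Submodule.exists_mem_ne_zero_of_ne_bot hD0
    refine ⟨(ofIdeals c D).r0 (show (ofIdeals c D).N0 from (⟨a, ha⟩ : D.I0)), ?_⟩
    rw [ofIdealsVal_r0, E.e01_algebraMap0]
    intro h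
    exact ha0 (E.ι0_injective (by rw [h, _root_.map_zero]))

theorem Framing.incl_apply (E : ChartIso c t) (D : IdealPair R0 R1 R01) (hD0 : D.I0 ≠ ⊥)
    (x : (ofIdeals c D).N01) : Framing.incl E D hD0 x = E.e01 (ofIdealsVal D x) := rfl

/-- **(D5)** on ideal sheaves with the inclusion framing, `framePair` is `ChartIso.toLinePair`. -/
theorem framePair_ofIdeals (D : IdealPair R0 R1 R01) (hL : (ofIdeals c D).IsLine)
    (hD0 : D.I0 ≠ ⊥) (hD1 : D.I1 ≠ ⊥) (hfg0 : D.I0.FG) (hfg1 : D.I1.FG) :
    framePair E hL (Framing.incl E D hD0) = E.toLinePair D hD0 hD1 hfg0 hfg1 := by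
  refine LinePair.ext' (fun z => ?_) (fun z => ?_)
  · rw [mem_framePair_I0, ChartIso.mem_toLinePair_I0]
    constructor
    · rintro ⟨(x : D.I0), rfl⟩
      refine ⟨x.1, x.2, ?_⟩
      rw [Framing.incl_apply, ofIdealsVal_r0 D x, E.e01_algebraMap0]
    · rintro ⟨y, hy, rfl⟩
      refine ⟨(show (ofIdeals c D).N0 from (⟨y, hy⟩ : D.I0)), ?_⟩
      rw [Framing.incl_apply, ofIdealsVal_r0 D ⟨y, hy⟩, E.e01_algebraMap0]
  · rw [mem_framePair_I1, ChartIso.mem_toLinePair_I1]
    constructor
    · rintro ⟨(x : D.I1), rfl⟩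
      refine ⟨x.1, x.2, ?_⟩
      rw [Framing.incl_apply, ofIdealsVal_r1 D x, E.e01_algebraMap1]
    · rintro ⟨y, hy, rfl⟩
      refine ⟨(show (ofIdeals c D).N1 from (⟨y, hy⟩ : D.I1)), ?_⟩
      rw [Framing.incl_apply, ofIdealsVal_r1 D ⟨y, hy⟩, E.e01_algebraMap1]

/-! ### (D7) generic part: the order of a submodule whose `p`-th power is principal -/

section PowOrd

open AlgebraicCurve Fermat.Agent.T1.Dict59.OrdInf Fermat.Agent.X0.FF

variable {K₂ F₂ : Type*} [Field K₂] [Field F₂] [Algebra K₂ F₂] {F₁ : Type*} [Field F₁]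
  (ψ : F₁ →+* F₂) (w : Place K₂ F₂) {R : Type*} [CommRing R] [Algebra R F₁]

/-- A lower bound `m` for the orders on `I` gives the lower bound `n * m` on `I ^ n`. -/
theorem le_ord_of_mem_pow (hR : ∀ r : R, ψ (algebraMap R F₁ r) ∈ w.toValuationSubring)
    (I : Submodule R F₁) (m : ℤ) (hm : ∀ a ∈ I, a ≠ 0 → m ≤ w.ord (ψ a)) {n : ℕ} {z : F₁}
    (hz : z ∈ I ^ n) : z ≠ 0 → (n : ℤ) * m ≤ w.ord (ψ z) := by
  induction hz using Submodule.pow_induction_on_left' with
  | algebraMap r =>
    intro _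
    rw [Nat.cast_zero, zero_mul]
    exact ord_nonneg_of_mem w (hR r)
  | add x y i hx hy ihx ihy =>
    intro hxy
    rcases eq_or_ne x 0 with rfl | hx0
    · rw [zero_add] at hxy ⊢
      exact ihy hxy
    rcases eq_or_ne y 0 with rfl | hy0
    · rw [add_zero] at hxy ⊢
      exact ihx hxy
    exact le_trans (le_min (ihx hx0) (ihy hy0)) (ord_map_add_ge ψ w hxy)
  | mem_mul a ha i x hx ih =>
    intro hax
    have ha0 : a ≠ 0 := left_ne_zero_of_mul hax
    have hx0 : x ≠ 0 := right_ne_zero_of_mul hax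
    have h1 := hm a ha ha0
    have h2 := ih hx0
    rw [ord_map_mul ψ w ha0 hx0]
    push_cast
    linarith

/-- **(D7), local form.**  If `I ^ p = R ∙ g` (`g ≠ 0`) for an `R`-submodule `I` of `F₁` whose orders
at `w` are bounded below, `R` mapping into the valuation ring of `w`, then
`p * min ord_w (I) = ord_w g`. -/
theorem mul_ordInf_eq_of_pow_eq_span
    (hR : ∀ r : R, ψ (algebraMap R F₁ r) ∈ w.toValuationSubring) (I : Submodule R F₁)
    (hbdd : BddBelow (ordSet ψ w (I : Set F₁))) (hne : (ordSet ψ w (I : Set F₁)).Nonempty)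
    {p : ℕ} {g : F₁} (hg : g ≠ 0) (h : I ^ p = Submodule.span R {g}) :
    (p : ℤ) * ordInf ψ w (I : Set F₁) = w.ord (ψ g) := by
  obtain ⟨a, ha, ha0, hao⟩ : ∃ a ∈ I, a ≠ 0 ∧ w.ord (ψ a) = ordInf ψ w (I : Set F₁) :=
    Int.csInf_mem hne hbdd
  have hlb : ∀ b ∈ I, b ≠ 0 → ordInf ψ w (I : Set F₁) ≤ w.ord (ψ b) :=
    fun b hb hb0 => csInf_le hbdd ⟨b, hb, hb0, rfl⟩
  apply le_antisymm
  · have hgm : g ∈ I ^ p := by
      rw [h]
      exact Submodule.mem_span_singleton_self g
    exact le_ord_of_mem_pow ψ w hR I _ hlb hgm hg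
  · have hap : a ^ p ∈ I ^ p := Submodule.pow_mem_pow I ha p
    rw [h, Submodule.mem_span_singleton] at hap
    obtain ⟨r, hr⟩ := hap
    have hap0 : a ^ p ≠ 0 := pow_ne_zero p ha0
    have hr0 : algebraMap R F₁ r ≠ 0 := by
      intro h0
      apply hap0
      rw [← hr, Algebra.smul_def, h0, zero_mul]
    have h1 : w.ord (ψ (a ^ p)) = (p : ℤ) * ordInf ψ w (I : Set F₁) := by
      rw [_root_.map_pow, ← hao]
      have := w.ord_zpow (ψ a) (p : ℤ)
      rwa [zpow_natCast] at this
    have h2 : w.ord (ψ (a ^ p)) = w.ord (ψ (algebraMap R F₁ r)) + w.ord (ψ g) := by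
      rw [← hr, Algebra.smul_def, ord_map_mul ψ w hr0 hg]
    have h3 : 0 ≤ w.ord (ψ (algebraMap R F₁ r)) := ord_nonneg_of_mem w (hR r)
    linarith

/-- **(D7), chart form**: for a nonzero finitely generated module `I` over a subalgebra `C` mapped into
the valuation ring of `w`: `I ^ p = C ∙ g` implies `p * ordInf I = ord_w g`. -/
theorem mul_ordInf_chart {K₁ : Type*} [Field K₁] [Algebra K₁ F₁] (C : Subalgebra K₁ F₁)
    (hC : ∀ c ∈ C, ψ c ∈ w.toValuationSubring) (I : Submodule C F₁) (hfg : I.FG) (hne : I ≠ ⊥)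
    {p : ℕ} {g : F₁} (hg : g ≠ 0) (h : I ^ p = Submodule.span C {g}) :
    (p : ℤ) * ordInf ψ w (I : Set F₁) = w.ord (ψ g) :=
  mul_ordInf_eq_of_pow_eq_span (R := C) ψ w (fun r : C => hC (r : F₁) r.2) I
    (bddBelow_ordSet ψ w hC I hfg) (nonempty_ordSet ψ w I hne) hg h

end PowOrd

/-! ### Transport of powers from `Submodule R0 F` (through `E`) to `Submodule (C0 t) F` -/

section Transport

open scoped Pointwise

/-- If `S ⊆ F` generates, over a ring `R`, a submodule whose `p`-th power is `R ∙ g`, then over any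
bigger ring `C` (acting compatibly) the `C`-span of `S` has `p`-th power `C ∙ g`. -/
theorem span_pow_eq_span_singleton {R C : Type*} [CommRing R] [CommRing C] [Algebra R C]
    [Algebra R F] [Algebra C F] [IsScalarTower R C F] (I : Submodule R F) {p : ℕ} {g : F}
    (h : I ^ p = Submodule.span R {g}) :
    Submodule.span C (I : Set F) ^ p = Submodule.span C {g} := by
  rw [Submodule.span_pow]
  have hI : I ^ p = Submodule.span R ((I : Set F) ^ p) := by
    conv_lhs => rw [← Submodule.span_eq I]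
    rw [Submodule.span_pow]
  apply le_antisymm
  · rw [Submodule.span_le]
    intro z hz
    have h1 : z ∈ Submodule.span R {g} := by
      rw [← h, hI]
      exact Submodule.subset_span hz
    obtain ⟨r, rfl⟩ := Submodule.mem_span_singleton.mp h1
    rw [SetLike.mem_coe, Submodule.mem_span_singleton]
    exact ⟨algebraMap R C r, by rw [algebraMap_smul]⟩
  · rw [Submodule.span_le, Set.singleton_subset_iff, SetLike.mem_coe]
    have h1 : g ∈ Submodule.span R ((I : Set F) ^ p) := by
      rw [← hI, h]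
      exact Submodule.mem_span_singleton_self g
    exact Submodule.span_subset_span R C _ h1

end Transport

/-- The frames of `Frame.lean` and the chart modules of `framePair` have the same powers. -/
theorem frameI0_pow_eq_span (φ : Framing E N) {p : ℕ} {g : F}
    (h : letI := E.alg0; letI := E.alg1; letI := E.alg01
      haveI := E.tower0; haveI := E.tower1
      Frame.frame0 N φ.toLin ^ p = Submodule.span R0 {g}) :
    frameI0 E φ ^ p = Submodule.span (C0 (K := K) t) {g} := by
  letI := E.alg0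
  letI := E.alg1
  letI := E.alg01
  haveI := E.tower0
  haveI := E.tower1
  letI : Algebra R0 (C0 (K := K) t) := (E.e0 : R0 →+* C0 (K := K) t).toAlgebra
  haveI : IsScalarTower R0 (C0 (K := K) t) F := IsScalarTower.of_algebraMap_eq (fun x => rfl)
  have h1 := span_pow_eq_span_singleton (C := C0 (K := K) t) (Frame.frame0 N φ.toLin) h
  have h2 : Submodule.span (C0 (K := K) t) (Frame.frame0 N φ.toLin : Set F) = frameI0 E φ := by
    have h3 : (Frame.frame0 N φ.toLin : Set F) = (frameI0 E φ : Set F) :=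
      Set.ext fun z => mem_frame0_iff E
    rw [h3, Submodule.span_eq]
  rwa [h2] at h1

theorem frameI1_pow_eq_span (φ : Framing E N) {p : ℕ} {g : F}
    (h : letI := E.alg0; letI := E.alg1; letI := E.alg01
      haveI := E.tower0; haveI := E.tower1
      Frame.frame1 N φ.toLin ^ p = Submodule.span R1 {g}) :
    frameI1 E φ ^ p = Submodule.span (C1 (K := K) t) {g} := by
  letI := E.alg0
  letI := E.alg1
  letI := E.alg01
  haveI := E.tower0
  haveI := E.tower1
  letI : Algebra R1 (C1 (K := K) t) := (E.e1 : R1 →+* C1 (K := K) t).toAlgebra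
  haveI : IsScalarTower R1 (C1 (K := K) t) F := IsScalarTower.of_algebraMap_eq (fun x => rfl)
  have h1 := span_pow_eq_span_singleton (C := C1 (K := K) t) (Frame.frame1 N φ.toLin) h
  have h2 : Submodule.span (C1 (K := K) t) (Frame.frame1 N φ.toLin : Set F) = frameI1 E φ := by
    have h3 : (Frame.frame1 N φ.toLin : Set F) = (frameI1 E φ : Set F) :=
      Set.ext fun z => mem_frame1_iff E
    rw [h3, Submodule.span_eq]
  rwa [h2] at h1

/-- **Framed form of `p`-torsion in the Picard group**: if `(LinePic.mk c N hN) ^ p = 1` then for EVERY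
framing `φ` of `N` there is ONE `g ≠ 0` generating the `p`-th powers of both chart modules of
`framePair E hN φ`. -/
theorem exists_pow_eq_span_of_pow_eq_one (hN : N.IsLine) {p : ℕ}
    (h : (LinePic.mk c N hN) ^ p = 1) (φ : Framing E N) :
    ∃ g : F, g ≠ 0 ∧ (framePair E hN φ).I0 ^ p = Submodule.span (C0 (K := K) t) {g} ∧
      (framePair E hN φ).I1 ^ p = Submodule.span (C1 (K := K) t) {g} := by
  letI := E.alg0
  letI := E.alg1
  letI := E.alg01
  haveI := E.tower0
  haveI := E.tower1
  obtain ⟨ψ⟩ := Frame.nonempty_iso_tpow_of_pow_eq_one c hN h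
  obtain ⟨g, hg, h0, h1⟩ := Frame.exists_pow_eq_span φ.toLin φ.toLin_ne_zero p ψ
  exact ⟨g, hg, frameI0_pow_eq_span E φ h0, frameI1_pow_eq_span E φ h1⟩

end Fermat.Agent.T1B.Hol31.DictExt
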