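/-
T1B (S44), brick F8' slice S5 HOL (brick 594), helper31: DICT-EXT, divisor side.

`K = L ⊆ ℚ̄` a number field, `F = L·F_M`, divisors on the `ℚ̄`-curve (T1A vocabulary `Dict59`).

* `deg_cls_eq_of_isScale` : **(D6)** scaled line pairs have the same degree and the same class;
* `mul_divL_eq_of_pow_eq_span` : **(D7)** if `P.I_j ^ p = C_j ∙ g` on both charts then
  `p * divL P = - div (cL g)`;  `deg_eq_zero_of_pow_eq_span`;
* `isPData_of_pow_eq_span` : `Hecke3.IsPData p (cls P) ⟨divL P, _⟩ (cL g)⁻¹`, hence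
  `Hecke3.delta A e p H ⟨cls P, _⟩ = dl A (e (cL g)⁻¹)`;
* `exists_isPData_of_pow_eq_one` : the Picard-group form for framed lines
  (`(LinePic.mk c N hN) ^ p = 1`, any framing `φ`);
* `cls_framePair_eq_of_mk_eq` : the class of `framePair E hN φ` only depends on `LinePic.mk c N hN`.
-/
import Mathlib
import Fermat.Agent.T1B.Hol31.DictExt
import Fermat.Agent.T1.Dict59.DivCalc
import Fermat.Agent.T1B.Hecke3.Delta

set_option autoImplicit false
set_option linter.unusedSectionVars false
set_option linter.style.haveILetI false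

namespace Fermat.Agent.T1B.Hol31.DictExtDiv

open Fermat.Agent.Jac Fermat.Agent.Jac.LineOps39 Fermat.Agent.Jac.JGroup85Pic
open Fermat.Agent.T1.Dict59 Fermat.Agent.T1.Adapt96 Fermat.Agent.T1B.Hol31.DictExt

section Concrete

set_option synthInstance.maxHeartbeats 400000
set_option maxHeartbeats 1000000

open HahnSeries AlgebraicCurve ModularCurve IntermediateField
open Fermat.Agent.RED.Interface4 Fermat.Agent.T1B.Hecke3 Fermat.Agent.T1.Dict59.OrdInf

variable {M : ℕ} [NeZero M] {L : IntermediateField ℚ Qbar} {t : FK M L}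

/-- **(D7)** If the `p`-th powers of both chart modules of a line pair `P` are generated by ONE function
`g ≠ 0`, then `p • divL P = - div (cL g)`. -/
theorem mul_divL_eq_of_pow_eq_span (ht : NonConst M t) (P : LinePair L t) {p : ℕ} {g : FK M L}
    (hg : g ≠ 0) (h0 : P.I0 ^ p = Submodule.span (C0 (K := L) t) {g})
    (h1 : P.I1 ^ p = Submodule.span (C1 (K := L) t) {g}) (w : Place Qbar (Fbar M)) :
    (p : ℤ) * LinePair.divL P w = - w.ord (cL M L g) := by
  rw [divL_apply ht]
  by_cases htw : cL M L t ∈ w.toValuationSubring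
  · rw [LinePair.divFun_of_mem P w htw, mul_neg, neg_inj]
    exact mul_ordInf_chart (cL M L) w (C0 (K := L) t) (cL_C0_mem w htw) P.I0 P.fg0 P.ne0 hg h0
  · rw [LinePair.divFun_of_not_mem P w htw, mul_neg, neg_inj]
    exact mul_ordInf_chart (cL M L) w (C1 (K := L) t) (cL_C1_mem w htw) P.I1 P.fg1 P.ne1 hg h1

/-- Under the hypotheses of (D7) the line pair has degree `0`. -/
theorem deg_eq_zero_of_pow_eq_span (ht : NonConst M t) (P : LinePair L t) {p : ℕ} (hp : p ≠ 0)
    {g : FK M L} (hg : g ≠ 0) (h0 : P.I0 ^ p = Submodule.span (C0 (K := L) t) {g})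
    (h1 : P.I1 ^ p = Submodule.span (C1 (K := L) t) {g}) : LinePair.deg P = 0 := by
  have hcg : cL M L g ≠ 0 := (map_ne_zero (cL M L)).2 hg
  obtain ⟨Dg, hDg, hdeg⟩ := Fermat.Agent.RED.TOP.FbarFacts20.exists_divisor_bar M hcg
  have h2 : (p : ℤ) • LinePair.divL P = -Dg := by
    ext w
    rw [Finsupp.smul_apply, smul_eq_mul, Finsupp.neg_apply, hDg w]
    exact mul_divL_eq_of_pow_eq_span ht P hg h0 h1 w
  have h3 := congrArg Divisor.degree h2
  rw [map_zsmul, map_neg, hdeg, neg_zero, smul_eq_mul] at h3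
  rcases mul_eq_zero.mp h3 with h4 | h4
  · exact absurd (by exact_mod_cast h4) hp
  · exact h4

/-- **(D7), `IsPData` form**: `(divL P, (cL g)⁻¹)` presents the `p`-torsion class `cls P`, so that
`Hecke3.delta A e p H ⟨cls P, _⟩ = dl A (e (cL g)⁻¹) = - dl A (e (cL g))`. -/
theorem isPData_of_pow_eq_span (ht : NonConst M t) (P : LinePair L t) {p : ℕ} (hp : p ≠ 0)
    {g : FK M L} (hg : g ≠ 0) (h0 : P.I0 ^ p = Submodule.span (C0 (K := L) t) {g})
    (h1 : P.I1 ^ p = Submodule.span (C1 (K := L) t) {g}) :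
    ∃ hdeg : LinePair.deg P = 0,
      IsPData (K := Qbar) p (LinePair.cls P)
        ⟨LinePair.divL P, Divisor.mem_degZero.2 hdeg⟩ (cL M L g)⁻¹ := by
  have hdeg := deg_eq_zero_of_pow_eq_span ht P hp hg h0 h1
  have hcg : cL M L g ≠ 0 := (map_ne_zero (cL M L)).2 hg
  refine ⟨hdeg, ?_, inv_ne_zero hcg, fun w => ?_⟩
  · unfold LinePair.cls
    rw [dif_pos hdeg]
  · rw [w.ord_inv]
    exact mul_divL_eq_of_pow_eq_span ht P hg h0 h1 w

/-- **(D6)** scaled line pairs have the same degree and the same class. -/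
theorem deg_cls_eq_of_isScale (ht : NonConst M t) {P P' : LinePair L t} {f : FK M L} (hf : f ≠ 0)
    (h : LinePair.IsScale f P P') :
    LinePair.deg P' = LinePair.deg P ∧ (LinePair.deg P = 0 → LinePair.cls P' = LinePair.cls P) := by
  have hcf : cL M L f ≠ 0 := (map_ne_zero (cL M L)).2 hf
  obtain ⟨Df, hDf, hdegf⟩ := Fermat.Agent.RED.TOP.FbarFacts20.exists_divisor_bar M hcf
  have h1 : LinePair.divL P' = LinePair.divL P - Df := by
    ext w
    rw [Finsupp.sub_apply, hDf w]
    exact clsSmul L t ht f hf P P' h w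
  have hdeg : LinePair.deg P' = LinePair.deg P := by
    unfold LinePair.deg
    rw [h1, map_sub, hdegf, sub_zero]
  refine ⟨hdeg, fun h0 => ?_⟩
  have h0' : LinePair.deg P' = 0 := hdeg.trans h0
  unfold LinePair.cls
  rw [dif_pos h0, dif_pos h0']
  refine QuotientAddGroup.eq.2 ?_
  rw [AddSubgroup.mem_addSubgroupOf]
  refine ⟨cL M L f, hcf, fun w => ?_⟩
  have h2 := clsSmul L t ht f hf P P' h w
  simp only [AddSubgroup.coe_add, NegMemClass.coe_neg, Finsupp.add_apply, Finsupp.neg_apply]
  rw [h2]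
  ring

/-! ### Picard-group forms for framed lines -/

variable {S0 S1 S01 : Type} [CommRing S0] [CommRing S1] [CommRing S01]
  [Algebra L S0] [Algebra L S1] [Algebra L S01] [Algebra S0 S01] [Algebra S1 S01]
  [IsScalarTower L S0 S01] [IsScalarTower L S1 S01]
  {c : TwoChart L S0 S1 S01} (E : ChartIso c t) {N N' : QC2 L S0 S1 S01}

/-- **DICT-EXT, main statement.**  If the class of the line `N` is killed by `p ≠ 0` in `LinePic c`, then
for every framing `φ` of `N` there is ONE function `g ≠ 0` of `L·F_M` generating the `p`-th powers of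
both chart modules of `Λ = framePair E hN φ`; `Λ` has degree `0` and `(divL Λ, (cL g)⁻¹)` presents the
`p`-torsion class `cls Λ` of `J₀(M)`. -/
theorem exists_isPData_of_pow_eq_one (ht : NonConst M t) (hN : N.IsLine) {p : ℕ} (hp : p ≠ 0)
    (h : (LinePic.mk c N hN) ^ p = 1) (φ : Framing E N) :
    ∃ g : FK M L, g ≠ 0 ∧
      (framePair E hN φ).I0 ^ p = Submodule.span (C0 (K := L) t) {g} ∧
      (framePair E hN φ).I1 ^ p = Submodule.span (C1 (K := L) t) {g} ∧
      ∃ hdeg : LinePair.deg (framePair E hN φ) = 0,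
        IsPData (K := Qbar) p (LinePair.cls (framePair E hN φ))
          ⟨LinePair.divL (framePair E hN φ), Divisor.mem_degZero.2 hdeg⟩ (cL M L g)⁻¹ := by
  obtain ⟨g, hg, h0, h1⟩ := exists_pow_eq_span_of_pow_eq_one E hN h φ
  exact ⟨g, hg, h0, h1, isPData_of_pow_eq_span ht (framePair E hN φ) hp hg h0 h1⟩

/-- The class (and the degree) of `framePair E hN φ` only depends on `LinePic.mk c N hN`. -/
theorem cls_framePair_eq_of_mk_eq (ht : NonConst M t) (hN : N.IsLine) (hN' : N'.IsLine)
    (h : LinePic.mk c N hN = LinePic.mk c N' hN') (φ : Framing E N) (φ' : Framing E N') :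
    LinePair.deg (framePair E hN' φ') = LinePair.deg (framePair E hN φ) ∧
      (LinePair.deg (framePair E hN φ) = 0 →
        LinePair.cls (framePair E hN' φ') = LinePair.cls (framePair E hN φ)) := by
  obtain ⟨f, hf, hs⟩ := exists_isScale_of_mk_eq E hN hN' h φ φ'
  exact deg_cls_eq_of_isScale ht hf hs

end Concrete

end Fermat.Agent.T1B.Hol31.DictExtDiv
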