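/-
T1B (S44), brick F8' slice S5 HOL (brick 594), helper31: DICT-EXT versus the two-pair dictionary clause.

The T1A dictionary `d` (and its level-`N` twin `Bridge39`) is characterised on classes by TWO ideal pairs:
`x = [divL (lp D_A) − divL (lp D_B)]  ⇒  d x = cl D_A * (cl D_B)⁻¹` (`Eff.lp`, `Eff.cl`).
Here is the abstract core of the FRAMED form (JSpec-F): for ANY framed line `(N, φ)` with
`mk N * cl D_B = cl D_A` in the Picard group,

* `divL_framePair_of_mul_eq` : `divL (framePair E hN φ) = divL (lp D_A) − divL (lp D_B) + div (cL f)` for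
  some `f ≠ 0` of `L·F_M`;
* `cls_framePair_of_mul_eq` : `framePair E hN φ` has degree `0` and class
  `[divL (lp D_A) − divL (lp D_B)]` in `J₀(M)`.
-/
import Mathlib
import Fermat.Agent.T1B.Hol31.DictExtDiv
import Fermat.Agent.T1.Dict59.EffCore

set_option autoImplicit false
set_option linter.unusedSectionVars false
set_option linter.style.haveILetI false

namespace Fermat.Agent.T1B.Hol31.DictExtEff

open Fermat.Agent.Jac Fermat.Agent.Jac.LineOps39 Fermat.Agent.Jac.JGroup85Pic
open Fermat.Agent.Jac.AbelJacobi73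
open Fermat.Agent.T1.Dict59 Fermat.Agent.T1.Adapt96 Fermat.Agent.T1B.Hol31.DictExt
open HahnSeries AlgebraicCurve ModularCurve IntermediateField
open Fermat.Agent.RED.Interface4

set_option synthInstance.maxHeartbeats 400000
set_option maxHeartbeats 1000000

variable {M : ℕ} [NeZero M] {L : IntermediateField ℚ Qbar} {t : FK M L}
  {S0 S1 S01 : Type} [CommRing S0] [CommRing S1] [CommRing S01]
  [Algebra L S0] [Algebra L S1] [Algebra L S01] [Algebra S0 S01] [Algebra S1 S01]
  [IsScalarTower L S0 S01] [IsScalarTower L S1 S01] [IsDedekindDomain S0] [IsDedekindDomain S1]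
  {c : TwoChart L S0 S1 S01} (E : ChartIso c t) {N : QC2 L S0 S1 S01}

/-- `framePair` of an ideal sheaf with the inclusion framing is `Eff.lp`. -/
theorem framePair_incl_eq_lp (D : IdealPair S0 S1 S01) (h : PairNeBot D) :
    framePair E (h.isLine_ofIdeals c) (Framing.incl E D h.ne0) = Eff.lp E D h :=
  framePair_ofIdeals E D (h.isLine_ofIdeals c) h.ne0 h.ne1 (IsNoetherian.noetherian _)
    (IsNoetherian.noetherian _)

/-- **JSpec-F, divisor form.** -/
theorem divL_framePair_of_mul_eq (ht : NonConst M t) (hN : N.IsLine) (φ : Framing E N)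
    (DA DB : IdealPair S0 S1 S01) (hA : PairNeBot DA) (hB : PairNeBot DB)
    (h : LinePic.mk c N hN * Eff.cl c DB hB = Eff.cl c DA hA) :
    ∃ f : FK M L, f ≠ 0 ∧ ∀ w : Place Qbar (Fbar M),
      LinePair.divL (framePair E hN φ) w =
        LinePair.divL (Eff.lp E DA hA) w - LinePair.divL (Eff.lp E DB hB) w +
          w.ord (cL M L f) := by
  have hLB := hB.isLine_ofIdeals c
  have hLA := hA.isLine_ofIdeals c
  have hT : (tensor N (ofIdeals c DB)).IsLine := isLine_tensor hN hLB
  have hmk : LinePic.mk c (tensor N (ofIdeals c DB)) hT = LinePic.mk c (ofIdeals c DA) hLA := by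
    rw [← LinePic.mk_mul_mk hN hLB]
    exact h
  obtain ⟨f, hf, hs⟩ := exists_isScale_of_mk_eq E hT hLA hmk
    (φ.tensor (Framing.incl E DB hB.ne0)) (Framing.incl E DA hA.ne0)
  rw [framePair_incl_eq_lp E DA hA] at hs
  have hmul := isMul_framePair_tensor E hN hLB φ (Framing.incl E DB hB.ne0)
  rw [framePair_incl_eq_lp E DB hB] at hmul
  have h1 := clsMul L t ht _ _ _ hmul
  refine ⟨f, hf, fun w => ?_⟩
  have h2 := clsSmul L t ht f hf _ _ hs w
  have h3 := DFunLike.congr_fun h1 w
  rw [Finsupp.add_apply] at h3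
  rw [h3] at h2
  linarith

/-- **JSpec-F, class form**: a framed line `(N, φ)` with `mk N * cl D_B = cl D_A` has a line pair of
degree `0` whose class in `J₀(M)` is `[divL (lp D_A) − divL (lp D_B)]`. -/
theorem cls_framePair_of_mul_eq (ht : NonConst M t) (hN : N.IsLine) (φ : Framing E N)
    (DA DB : IdealPair S0 S1 S01) (hA : PairNeBot DA) (hB : PairNeBot DB)
    (h : LinePic.mk c N hN * Eff.cl c DB hB = Eff.cl c DA hA)
    (hdeg : LinePair.divL (Eff.lp E DA hA) - LinePair.divL (Eff.lp E DB hB) ∈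
      Divisor.degZero (K := Qbar) (F := Fbar M)) :
    LinePair.deg (framePair E hN φ) = 0 ∧
      LinePair.cls (framePair E hN φ) = Pic0.mk ⟨_, hdeg⟩ := by
  obtain ⟨f, hf, hw⟩ := divL_framePair_of_mul_eq E ht hN φ DA DB hA hB h
  have hcf : cL M L f ≠ 0 := (map_ne_zero (cL M L)).2 hf
  obtain ⟨Df, hDf, hdegf⟩ := Fermat.Agent.RED.TOP.FbarFacts20.exists_divisor_bar M hcf
  have h1 : LinePair.divL (framePair E hN φ) =
      LinePair.divL (Eff.lp E DA hA) - LinePair.divL (Eff.lp E DB hB) + Df := by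
    ext w
    rw [Finsupp.add_apply, Finsupp.sub_apply, hDf w]
    exact hw w
  have hd0 : LinePair.deg (framePair E hN φ) = 0 := by
    unfold LinePair.deg
    rw [h1, map_add, hdegf, add_zero]
    exact Divisor.mem_degZero.1 hdeg
  refine ⟨hd0, ?_⟩
  unfold LinePair.cls
  rw [dif_pos hd0]
  refine QuotientAddGroup.eq.2 ?_
  rw [AddSubgroup.mem_addSubgroupOf]
  refine ⟨(cL M L f)⁻¹, inv_ne_zero hcf, fun w => ?_⟩
  simp only [AddSubgroup.coe_add, NegMemClass.coe_neg, Finsupp.add_apply, Finsupp.neg_apply,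
    Finsupp.sub_apply]
  rw [hw w, w.ord_inv]
  ring

end Fermat.Agent.T1B.Hol31.DictExtEff
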