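/-
T1B (S44), brick F8' slice S5 HOL, local algebra (helper31).  Mathlib only.

Design: report 917 (helper3, `q`-dlog) + my message of 11:45Z: in LINE-MODULE form the holomorphy of
`δ_i(P)` for `P ∈ J⁰[p]` needs no node slope lemma and no specialisation of divisors:

* (`exists_local_generator`)  an invertible `R`-submodule `I ⊂ F` (`I * J = 1`) is locally principal
  at every prime `𝔮` of `R`, in the elementwise form `s • I ⊆ R • a ⊆ I` with `s ∉ 𝔮`;
* (`exists_pow_mul_eq`)  if moreover `I ^ p = R ∙ f` then  `s • f = r • a ^ p`  with `s, r ∉ 𝔮`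
  ("`f` is, locally at `𝔮`, a unit times a `p`-th power");
* (`residue_eq_of_smul_eq`)  if `V` is a valuation subring of `F` in which the elements of `R`
  outside `𝔮` are units, and `f / c ^ p ∈ Vˣ`, then the residue of `f / c ^ p` is
  `r̄ / s̄ · b ^ p` with `b ≠ 0` in the residue field;
* (`IsRegularAt`, `dlog_isRegularAt`)  for an additive map `θ` on the residue field `k` with the
  Leibniz rule and `char k = p`: `θ(x)/x` for `x = r̄ / s̄ · b ^ p` equals `θ(r̄)/r̄ - θ(s̄)/s̄`, which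
  is regular at `𝔮`.
-/
import Mathlib

set_option autoImplicit false

namespace Fermat.Agent.T1B.Hol31.Local

section Invertible

variable {R F : Type*} [CommRing R] [Field F] [Algebra R F]

/-- An invertible submodule is locally principal: for every prime `𝔮` there are `a ∈ I`, `b ∈ J`
and `s ∉ 𝔮` with `a * b = s` and `s • I ⊆ R • a`. -/
theorem exists_local_generator {I J : Submodule R F} (hIJ : I * J = 1) (𝔮 : Ideal R) [𝔮.IsPrime] :
    ∃ a ∈ I, ∃ b ∈ J, ∃ s : R, s ∉ 𝔮 ∧ a * b = algebraMap R F s ∧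
      ∀ x ∈ I, ∃ r : R, s • x = r • a := by
  have h1 : (1 : F) ∈ I * J := by rw [hIJ]; exact Submodule.one_le.mp le_rfl
  have hprod : ∀ x ∈ I, ∀ y ∈ J, ∃ r : R, algebraMap R F r = x * y := by
    intro x hx y hy
    have : x * y ∈ (1 : Submodule R F) := hIJ ▸ Submodule.mul_mem_mul hx hy
    exact Submodule.mem_one.mp this
  have hmem : ∀ z ∈ I * J, ∃ r : R, algebraMap R F r = z ∧
      (r ∉ 𝔮 → ∃ x ∈ I, ∃ y ∈ J, ∃ t : R, t ∉ 𝔮 ∧ algebraMap R F t = x * y) := by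
    intro z hz
    refine Submodule.mul_induction_on hz ?_ ?_
    · intro x hx y hy
      obtain ⟨r, hr⟩ := hprod x hx y hy
      exact ⟨r, hr, fun h => ⟨x, hx, y, hy, r, h, hr⟩⟩
    · rintro z w ⟨r, rfl, h⟩ ⟨r', rfl, h'⟩
      refine ⟨r + r', map_add _ _ _, fun hn => ?_⟩
      by_cases hr : r ∈ 𝔮
      · exact h' fun hr' => hn (𝔮.add_mem hr hr')
      · exact h hr
  obtain ⟨r, hr1, hr⟩ := hmem 1 h1
  by_cases hr𝔮 : r ∈ 𝔮
  · -- degenerate case: `1 - r ∉ 𝔮` is killed by `algebraMap`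
    have hs : (1 - r) ∉ 𝔮 := fun h => (Ideal.IsPrime.ne_top ‹_›) ((Ideal.eq_top_iff_one _).mpr (by
      have := 𝔮.add_mem h hr𝔮; simpa using this))
    have h0 : algebraMap R F (1 - r) = 0 := by rw [map_sub, map_one, hr1, sub_self]
    refine ⟨0, I.zero_mem, 0, J.zero_mem, 1 - r, hs, by rw [h0, zero_mul], fun x _ => ⟨0, ?_⟩⟩
    rw [Algebra.smul_def, h0, zero_mul, smul_zero]
  · obtain ⟨x, hx, y, hy, t, ht, hxy⟩ := hr hr𝔮
    refine ⟨x, hx, y, hy, t, ht, hxy.symm, fun x' hx' => ?_⟩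
    obtain ⟨r', hr'⟩ := hprod x' hx' y hy
    refine ⟨r', ?_⟩
    rw [Algebra.smul_def, Algebra.smul_def, hxy, hr']; ring

/-- For `a ∈ I` a local generator (`s • I ⊆ R • a`), `s ^ n • I ^ n ⊆ R • a ^ n`. -/
theorem pow_smul_mem_span {I : Submodule R F} {a : F} {s : R}
    (hgen : ∀ x ∈ I, ∃ r : R, s • x = r • a) (n : ℕ) :
    ∀ z ∈ I ^ n, ∃ r : R, s ^ n • z = r • a ^ n := by
  induction n with
  | zero =>
    intro z hz
    rw [pow_zero] at hz
    obtain ⟨r, rfl⟩ := Submodule.mem_one.mp hz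
    exact ⟨r, by rw [pow_zero, one_smul, pow_zero, Algebra.smul_def, mul_one]⟩
  | succ n ih =>
    intro z hz
    rw [pow_succ] at hz
    refine Submodule.mul_induction_on hz ?_ ?_
    · intro x hx y hy
      obtain ⟨r, hr⟩ := ih x hx
      obtain ⟨r', hr'⟩ := hgen y hy
      refine ⟨r * r', ?_⟩
      have : s ^ (n + 1) • (x * y) = (s ^ n • x) * (s • y) := by
        simp only [Algebra.smul_def, map_pow, map_mul, pow_succ]; ring
      rw [this, hr, hr']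
      simp only [Algebra.smul_def, map_mul, pow_succ]; ring
    · rintro z w ⟨r, hr⟩ ⟨r', hr'⟩
      exact ⟨r + r', by rw [smul_add, hr, hr', add_smul]⟩

/-- **`f` is locally a unit times a `p`-th power.**  If `I` is invertible and `I ^ p = R ∙ f`, then at
every prime `𝔮` of `R` there are `a ∈ I` and `s, r ∉ 𝔮` with `s • f = r • a ^ p`. -/
theorem exists_smul_eq_smul_pow {I J : Submodule R F} (hIJ : I * J = 1) (p : ℕ) {f : F}
    (hf : f ≠ 0) (hp : I ^ p = Submodule.span R {f}) (𝔮 : Ideal R) [𝔮.IsPrime] :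
    ∃ a ∈ I, ∃ s r : R, s ∉ 𝔮 ∧ r ∉ 𝔮 ∧ s • f = r • a ^ p := by
  obtain ⟨a, ha, b, hb, s, hs, hab, hgen⟩ := exists_local_generator hIJ 𝔮
  -- `s ^ p • f = r • a ^ p`
  have hfI : f ∈ I ^ p := hp ▸ Submodule.mem_span_singleton_self f
  obtain ⟨r, hr⟩ := pow_smul_mem_span hgen p f hfI
  -- `a ^ p = t • f`
  have haI : a ^ p ∈ I ^ p := Submodule.pow_mem_pow I ha p
  rw [hp, Submodule.mem_span_singleton] at haI
  obtain ⟨t, ht⟩ := haI
  -- `s ^ p = r * t` in `F`, after cancelling `f`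
  have hrt : algebraMap R F (s ^ p) = algebraMap R F (r * t) := by
    have h1 : algebraMap R F (s ^ p) * f = algebraMap R F (r * t) * f := by
      have := hr
      rw [← ht] at this
      simp only [Algebra.smul_def] at this
      rw [this, map_mul]; ring
    exact mul_right_cancel₀ hf h1
  by_cases hr𝔮 : r ∈ 𝔮
  · -- then `s ^ p - r * t ∉ 𝔮` is killed by `algebraMap`: degenerate, `f = 0` contradiction
    have hd : algebraMap R F (s ^ p - r * t) = 0 := by rw [map_sub, hrt, sub_self]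
    have hn : s ^ p - r * t ∉ 𝔮 := fun h => hs (Ideal.IsPrime.mem_of_pow_mem ‹_› p (by
      have := 𝔮.add_mem h (𝔮.mul_mem_right t hr𝔮); simpa using this))
    refine ⟨0, I.zero_mem, s ^ p - r * t, s ^ p - r * t, hn, hn, ?_⟩
    rw [Algebra.smul_def, Algebra.smul_def, hd, zero_mul, zero_mul]
  · exact ⟨a, ha, s ^ p, r, fun h => hs (Ideal.IsPrime.mem_of_pow_mem ‹_› p h), hr𝔮, hr⟩

end Invertible

/-! ### Residues in a valuation subring -/

section Residue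

variable {R F : Type*} [CommRing R] [Field F] [Algebra R F] (V : ValuationSubring F)

/-- In a valuation subring, `x ^ n ∈ V` (`n ≠ 0`) forces `x ∈ V`. -/
theorem mem_of_pow_mem {x : F} {n : ℕ} (hn : n ≠ 0) (h : x ^ n ∈ V) : x ∈ V := by
  rcases V.mem_or_inv_mem x with hx | hx
  · exact hx
  · by_cases hx0 : x = 0
    · rw [hx0]; exact V.zero_mem
    obtain ⟨m, rfl⟩ := Nat.exists_eq_succ_of_ne_zero hn
    have : x = x ^ (m + 1) * (x⁻¹) ^ m := by
      rw [pow_succ, inv_pow, mul_assoc, mul_comm x, ← mul_assoc, mul_inv_cancel₀ (pow_ne_zero m hx0),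
        one_mul]
    rw [this]
    exact V.mul_mem _ _ h (V.pow_mem hx m)

/-- **Residue form of "`f` is locally a unit times a `p`-th power".**  Let `φ : R →+* V` be compatible
with `algebraMap R F`, `s • f = r • a ^ p` with `φ s`, `φ r` units of `V`, `f ≠ 0`, and `u : Vˣ` with
`u * c ^ p = f`.  Then `a / c` is a unit `b` of `V` and `u * φ s = φ r * b ^ p` in `V`. -/
theorem exists_unit_pow_of_smul_eq (φ : R →+* V) (hφ : ∀ x, algebraMap R F x = (φ x : F))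
    {p : ℕ} (hp : p ≠ 0) {f a c : F} (hf : f ≠ 0) {s r : R} (hs : IsUnit (φ s))
    (hr : IsUnit (φ r)) (h : s • f = r • a ^ p) (u : (↥V)ˣ) (hu : ((u : ↥V) : F) * c ^ p = f) :
    ∃ b : (↥V)ˣ, ((b : ↥V) : F) * c = a ∧ (u : ↥V) * φ s = φ r * (b : ↥V) ^ p := by
  have hr0 : ((φ r : ↥V) : F) ≠ 0 := fun h0 => hr.ne_zero (Subtype.ext h0)
  rw [Algebra.smul_def, Algebra.smul_def, hφ, hφ] at h
  have hc : c ≠ 0 := by
    rintro rfl
    rw [zero_pow hp, mul_zero] at hu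
    exact hf hu.symm
  have hcp : c ^ p ≠ 0 := pow_ne_zero p hc
  -- the unit `w = φ s * (φ r)⁻¹ * u` of `V`
  set w : (↥V)ˣ := hs.unit * hr.unit⁻¹ * u with hw
  have hrr : ((φ r : ↥V) : F) * (((hr.unit⁻¹ : (↥V)ˣ) : ↥V) : F) = 1 := by
    have h1 : (φ r : ↥V) * ((hr.unit⁻¹ : (↥V)ˣ) : ↥V) = 1 := by
      have := hr.unit.mul_inv
      rwa [IsUnit.unit_spec] at this
    have h2 := congrArg (Subtype.val) h1
    rw [MulMemClass.coe_mul, OneMemClass.coe_one] at h2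
    exact h2
  have hwF : (((w : (↥V)ˣ) : ↥V) : F) =
      ((φ s : ↥V) : F) * (((hr.unit⁻¹ : (↥V)ˣ) : ↥V) : F) * ((u : ↥V) : F) := by
    rw [hw]; simp [IsUnit.unit_spec]
  -- `(a / c) ^ p = w`
  have hpow : (a / c) ^ p = (((w : (↥V)ˣ) : ↥V) : F) := by
    rw [hwF, div_pow, div_eq_iff hcp]
    have h2 : a ^ p = (((hr.unit⁻¹ : (↥V)ˣ) : ↥V) : F) * (((φ s : ↥V) : F) * f) := by
      rw [h, ← mul_assoc, mul_comm _ ((φ r : ↥V) : F), hrr, one_mul]
    rw [h2, ← hu]; ring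
  have hb : a / c ∈ V := mem_of_pow_mem V hp (hpow ▸ (w : ↥V).2)
  have hbinv : (a / c)⁻¹ ∈ V := by
    refine mem_of_pow_mem V hp ?_
    rw [inv_pow, hpow]
    have : ((((w⁻¹ : (↥V)ˣ) : ↥V) : F)) = (((w : (↥V)ˣ) : ↥V) : F)⁻¹ := by
      have h1 : ((w : (↥V)ˣ) : ↥V) * ((w⁻¹ : (↥V)ˣ) : ↥V) = 1 := w.mul_inv
      have h2 := congrArg (Subtype.val) h1
      simp only [MulMemClass.coe_mul, OneMemClass.coe_one] at h2
      exact eq_inv_of_mul_eq_one_right h2
    rw [← this]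
    exact ((w⁻¹ : (↥V)ˣ) : ↥V).2
  have hac0 : a / c ≠ 0 := by
    intro h0
    rw [h0, zero_pow hp] at hpow
    exact w.ne_zero (Subtype.ext hpow.symm)
  let b : (↥V)ˣ := ⟨⟨a / c, hb⟩, ⟨(a / c)⁻¹, hbinv⟩,
    Subtype.ext (mul_inv_cancel₀ hac0), Subtype.ext (inv_mul_cancel₀ hac0)⟩
  have hbw : ((b : ↥V)) ^ p = (w : ↥V) := Subtype.ext (by
    simpa [b] using hpow)
  refine ⟨b, div_mul_cancel₀ a hc, ?_⟩
  rw [hbw, hw]
  simp only [Units.val_mul, IsUnit.unit_spec]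
  have h1 : (φ r : ↥V) * ((hr.unit⁻¹ : (↥V)ˣ) : ↥V) = 1 := by
    have := hr.unit.mul_inv
    rwa [IsUnit.unit_spec] at this
  calc (u : ↥V) * φ s = (φ r * ((hr.unit⁻¹ : (↥V)ˣ) : ↥V)) * (φ s * (u : ↥V)) := by
        rw [h1, one_mul, mul_comm]
    _ = φ r * (φ s * ((hr.unit⁻¹ : (↥V)ˣ) : ↥V) * (u : ↥V)) := by ring

end Residue

/-! ### Logarithmic derivatives and regularity -/

section Dlog

variable {R k : Type*} [CommRing R] [Field k]

/-- The set of "elementary regular differentials" `ρ x · θ (ρ y)`, `x y : R`. -/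
def elemSet (ρ : R →+* k) (θ : Derivation ℤ k k) : Set k := {z | ∃ x y : R, z = ρ x * θ (ρ y)}

/-- `Ω(R)`: the additive group generated by the `ρ x · θ (ρ y)` (the image in `k` of the Kähler
differentials of the image of `R`, when differentials of `k` are identified with `k` via `θ`). -/
def regSpan (ρ : R →+* k) (θ : Derivation ℤ k k) : AddSubgroup k :=
  AddSubgroup.closure (elemSet ρ θ)

theorem mul_theta_mem_regSpan (ρ : R →+* k) (θ : Derivation ℤ k k) (x y : R) :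
    ρ x * θ (ρ y) ∈ regSpan ρ θ :=
  AddSubgroup.subset_closure ⟨x, y, rfl⟩

theorem theta_mem_regSpan (ρ : R →+* k) (θ : Derivation ℤ k k) (y : R) :
    θ (ρ y) ∈ regSpan ρ θ := by
  have := mul_theta_mem_regSpan ρ θ 1 y
  rwa [map_one, one_mul] at this

/-- `regSpan` is stable under multiplication by `ρ x`. -/
theorem mul_mem_regSpan (ρ : R →+* k) (θ : Derivation ℤ k k) (x : R) {z : k}
    (hz : z ∈ regSpan ρ θ) : ρ x * z ∈ regSpan ρ θ := by
  refine AddSubgroup.closure_induction (p := fun z _ => ρ x * z ∈ regSpan ρ θ) ?_ ?_ ?_ ?_ hz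
  · rintro z ⟨a, b, rfl⟩
    rw [← mul_assoc, ← map_mul]
    exact mul_theta_mem_regSpan ρ θ _ _
  · rw [mul_zero]; exact (regSpan ρ θ).zero_mem
  · intro a b _ _ ha hb
    rw [mul_add]; exact (regSpan ρ θ).add_mem ha hb
  · intro a _ ha
    rw [mul_neg]; exact (regSpan ρ θ).neg_mem ha

/-- `ω` is regular at the prime `𝔮` of `R`: `ρ d · ω ∈ Ω(R)` for some `d ∉ 𝔮`. -/
def IsRegularAt (ρ : R →+* k) (θ : Derivation ℤ k k) (𝔮 : Ideal R) (ω : k) : Prop :=
  ∃ d : R, d ∉ 𝔮 ∧ ρ d * ω ∈ regSpan ρ θ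

variable {ρ : R →+* k} {θ : Derivation ℤ k k} {𝔮 : Ideal R}

theorem isRegularAt_of_mem (h𝔮 : 𝔮 ≠ ⊤) {ω : k} (h : ω ∈ regSpan ρ θ) : IsRegularAt ρ θ 𝔮 ω :=
  ⟨1, fun h1 => h𝔮 ((Ideal.eq_top_iff_one _).mpr h1), by rwa [map_one, one_mul]⟩

theorem IsRegularAt.add [𝔮.IsPrime] {ω ω' : k} (h : IsRegularAt ρ θ 𝔮 ω)
    (h' : IsRegularAt ρ θ 𝔮 ω') : IsRegularAt ρ θ 𝔮 (ω + ω') := by
  obtain ⟨d, hd, hdω⟩ := h
  obtain ⟨d', hd', hdω'⟩ := h'
  refine ⟨d * d', fun hmem => (Ideal.IsPrime.mem_or_mem ‹_› hmem).elim hd hd', ?_⟩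
  have e : ρ (d * d') * (ω + ω') = ρ d' * (ρ d * ω) + ρ d * (ρ d' * ω') := by
    rw [map_mul]; ring
  rw [e]
  exact (regSpan ρ θ).add_mem (mul_mem_regSpan ρ θ d' hdω) (mul_mem_regSpan ρ θ d hdω')

theorem IsRegularAt.neg {ω : k} (h : IsRegularAt ρ θ 𝔮 ω) : IsRegularAt ρ θ 𝔮 (-ω) := by
  obtain ⟨d, hd, hdω⟩ := h
  exact ⟨d, hd, by rw [mul_neg]; exact (regSpan ρ θ).neg_mem hdω⟩

theorem IsRegularAt.sub [𝔮.IsPrime] {ω ω' : k} (h : IsRegularAt ρ θ 𝔮 ω)
    (h' : IsRegularAt ρ θ 𝔮 ω') : IsRegularAt ρ θ 𝔮 (ω - ω') := by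
  rw [sub_eq_add_neg]; exact h.add h'.neg

theorem IsRegularAt.mul_left {ω : k} (h : IsRegularAt ρ θ 𝔮 ω) (x : R) :
    IsRegularAt ρ θ 𝔮 (ρ x * ω) := by
  obtain ⟨d, hd, hdω⟩ := h
  refine ⟨d, hd, ?_⟩
  rw [mul_left_comm]
  exact mul_mem_regSpan ρ θ x hdω

/-- `θ (ρ r) / ρ r` is regular at `𝔮` for `r ∉ 𝔮`. -/
theorem isRegularAt_dlog {r : R} (hr : r ∉ 𝔮) (hr0 : ρ r ≠ 0) :
    IsRegularAt ρ θ 𝔮 (θ (ρ r) / ρ r) :=
  ⟨r, hr, by rw [mul_div_cancel₀ _ hr0]; exact theta_mem_regSpan ρ θ r⟩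

/-- `θ (b ^ p) = 0` in characteristic `p`. -/
theorem theta_pow_char (θ : Derivation ℤ k k) (p : ℕ) [CharP k p] (b : k) : θ (b ^ p) = 0 := by
  rw [Derivation.leibniz_pow, nsmul_eq_mul, CharP.cast_eq_zero, zero_mul]

/-- The logarithmic derivative of `x = r̄ / s̄ · b ^ p` in characteristic `p`. -/
theorem dlog_eq_of_mul_eq (θ : Derivation ℤ k k) (p : ℕ) [CharP k p] {x s r b : k}
    (hs : s ≠ 0) (hr : r ≠ 0) (hb : b ≠ 0) (h : x * s = r * b ^ p) :
    θ x / x = θ r / r - θ s / s := by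
  have hx : x ≠ 0 := by
    rintro rfl
    rw [zero_mul] at h
    exact (mul_ne_zero hr (pow_ne_zero p hb)) h.symm
  have hd := congrArg θ h
  rw [Derivation.leibniz, Derivation.leibniz, theta_pow_char θ p b, smul_zero, zero_add,
    smul_eq_mul, smul_eq_mul, smul_eq_mul] at hd
  -- `x θ s + s θ x = b^p θ r`
  have hbp : b ^ p = x * s / r := by rw [h, mul_div_cancel_left₀ _ hr]
  rw [hbp] at hd
  field_simp
  field_simp at hd
  linear_combination hd

/-- **Regularity of the logarithmic derivative.**  If `x * ρ s = ρ r * b ^ p` with `s, r ∉ 𝔮` of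
nonzero image and `b ≠ 0`, then `θ x / x` is regular at `𝔮`. -/
theorem isRegularAt_dlog_of_mul_eq [𝔮.IsPrime] (p : ℕ) [CharP k p] {x b : k} {s r : R}
    (hs : s ∉ 𝔮) (hr : r ∉ 𝔮) (hs0 : ρ s ≠ 0) (hr0 : ρ r ≠ 0) (hb : b ≠ 0)
    (h : x * ρ s = ρ r * b ^ p) : IsRegularAt ρ θ 𝔮 (θ x / x) := by
  rw [dlog_eq_of_mul_eq θ p hs0 hr0 hb h]
  exact (isRegularAt_dlog hr hr0).sub (isRegularAt_dlog hs hs0)

end Dlog

/-! ### The local holomorphy statement -/

section Main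

variable {R F : Type*} [CommRing R] [Field F] [Algebra R F] (V : ValuationSubring F)

/-- **S5 HOL, local form.**  `R ⊂ F` a chart ring of the integral model, `I` an invertible
`R`-submodule of `F` with `I ^ p = R ∙ f` (`f ≠ 0`), `V` a valuation subring of `F` containing the
image of `R` (`φ : R →+* V`), `𝔮` a prime of `R` outside of which the elements of `R` are units of
`V` (i.e. `𝔮` contains the centre of `V`), `f = u · c ^ p` with `u ∈ Vˣ`.  Then for every derivation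
`θ` of the residue field `k` of `V` (`char k = p`) the logarithmic derivative `θ(ū)/ū` is regular at
`𝔮`: `ρ d · θ(ū)/ū ∈ ∑ ρ(R) θ(ρ(R))` for some `d ∉ 𝔮`, `ρ = residue ∘ φ`. -/
theorem isRegularAt_dlog_residue (φ : R →+* V) (hφ : ∀ x, algebraMap R F x = (φ x : F))
    {I J : Submodule R F} (hIJ : I * J = 1) (p : ℕ) (hp : p ≠ 0) {f : F} (hf : f ≠ 0)
    (hI : I ^ p = Submodule.span R {f}) (𝔮 : Ideal R) [𝔮.IsPrime]
    (hunit : ∀ x : R, x ∉ 𝔮 → IsUnit (φ x))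
    [CharP (IsLocalRing.ResidueField ↥V) p]
    (θ : Derivation ℤ (IsLocalRing.ResidueField ↥V) (IsLocalRing.ResidueField ↥V))
    (u : (↥V)ˣ) (c : F) (hu : ((u : ↥V) : F) * c ^ p = f) :
    IsRegularAt ((IsLocalRing.residue ↥V).comp φ) θ 𝔮
      (θ (IsLocalRing.residue ↥V (u : ↥V)) / IsLocalRing.residue ↥V (u : ↥V)) := by
  obtain ⟨a, -, s, r, hs, hr, hsr⟩ := exists_smul_eq_smul_pow hIJ p hf hI 𝔮
  obtain ⟨b, -, hb⟩ := exists_unit_pow_of_smul_eq V φ hφ hp hf (hunit s hs) (hunit r hr) hsr u hu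
  have hres := congrArg (IsLocalRing.residue ↥V) hb
  rw [map_mul, map_mul, map_pow] at hres
  have hne : ∀ w : (↥V)ˣ, IsLocalRing.residue ↥V (w : ↥V) ≠ 0 := fun w =>
    (IsLocalRing.residue ↥V).isUnit_map w.isUnit |>.ne_zero
  refine isRegularAt_dlog_of_mul_eq p hs hr ?_ ?_ (hne b) hres
  · exact ((IsLocalRing.residue ↥V).isUnit_map (hunit s hs)).ne_zero
  · exact ((IsLocalRing.residue ↥V).isUnit_map (hunit r hr)).ne_zero

end Main

end Fermat.Agent.T1B.Hol31.Local
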