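/-
T1B (S44), brick F8' slice S5 HOL, helper31: DET-GEN = the generic part of the 'Hol80 detector inputs'.

`R = O ⊗[W] B` an integral chart (`B` a chart of the hub over `W`, `O ⊇ W` the ring of integers of the
level), `F` a field with an expansion `e : F →+* K((q))`, `V = gaussVal A e H`.

* `algebraMap_mem_of_tmul` : a ring hom out of `O ⊗[W] B` lands in a subring as soon as the pure tensors do;
* `isIntegral_adjoin_map_ring` : integrality over `R[t]` passes along ring homs (ring version of
  `Hol80.isIntegral_adjoin_map`);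
* `isIntegral_adjoin_tmul` : if every `b : B` is integral over `W[t]`, every `r : O ⊗[W] B` is integral
  over `O[1 ⊗ t]`;
* `resK_const` : the residue of a constant of `A` is the constant residue;
* `detHom`, `coe_detHom` : the corestriction `φ : R →+* V` (the binder `φ_j` of `Hol80.holLog_delta`);
* `isIntegral_resK_detHom` : **`hint_j`**, for `τ = residue of 1 ⊗ t`.
-/
import Mathlib
import Fermat.Agent.T1B.Hol80.HolLog
import Fermat.Agent.T1B.Hol80.HintInt

set_option autoImplicit false
set_option linter.unusedSectionVars false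
set_option linter.style.haveILetI false

open TensorProduct

namespace Fermat.Agent.T1B.Hol31.DetGen

open Fermat.Agent.T1B.Hecke3 Fermat.Agent.T1B.Hol80 ModularCurve

/-! ### Tensor products -/

section Tensor

variable {W O B : Type*} [CommRing W] [CommRing O] [CommRing B] [Algebra W O] [Algebra W B]

/-- A ring hom out of `O ⊗[W] B` lands in a subring as soon as the pure tensors do. -/
theorem ringHom_mem_of_tmul {F : Type*} [Ring F] (f : O ⊗[W] B →+* F) (V : Subring F)
    (h : ∀ (a : O) (b : B), f (a ⊗ₜ[W] b) ∈ V) (r : O ⊗[W] B) : f r ∈ V := by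
  induction r using TensorProduct.induction_on with
  | zero => rw [map_zero]; exact V.zero_mem
  | tmul a b => exact h a b
  | add x y hx hy => rw [map_add]; exact V.add_mem hx hy

/-- The same for the structure map of an algebra. -/
theorem algebraMap_mem_of_tmul {F : Type*} [CommRing F] [Algebra (O ⊗[W] B) F] (V : Subring F)
    (h : ∀ (a : O) (b : B), algebraMap (O ⊗[W] B) F (a ⊗ₜ[W] b) ∈ V) (r : O ⊗[W] B) :
    algebraMap (O ⊗[W] B) F r ∈ V :=
  ringHom_mem_of_tmul (algebraMap (O ⊗[W] B) F) V h r

end Tensor

/-! ### Integrality -/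

section Integral

variable {R B R' B' : Type*} [CommRing R] [CommRing B] [Algebra R B] [CommRing R'] [CommRing B']
  [Algebra R' B']

/-- `ρ` maps `R[t]` into `R'[ρ t]`. -/
theorem map_mem_adjoin_of_mem_adjoin_ring (ρ : B →+* B')
    (hρ : ∀ r : R, ∃ c : R', ρ (algebraMap R B r) = algebraMap R' B' c) (t : B) {y : B}
    (hy : y ∈ Algebra.adjoin R {t}) : ρ y ∈ Algebra.adjoin R' {ρ t} := by
  induction hy using Algebra.adjoin_induction with
  | mem y hy =>
    rw [Set.mem_singleton_iff] at hy
    rw [hy]
    exact Algebra.subset_adjoin (Set.mem_singleton _)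
  | algebraMap r =>
    obtain ⟨c, hc⟩ := hρ r
    rw [hc]
    exact Subalgebra.algebraMap_mem _ c
  | add y z _ _ hy hz =>
    rw [map_add]
    exact Subalgebra.add_mem _ hy hz
  | mul y z _ _ hy hz =>
    rw [map_mul]
    exact Subalgebra.mul_mem _ hy hz

/-- **Integrality over `R[t]` passes along ring homs** (ring version). -/
theorem isIntegral_adjoin_map_ring (ρ : B →+* B')
    (hρ : ∀ r : R, ∃ c : R', ρ (algebraMap R B r) = algebraMap R' B' c) (t : B) {x : B}
    (hx : IsIntegral (Algebra.adjoin R {t}) x) : IsIntegral (Algebra.adjoin R' {ρ t}) (ρ x) := by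
  let φ : ↥(Algebra.adjoin R {t}) →+* ↥(Algebra.adjoin R' {ρ t}) :=
    RingHom.codRestrict (ρ.comp (Algebra.adjoin R {t}).val.toRingHom) (Algebra.adjoin R' {ρ t})
      (fun y => map_mem_adjoin_of_mem_adjoin_ring ρ hρ t y.2)
  exact IsIntegral.map_of_comp_eq φ ρ (by ext y; rfl) hx

end Integral

section IntegralTensor

variable {W O B : Type*} [CommRing W] [CommRing O] [CommRing B] [Algebra W O] [Algebra W B]

/-- **Base change of integrality**: if every `b : B` is integral over `W[t]`, then every element of
`O ⊗[W] B` is integral over `O[1 ⊗ t]`. -/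
theorem isIntegral_adjoin_tmul (t : B) (hint : ∀ b : B, IsIntegral (Algebra.adjoin W {t}) b)
    (r : O ⊗[W] B) : IsIntegral (Algebra.adjoin O {(1 : O) ⊗ₜ[W] t}) r := by
  induction r using TensorProduct.induction_on with
  | zero => exact isIntegral_zero
  | add x y hx hy => exact hx.add hy
  | tmul a b =>
    have h1 : a ⊗ₜ[W] b = algebraMap O (O ⊗[W] B) a * ((1 : O) ⊗ₜ[W] b) := by
      rw [Algebra.TensorProduct.algebraMap_apply, Algebra.TensorProduct.tmul_mul_tmul, mul_one,
        one_mul]
      rfl
    rw [h1]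
    refine IsIntegral.mul ?_ ?_
    · have hmem : algebraMap O (O ⊗[W] B) a ∈ Algebra.adjoin O {(1 : O) ⊗ₜ[W] t} :=
        Subalgebra.algebraMap_mem _ a
      exact isIntegral_algebraMap (x := (⟨_, hmem⟩ : ↥(Algebra.adjoin O {(1 : O) ⊗ₜ[W] t})))
    · have := isIntegral_adjoin_map_ring (R := W) (R' := O)
        (Algebra.TensorProduct.includeRight (R := W) (A := O) (B := B)).toRingHom
        (fun w => ⟨algebraMap W O w, by
          show (1 : O) ⊗ₜ[W] (algebraMap W B w) = algebraMap O (O ⊗[W] B) (algebraMap W O w)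
          rw [Algebra.TensorProduct.algebraMap_apply, Algebra.algebraMap_eq_smul_one w,
            Algebra.algebraMap_eq_smul_one (A := O) w]
          exact (TensorProduct.smul_tmul w (1 : O) (1 : B)).symm⟩) t (hint b)
      exact this

end IntegralTensor

/-! ### The Gauss valuation ring -/

section Gauss

set_option synthInstance.maxHeartbeats 400000

variable {K : Type*} [Field K] {F : Type*} [Field F] [Algebra K F]
variable {A : ValuationSubring K} {e : F →+* LaurentSeries K}
  (H : ∀ f : F, f ≠ 0 → Normalisable A (e f))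
  (he : ∀ c : K, e (algebraMap K F c) = HahnSeries.C c)

include he in
/-- Constants of `A` lie in the Gauss valuation ring. -/
theorem const_mem_gaussVal (c : ↥A) : algebraMap K F (c : K) ∈ gaussVal A e H :=
  (mem_gaussVal_iff A e H _).2 (const_mem_gaussSub (algebraMap K F) he c)

include he in
/-- **The residue of a constant of `A` is the constant residue.** -/
theorem resK_const (N : ℕ)
    (hrange : ∀ x : ↥(gaussVal A e H), gaussResV A e H x ∈ modularFunctionFieldFullC (Kap A) N)
    (c : ↥A) :
    resK H N hrange ⟨algebraMap K F (c : K), const_mem_gaussVal H he c⟩ =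
      algebraMap (Kap A) ↥(modularFunctionFieldFullC (Kap A) N) (IsLocalRing.residue ↥A c) := by
  apply Subtype.ext
  rw [coe_resK, gaussResV_apply]
  refine (gaussRes_const (algebraMap K F) he c _).trans ?_
  show _ = algebraMap (Kap A) (LaurentSeries (Kap A)) _
  rw [algebraMap_laurentSeries_eq_single, HahnSeries.C_apply]

variable {W O B : Type*} [CommRing W] [CommRing O] [CommRing B] [Algebra W O] [Algebra W B]
  [Algebra (O ⊗[W] B) F]

/-- **The binder `φ_j`**: the structure map of the chart, corestricted to the Gauss valuation ring. -/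
noncomputable def detHom
    (hmem : ∀ r : O ⊗[W] B, algebraMap (O ⊗[W] B) F r ∈ gaussVal A e H) :
    (O ⊗[W] B) →+* ↥(gaussVal A e H) :=
  RingHom.codRestrict (algebraMap (O ⊗[W] B) F) (gaussVal A e H).toSubring hmem

theorem coe_detHom (hmem : ∀ r : O ⊗[W] B, algebraMap (O ⊗[W] B) F r ∈ gaussVal A e H)
    (r : O ⊗[W] B) : algebraMap (O ⊗[W] B) F r = ((detHom H hmem r : ↥(gaussVal A e H)) : F) := rfl

include he in
/-- **The binder `hint_j`**: if the chart `B` is integral over `W[t]` and `O` maps to constants of `A`,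
the residues of the chart `O ⊗[W] B` are integral over `κ[τ]`, `τ` the residue of `1 ⊗ t`. -/
theorem isIntegral_resK_detHom
    (hmem : ∀ r : O ⊗[W] B, algebraMap (O ⊗[W] B) F r ∈ gaussVal A e H) (N : ℕ)
    (hrange : ∀ x : ↥(gaussVal A e H), gaussResV A e H x ∈ modularFunctionFieldFullC (Kap A) N)
    (hO : ∀ a : O, ∃ c : ↥A,
      algebraMap (O ⊗[W] B) F (a ⊗ₜ[W] (1 : B)) = algebraMap K F (c : K))
    (t : B) (hint : ∀ b : B, IsIntegral (Algebra.adjoin W {t}) b) (r : O ⊗[W] B) :
    IsIntegral
      (Algebra.adjoin (Kap A) {resK H N hrange (detHom H hmem ((1 : O) ⊗ₜ[W] t))})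
      (resK H N hrange (detHom H hmem r)) := by
  have h1 := isIntegral_adjoin_tmul (O := O) t hint r
  refine isIntegral_adjoin_map (R := O) (κ := Kap A)
    ((resK H N hrange).comp (detHom H hmem)) (fun a => ?_) ((1 : O) ⊗ₜ[W] t) h1
  obtain ⟨c, hc⟩ := hO a
  refine ⟨IsLocalRing.residue ↥A c, ?_⟩
  rw [← resK_const H he N hrange c]
  show resK H N hrange (detHom H hmem (algebraMap O (O ⊗[W] B) a)) = _
  congr 1
  apply Subtype.ext
  rw [← coe_detHom, Algebra.TensorProduct.algebraMap_apply]
  exact hc

end Gauss

end Fermat.Agent.T1B.Hol31.DetGen
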