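/-
T1B (S44), brick F8' slice S5 HOL (brick 594), helper31: FRAME-BC = frames of an INTEGRAL model.

Setting: `c : TwoChart O R0 R1 R01` (the integral model, e.g. `c0.baseChange O_L`),
`c' : TwoChart K S0 S1 S01` (the generic fibre, `c0.baseChange L`), ring maps `R_j → S_j` forming a
commutative cube, `E : ChartIso c' t` (`t : F₁`, `F₁ = L·F_M`), `ψ : F₁ →+* F₂` (`F₂ = ℚ̄·F_M`,
`ψ = cL`), a line `Mo` on `c` with generic fibre `N` (`ld : LiftData Mo N`) and a framing `φ` of `N`.

* `restrictLin E ld φ : Mo.N01 →ₗ[R01] F₁`, `x ↦ φ (ld.e01 (1 ⊗ x))` : the restricted framing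
  (`F₁` an `R01`-algebra through `R01 → S01 → F₁`);
* `frameI0_eq_span` : the chart module of `framePair E hN φ` is the `C_j t`-span of the integral frame;
* **`exists_frames_of_pow_eq_one`** : if `(LinePic.mk c Mo hMo) ^ p = 1` then there are ONE `g ≠ 0` in `F₁`
  and invertible `R_j`-submodules `I_j` of `F₂` (inverse `J_j`) such that
  `(framePair E hN φ).I_j ^ p = C_j ∙ g`, `I_j ^ p = R_j ∙ ψ g`, `J_j ^ p = R_j ∙ (ψ g)⁻¹`
  (the `R_j`-algebra structure of `F₂` is ANY one compatible with `ψ ∘ E.ι_j ∘ (R_j → S_j)`).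
  These are the hypotheses of `Hol80.delta_mem_Hol`, `Hol80.holLog_delta` (with `DictExtDiv` for
  `IsPData`).
-/
import Mathlib
import Fermat.Agent.T1B.Hol31.DictExt
import Fermat.Agent.Jac.JSmooth85Alg

set_option autoImplicit false
set_option linter.unusedSectionVars false
set_option linter.style.haveILetI false

universe u v w

open TensorProduct

namespace Fermat.Agent.T1B.Hol31.FrameBC

open Fermat.Agent.Jac Fermat.Agent.Jac.LineOps39 Fermat.Agent.Jac.JGroup85Pic
open Fermat.Agent.Jac.JSmooth85Alg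
open Fermat.Agent.T1.Dict59 Fermat.Agent.T1.Adapt96 Fermat.Agent.T1B.Hol31.DictExt

/-! ### Generic algebra: inverse frames and push-forward along an algebra map -/

section Alg

variable {R : Type*} [CommRing R] {F₁ : Type*} [Field F₁] [Algebra R F₁]

/-- If `I * J = 1` and `I ^ p = R ∙ g` with `g ≠ 0`, then `J ^ p = R ∙ g⁻¹`. -/
theorem inv_pow_eq_span {I J : Submodule R F₁} (hIJ : I * J = 1) {p : ℕ} {g : F₁} (hg : g ≠ 0)
    (h : I ^ p = Submodule.span R {g}) : J ^ p = Submodule.span R {g⁻¹} := by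
  have h1 : Submodule.span R {g} * Submodule.span R {g⁻¹} = (1 : Submodule R F₁) := by
    rw [Submodule.span_mul_span, Set.singleton_mul_singleton, mul_inv_cancel₀ hg,
      Submodule.one_eq_span]
  calc J ^ p = J ^ p * (Submodule.span R {g} * Submodule.span R {g⁻¹}) := by rw [h1, mul_one]
    _ = (J ^ p * I ^ p) * Submodule.span R {g⁻¹} := by rw [h, mul_assoc]
    _ = Submodule.span R {g⁻¹} := by rw [← mul_pow, mul_comm J I, hIJ, one_pow, one_mul]

variable {F₂ : Type*} [Field F₂] [Algebra R F₂]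

/-- Push-forward of an invertible submodule with principal `p`-th power along an algebra map. -/
theorem map_frames (ψ : F₁ →ₐ[R] F₂) {I J : Submodule R F₁} (hIJ : I * J = 1) {p : ℕ} {g : F₁}
    (h : I ^ p = Submodule.span R {g}) :
    I.map ψ.toLinearMap * J.map ψ.toLinearMap = 1 ∧
      I.map ψ.toLinearMap ^ p = Submodule.span R {ψ g} := by
  constructor
  · rw [← Submodule.map_mul, hIJ, Submodule.map_one]
  · rw [← Submodule.map_pow, h, Submodule.map_span, Set.image_singleton]
    rfl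

end Alg

/-! ### The restricted framing -/

variable {O R0 R1 R01 : Type u} [CommRing O] [CommRing R0] [CommRing R1] [CommRing R01]
  [Algebra O R0] [Algebra O R1] [Algebra O R01] [Algebra R0 R01] [Algebra R1 R01]
  [IsScalarTower O R0 R01] [IsScalarTower O R1 R01]
  {K S0 S1 S01 : Type u} [Field K] [CommRing S0] [CommRing S1] [CommRing S01]
  [Algebra K S0] [Algebra K S1] [Algebra K S01] [Algebra S0 S01] [Algebra S1 S01]
  [IsScalarTower K S0 S01] [IsScalarTower K S1 S01]
  [Algebra R0 S0] [Algebra R1 S1] [Algebra R01 S01]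
  {F₁ : Type v} [Field F₁] [Algebra K F₁]
  {c' : TwoChart K S0 S1 S01} {t : F₁} (E : ChartIso c' t)

/-- `F₁` as an algebra over the integral chart `R0` (through `R0 → S0 → F₁`).  Not an instance. -/
@[reducible] def algI0 : Algebra R0 F₁ := (E.ι0.comp (algebraMap R0 S0)).toAlgebra

/-- `F₁` as an algebra over the integral chart `R1`.  Not an instance. -/
@[reducible] def algI1 : Algebra R1 F₁ := (E.ι1.comp (algebraMap R1 S1)).toAlgebra

/-- `F₁` as an algebra over the integral overlap ring `R01`.  Not an instance. -/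
@[reducible] def algI01 : Algebra R01 F₁ := (E.e01.comp (algebraMap R01 S01)).toAlgebra

theorem towerI0
    (hc0 : (algebraMap S0 S01).comp (algebraMap R0 S0) =
      (algebraMap R01 S01).comp (algebraMap R0 R01)) :
    letI := algI0 (R0 := R0) E
    letI := algI01 (R01 := R01) E
    IsScalarTower R0 R01 F₁ := by
  letI := algI0 (R0 := R0) E
  letI := algI01 (R01 := R01) E
  refine IsScalarTower.of_algebraMap_eq fun x => ?_
  change E.ι0 (algebraMap R0 S0 x) = E.e01 (algebraMap R01 S01 (algebraMap R0 R01 x))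
  rw [← E.e01_algebraMap0]
  exact congrArg E.e01 (RingHom.congr_fun hc0 x)

theorem towerI1
    (hc1 : (algebraMap S1 S01).comp (algebraMap R1 S1) =
      (algebraMap R01 S01).comp (algebraMap R1 R01)) :
    letI := algI1 (R1 := R1) E
    letI := algI01 (R01 := R01) E
    IsScalarTower R1 R01 F₁ := by
  letI := algI1 (R1 := R1) E
  letI := algI01 (R01 := R01) E
  refine IsScalarTower.of_algebraMap_eq fun x => ?_
  change E.ι1 (algebraMap R1 S1 x) = E.e01 (algebraMap R01 S01 (algebraMap R1 R01 x))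
  rw [← E.e01_algebraMap1]
  exact congrArg E.e01 (RingHom.congr_fun hc1 x)

variable {Mo : QC2 O R0 R1 R01} {N : QC2 K S0 S1 S01}

/-- The restriction of a framing of the generic fibre `N` to the integral model `Mo`. -/
noncomputable def restrictLin (ld : LiftData Mo N) (φ : Framing E N) :
    letI := algI01 (R01 := R01) E
    Mo.N01 →ₗ[R01] F₁ :=
  letI := algI01 (R01 := R01) E
  { toFun := fun x => φ (ld.e01 ((1 : S01) ⊗ₜ[R01] x))
    map_add' := fun x y => by rw [TensorProduct.tmul_add, _root_.map_add, φ.map_add]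
    map_smul' := fun r x => by
      have h1 : ((1 : S01) ⊗ₜ[R01] (r • x)) =
          (algebraMap R01 S01 r) • ((1 : S01) ⊗ₜ[R01] x) := by
        rw [TensorProduct.smul_tmul', smul_eq_mul, mul_one, ← TensorProduct.smul_tmul,
          Algebra.smul_def, mul_one]
      rw [h1, _root_.map_smul, φ.map_smul]
      rfl }

theorem restrictLin_apply (ld : LiftData Mo N) (φ : Framing E N) (x : Mo.N01) :
    (letI := algI01 (R01 := R01) E; restrictLin E ld φ x) = φ (ld.e01 ((1 : S01) ⊗ₜ[R01] x)) :=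
  rfl

/-- Value of a framing on `ld.e01 (s ⊗ x)`. -/
theorem framing_e01_tmul (ld : LiftData Mo N) (φ : Framing E N) (s : S01) (x : Mo.N01) :
    φ (ld.e01 (s ⊗ₜ[R01] x)) = E.e01 s * φ (ld.e01 ((1 : S01) ⊗ₜ[R01] x)) := by
  have h1 : (s ⊗ₜ[R01] x : S01 ⊗[R01] Mo.N01) = s • ((1 : S01) ⊗ₜ[R01] x) := by
    rw [TensorProduct.smul_tmul', smul_eq_mul, mul_one]
  rw [h1, _root_.map_smul, φ.map_smul]

/-- The restricted framing is nonzero. -/
theorem restrictLin_ne_zero (ld : LiftData Mo N) (φ : Framing E N) :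
    letI := algI01 (R01 := R01) E
    restrictLin E ld φ ≠ 0 := by
  letI := algI01 (R01 := R01) E
  intro h0
  obtain ⟨y, hy⟩ := φ.exists_ne
  apply hy
  clear hy
  have hx : ∀ x : Mo.N01, φ (ld.e01 ((1 : S01) ⊗ₜ[R01] x)) = 0 := by
    intro x
    have := restrictLin_apply E ld φ x
    rw [h0] at this
    exact this.symm
  have hw : ∀ w : S01 ⊗[R01] Mo.N01, φ (ld.e01 w) = 0 := by
    intro w
    induction w using TensorProduct.induction_on with
    | zero => rw [_root_.map_zero, φ.map_zero]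
    | tmul s x => rw [framing_e01_tmul, hx, mul_zero]
    | add a b ha hb => rw [_root_.map_add, φ.map_add, ha, hb, add_zero]
  obtain ⟨w, rfl⟩ := ld.e01.surjective y
  exact hw w

/-- The integral frame on chart `0`, as a set. -/
def intFrame0 (ld : LiftData Mo N) (φ : Framing E N) : Set F₁ :=
  {z | ∃ x : Mo.N0, φ (N.r0 (ld.e0 ((1 : S0) ⊗ₜ[R0] x))) = z}

/-- The integral frame on chart `1`, as a set. -/
def intFrame1 (ld : LiftData Mo N) (φ : Framing E N) : Set F₁ :=
  {z | ∃ x : Mo.N1, φ (N.r1 (ld.e1 ((1 : S1) ⊗ₜ[R1] x))) = z}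

/-- The integral frame is the frame of `Frame.lean` for the restricted framing. -/
theorem coe_frame0_restrict
    (hc0 : (algebraMap S0 S01).comp (algebraMap R0 S0) =
      (algebraMap R01 S01).comp (algebraMap R0 R01))
    (hc1 : (algebraMap S1 S01).comp (algebraMap R1 S1) =
      (algebraMap R01 S01).comp (algebraMap R1 R01))
    (ld : LiftData Mo N) (φ : Framing E N) :
    (letI := algI0 (R0 := R0) E; letI := algI1 (R1 := R1) E; letI := algI01 (R01 := R01) E
     haveI := towerI0 E hc0; haveI := towerI1 E hc1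
     (Frame.frame0 Mo (restrictLin E ld φ) : Set F₁)) = intFrame0 E ld φ := by
  letI := algI0 (R0 := R0) E
  letI := algI1 (R1 := R1) E
  letI := algI01 (R01 := R01) E
  haveI := towerI0 E hc0
  haveI := towerI1 E hc1
  ext z
  rw [SetLike.mem_coe, Frame.mem_frame0]
  constructor
  · rintro ⟨x, rfl⟩
    exact ⟨x, by rw [← ld.comm0]; rfl⟩
  · rintro ⟨x, rfl⟩
    exact ⟨x, by rw [← ld.comm0]; rfl⟩

theorem coe_frame1_restrict
    (hc0 : (algebraMap S0 S01).comp (algebraMap R0 S0) =
      (algebraMap R01 S01).comp (algebraMap R0 R01))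
    (hc1 : (algebraMap S1 S01).comp (algebraMap R1 S1) =
      (algebraMap R01 S01).comp (algebraMap R1 R01))
    (ld : LiftData Mo N) (φ : Framing E N) :
    (letI := algI0 (R0 := R0) E; letI := algI1 (R1 := R1) E; letI := algI01 (R01 := R01) E
     haveI := towerI0 E hc0; haveI := towerI1 E hc1
     (Frame.frame1 Mo (restrictLin E ld φ) : Set F₁)) = intFrame1 E ld φ := by
  letI := algI0 (R0 := R0) E
  letI := algI1 (R1 := R1) E
  letI := algI01 (R01 := R01) E
  haveI := towerI0 E hc0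
  haveI := towerI1 E hc1
  ext z
  rw [SetLike.mem_coe, Frame.mem_frame1]
  constructor
  · rintro ⟨x, rfl⟩
    exact ⟨x, by rw [← ld.comm1]; rfl⟩
  · rintro ⟨x, rfl⟩
    exact ⟨x, by rw [← ld.comm1]; rfl⟩

/-- The chart module of the generic fibre is the `C0 t`-span of the integral frame. -/
theorem frameI0_eq_span (ld : LiftData Mo N) (φ : Framing E N) :
    frameI0 E φ = Submodule.span (C0 (K := K) t) (intFrame0 E ld φ) := by
  apply le_antisymm
  · rintro _ ⟨y, rfl⟩
    obtain ⟨w, rfl⟩ := ld.e0.surjective y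
    induction w using TensorProduct.induction_on with
    | zero =>
      rw [_root_.map_zero, _root_.map_zero, φ.map_zero]
      exact Submodule.zero_mem _
    | tmul s x =>
      have h1 : (s ⊗ₜ[R0] x : S0 ⊗[R0] Mo.N0) = s • ((1 : S0) ⊗ₜ[R0] x) := by
        rw [TensorProduct.smul_tmul', smul_eq_mul, mul_one]
      have h2 : φ (N.r0 (ld.e0 (s ⊗ₜ[R0] x))) =
          E.e0 s • φ (N.r0 (ld.e0 ((1 : S0) ⊗ₜ[R0] x))) := by
        rw [h1, _root_.map_smul, _root_.map_smul, φ.map_smul0]
        rfl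
      rw [h2]
      exact Submodule.smul_mem _ _ (Submodule.subset_span ⟨x, rfl⟩)
    | add a b ha hb =>
      rw [_root_.map_add, _root_.map_add, φ.map_add]
      exact Submodule.add_mem _ ha hb
  · rw [Submodule.span_le]
    rintro _ ⟨x, rfl⟩
    exact ⟨ld.e0 ((1 : S0) ⊗ₜ[R0] x), rfl⟩

theorem frameI1_eq_span (ld : LiftData Mo N) (φ : Framing E N) :
    frameI1 E φ = Submodule.span (C1 (K := K) t) (intFrame1 E ld φ) := by
  apply le_antisymm
  · rintro _ ⟨y, rfl⟩
    obtain ⟨w, rfl⟩ := ld.e1.surjective y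
    induction w using TensorProduct.induction_on with
    | zero =>
      rw [_root_.map_zero, _root_.map_zero, φ.map_zero]
      exact Submodule.zero_mem _
    | tmul s x =>
      have h1 : (s ⊗ₜ[R1] x : S1 ⊗[R1] Mo.N1) = s • ((1 : S1) ⊗ₜ[R1] x) := by
        rw [TensorProduct.smul_tmul', smul_eq_mul, mul_one]
      have h2 : φ (N.r1 (ld.e1 (s ⊗ₜ[R1] x))) =
          E.e1 s • φ (N.r1 (ld.e1 ((1 : S1) ⊗ₜ[R1] x))) := by
        rw [h1, _root_.map_smul, _root_.map_smul, φ.map_smul1]
        rfl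
      rw [h2]
      exact Submodule.smul_mem _ _ (Submodule.subset_span ⟨x, rfl⟩)
    | add a b ha hb =>
      rw [_root_.map_add, _root_.map_add, φ.map_add]
      exact Submodule.add_mem _ ha hb
  · rw [Submodule.span_le]
    rintro _ ⟨x, rfl⟩
    exact ⟨ld.e1 ((1 : S1) ⊗ₜ[R1] x), rfl⟩

/-! ### The main statement -/

variable {F₂ : Type w} [Field F₂] (ψ : F₁ →+* F₂) [Algebra R0 F₂] [Algebra R1 F₂]

/-- **FRAME-BC.**  Let `Mo` be a line on the integral model `c` whose class is killed by `p ≠ 0`, `N` its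
generic fibre (`ld : LiftData Mo N`) and `φ` ANY framing of `N`.  Then there are ONE `g ≠ 0` in `F₁` and
invertible `R_j`-submodules `I_j` (inverse `J_j`) of `F₂` with
`(framePair E hN φ).I_j ^ p = C_j ∙ g`, `I_j ^ p = R_j ∙ ψ g`, `J_j ^ p = R_j ∙ (ψ g)⁻¹`. -/
theorem exists_frames_of_pow_eq_one (c : TwoChart O R0 R1 R01)
    (hc0 : (algebraMap S0 S01).comp (algebraMap R0 S0) =
      (algebraMap R01 S01).comp (algebraMap R0 R01))
    (hc1 : (algebraMap S1 S01).comp (algebraMap R1 S1) =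
      (algebraMap R01 S01).comp (algebraMap R1 R01))
    (hρ0 : ∀ r : R0, algebraMap R0 F₂ r = ψ (E.ι0 (algebraMap R0 S0 r)))
    (hρ1 : ∀ r : R1, algebraMap R1 F₂ r = ψ (E.ι1 (algebraMap R1 S1 r)))
    (hMo : Mo.IsLine) (hN : N.IsLine) (ld : LiftData Mo N) {p : ℕ} (hp : p ≠ 0)
    (h : (LinePic.mk c Mo hMo) ^ p = 1) (φ : Framing E N) :
    ∃ g : F₁, g ≠ 0 ∧
      (framePair E hN φ).I0 ^ p = Submodule.span (C0 (K := K) t) {g} ∧
      (framePair E hN φ).I1 ^ p = Submodule.span (C1 (K := K) t) {g} ∧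
      ∃ (I0 J0 : Submodule R0 F₂) (I1 J1 : Submodule R1 F₂),
        I0 * J0 = 1 ∧ I1 * J1 = 1 ∧
        I0 ^ p = Submodule.span R0 {ψ g} ∧ I1 ^ p = Submodule.span R1 {ψ g} ∧
        J0 ^ p = Submodule.span R0 {(ψ g)⁻¹} ∧ J1 ^ p = Submodule.span R1 {(ψ g)⁻¹} := by
  letI := algI0 (R0 := R0) E
  letI := algI1 (R1 := R1) E
  letI := algI01 (R01 := R01) E
  haveI := towerI0 E hc0
  haveI := towerI1 E hc1
  obtain ⟨ψiso⟩ := Frame.nonempty_iso_tpow_of_pow_eq_one c hMo h
  obtain ⟨g, hg, h0, h1⟩ :=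
    Frame.exists_pow_eq_span (restrictLin E ld φ) (restrictLin_ne_zero E ld φ) p ψiso
  obtain ⟨J0, hJ0⟩ := Frame.exists_mul_eq_one_of_pow_eq_span hp hg h0
  obtain ⟨J1, hJ1⟩ := Frame.exists_mul_eq_one_of_pow_eq_span hp hg h1
  -- the generic fibre
  have hG0 : (framePair E hN φ).I0 ^ p = Submodule.span (C0 (K := K) t) {g} := by
    letI : Algebra R0 (C0 (K := K) t) :=
      ((E.e0 : S0 →+* C0 (K := K) t).comp (algebraMap R0 S0)).toAlgebra
    haveI : IsScalarTower R0 (C0 (K := K) t) F₁ := IsScalarTower.of_algebraMap_eq (fun x => rfl)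
    have h2 := span_pow_eq_span_singleton (C := C0 (K := K) t)
      (Frame.frame0 Mo (restrictLin E ld φ)) h0
    rw [coe_frame0_restrict E hc0 hc1 ld φ, ← frameI0_eq_span E ld φ] at h2
    exact h2
  have hG1 : (framePair E hN φ).I1 ^ p = Submodule.span (C1 (K := K) t) {g} := by
    letI : Algebra R1 (C1 (K := K) t) :=
      ((E.e1 : S1 →+* C1 (K := K) t).comp (algebraMap R1 S1)).toAlgebra
    haveI : IsScalarTower R1 (C1 (K := K) t) F₁ := IsScalarTower.of_algebraMap_eq (fun x => rfl)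
    have h2 := span_pow_eq_span_singleton (C := C1 (K := K) t)
      (Frame.frame1 Mo (restrictLin E ld φ)) h1
    rw [coe_frame1_restrict E hc0 hc1 ld φ, ← frameI1_eq_span E ld φ] at h2
    exact h2
  -- push the integral frames to `F₂`
  let ψ0 : F₁ →ₐ[R0] F₂ := { ψ with commutes' := fun r => (hρ0 r).symm }
  let ψ1 : F₁ →ₐ[R1] F₂ := { ψ with commutes' := fun r => (hρ1 r).symm }
  obtain ⟨hm0, hp0⟩ := map_frames ψ0 hJ0 h0
  obtain ⟨hm1, hp1⟩ := map_frames ψ1 hJ1 h1
  have hψg : ψ g ≠ 0 := (map_ne_zero ψ).2 hg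
  have hp0' : (Frame.frame0 Mo (restrictLin E ld φ)).map ψ0.toLinearMap ^ p =
      Submodule.span R0 {ψ g} := hp0
  have hp1' : (Frame.frame1 Mo (restrictLin E ld φ)).map ψ1.toLinearMap ^ p =
      Submodule.span R1 {ψ g} := hp1
  exact ⟨g, hg, hG0, hG1, _, _, _, _, hm0, hm1, hp0', hp1', inv_pow_eq_span hm0 hψg hp0',
    inv_pow_eq_span hm1 hψg hp1'⟩

end Fermat.Agent.T1B.Hol31.FrameBC
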