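/-
T1B (S44), brick F8' slice S5 HOL (brick 594), helper31: FRAME-BC, divisor side = THE S5 FRAME STATEMENT.

`L ⊆ ℚ̄` a number field, `c : TwoChart O R0 R1 R01` the integral model, `c' : TwoChart L S0 S1 S01` its
generic fibre, `E : ChartIso c' t` (`t : FK M L`), `Mo` a line on `c` with `(LinePic.mk c Mo hMo) ^ p = 1`,
`N` its generic fibre, `φ` any framing of `N`, `Λ = framePair E hN φ`.  Then `Λ` has degree `0` and the
`p`-torsion class `cls Λ ∈ J₀(M)` is presented by `(divL Λ, f)`, `f = (cL g)⁻¹`, where `R_j ∙ f` is the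
`p`-th power of an invertible `R_j`-submodule of `ℚ̄·F_M` for both INTEGRAL charts `R_j`
(= the hypotheses of `Hol80.delta_mem_Hol` / `Hol80.holLog_delta`).
-/
import Mathlib
import Fermat.Agent.T1B.Hol31.FrameBC
import Fermat.Agent.T1B.Hol31.DictExtDiv

set_option autoImplicit false
set_option linter.unusedSectionVars false
set_option linter.style.haveILetI false

namespace Fermat.Agent.T1B.Hol31.FrameBCDiv

open Fermat.Agent.Jac Fermat.Agent.Jac.LineOps39 Fermat.Agent.Jac.JGroup85Pic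
open Fermat.Agent.Jac.JSmooth85Alg
open Fermat.Agent.T1.Dict59 Fermat.Agent.T1.Adapt96 Fermat.Agent.T1B.Hol31.DictExt
open HahnSeries AlgebraicCurve ModularCurve IntermediateField
open Fermat.Agent.RED.Interface4 Fermat.Agent.T1B.Hecke3

set_option synthInstance.maxHeartbeats 400000
set_option maxHeartbeats 1000000

variable {M : ℕ} [NeZero M] {L : IntermediateField ℚ Qbar} {t : FK M L}
  {O R0 R1 R01 : Type} [CommRing O] [CommRing R0] [CommRing R1] [CommRing R01]
  [Algebra O R0] [Algebra O R1] [Algebra O R01] [Algebra R0 R01] [Algebra R1 R01]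
  [IsScalarTower O R0 R01] [IsScalarTower O R1 R01]
  {S0 S1 S01 : Type} [CommRing S0] [CommRing S1] [CommRing S01]
  [Algebra L S0] [Algebra L S1] [Algebra L S01] [Algebra S0 S01] [Algebra S1 S01]
  [IsScalarTower L S0 S01] [IsScalarTower L S1 S01]
  [Algebra R0 S0] [Algebra R1 S1] [Algebra R01 S01]
  {c' : TwoChart L S0 S1 S01} (E : ChartIso c' t)
  [Algebra R0 (Fbar M)] [Algebra R1 (Fbar M)]
  {Mo : QC2 O R0 R1 R01} {N : QC2 L S0 S1 S01}

/-- **S5 FRAME.**  A `p`-torsion class of `J₀(M)` whose line extends to the integral model (with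
`p`-torsion class there) is presented by `(D, f)` with `R_j ∙ f` a `p`-th power of an invertible module
on both integral charts. -/
theorem exists_isPData_frames (c : TwoChart O R0 R1 R01)
    (hc0 : (algebraMap S0 S01).comp (algebraMap R0 S0) =
      (algebraMap R01 S01).comp (algebraMap R0 R01))
    (hc1 : (algebraMap S1 S01).comp (algebraMap R1 S1) =
      (algebraMap R01 S01).comp (algebraMap R1 R01))
    (hρ0 : ∀ r : R0, algebraMap R0 (Fbar M) r = cL M L (E.ι0 (algebraMap R0 S0 r)))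
    (hρ1 : ∀ r : R1, algebraMap R1 (Fbar M) r = cL M L (E.ι1 (algebraMap R1 S1 r)))
    (ht : NonConst M t) (hMo : Mo.IsLine) (hN : N.IsLine) (ld : LiftData Mo N) {p : ℕ}
    (hp : p ≠ 0) (h : (LinePic.mk c Mo hMo) ^ p = 1) (φ : Framing E N) :
    ∃ (hdeg : LinePair.deg (framePair E hN φ) = 0) (g : FK M L)
      (I0 J0 : Submodule R0 (Fbar M)) (I1 J1 : Submodule R1 (Fbar M)), g ≠ 0 ∧
      IsPData (K := Qbar) p (LinePair.cls (framePair E hN φ))
        ⟨LinePair.divL (framePair E hN φ), Divisor.mem_degZero.2 hdeg⟩ (cL M L g)⁻¹ ∧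
      I0 * J0 = 1 ∧ I1 * J1 = 1 ∧
      I0 ^ p = Submodule.span R0 {(cL M L g)⁻¹} ∧ I1 ^ p = Submodule.span R1 {(cL M L g)⁻¹} := by
  obtain ⟨g, hg, hG0, hG1, I0, J0, I1, J1, hm0, hm1, -, -, hq0, hq1⟩ :=
    FrameBC.exists_frames_of_pow_eq_one E (cL M L) c hc0 hc1 hρ0 hρ1 hMo hN ld hp h φ
  obtain ⟨hdeg, hP⟩ := DictExtDiv.isPData_of_pow_eq_span ht (framePair E hN φ) hp hg hG0 hG1
  refine ⟨hdeg, g, J0, I0, J1, I1, hg, hP, ?_, ?_, hq0, hq1⟩
  · rw [mul_comm]; exact hm0
  · rw [mul_comm]; exact hm1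

end Fermat.Agent.T1B.Hol31.FrameBCDiv
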