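/-
T1B (S44), brick F8' slice S5 HOL (brick 594), helper31: FRAME-INT = FRAME-BC in the `Hol31.Frame`
vocabulary over the INTEGRAL charts, with values in the big field `F₂` (`= ℚ̄·F_M`).

Same setting as `FrameBC.lean`; in addition `F₂` is an algebra over the integral rings `R0, R1, R01`
(ANY instances compatible with `ψ ∘ E.ι_j ∘ (R_j → S_j)`, towers `R_j → R01 → F₂`).

* `framingInt E ψ hρ01 ld φ : Mo.N01 →ₗ[R01] F₂`, `x ↦ ψ (φ (ld.e01 (1 ⊗ x)))`;
* **`exists_pow_eq_span_of_pow_eq_one`** : if `(LinePic.mk c Mo hMo) ^ p = 1` then there is ONE `g ≠ 0` in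
  `F₁` with `(framePair E hN φ).I_j ^ p = C_j ∙ g` (generic fibre, line-pair side) and
  `frame_j Mo (framingInt ..) ^ p = R_j ∙ ψ g` (integral model, `Hol31.Frame` side).
-/
import Mathlib
import Fermat.Agent.T1B.Hol31.FrameBC

set_option autoImplicit false
set_option linter.unusedSectionVars false
set_option linter.style.haveILetI false

universe u v w

open TensorProduct

namespace Fermat.Agent.T1B.Hol31.FrameInt

open Fermat.Agent.Jac Fermat.Agent.Jac.LineOps39 Fermat.Agent.Jac.JGroup85Pic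
open Fermat.Agent.Jac.JSmooth85Alg
open Fermat.Agent.T1.Dict59 Fermat.Agent.T1.Adapt96 Fermat.Agent.T1B.Hol31.DictExt
open Fermat.Agent.T1B.Hol31.FrameBC

variable {O R0 R1 R01 : Type u} [CommRing O] [CommRing R0] [CommRing R1] [CommRing R01]
  [Algebra O R0] [Algebra O R1] [Algebra O R01] [Algebra R0 R01] [Algebra R1 R01]
  [IsScalarTower O R0 R01] [IsScalarTower O R1 R01]
  {K S0 S1 S01 : Type u} [Field K] [CommRing S0] [CommRing S1] [CommRing S01]
  [Algebra K S0] [Algebra K S1] [Algebra K S01] [Algebra S0 S01] [Algebra S1 S01]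
  [IsScalarTower K S0 S01] [IsScalarTower K S1 S01]
  [Algebra R0 S0] [Algebra R1 S1] [Algebra R01 S01]
  {F₁ : Type v} [Field F₁] [Algebra K F₁]
  {c' : TwoChart K S0 S1 S01} {t : F₁} (E : ChartIso c' t)
  {F₂ : Type w} [Field F₂] (ψ : F₁ →+* F₂)
  [Algebra R0 F₂] [Algebra R1 F₂] [Algebra R01 F₂]
  [IsScalarTower R0 R01 F₂] [IsScalarTower R1 R01 F₂]
  {Mo : QC2 O R0 R1 R01} {N : QC2 K S0 S1 S01}

/-- The framing of the integral model with values in `F₂`: `x ↦ ψ (φ (ld.e01 (1 ⊗ x)))`. -/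
noncomputable def framingInt
    (hρ01 : ∀ r : R01, algebraMap R01 F₂ r = ψ (E.e01 (algebraMap R01 S01 r)))
    (ld : LiftData Mo N) (φ : Framing E N) : Mo.N01 →ₗ[R01] F₂ where
  toFun x := ψ (φ (ld.e01 ((1 : S01) ⊗ₜ[R01] x)))
  map_add' x y := by rw [TensorProduct.tmul_add, _root_.map_add, φ.map_add, _root_.map_add]
  map_smul' r x := by
    have h1 : ((1 : S01) ⊗ₜ[R01] (r • x)) =
        (algebraMap R01 S01 r) • ((1 : S01) ⊗ₜ[R01] x) := by
      rw [TensorProduct.smul_tmul', smul_eq_mul, mul_one, ← TensorProduct.smul_tmul,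
        Algebra.smul_def, mul_one]
    rw [h1, _root_.map_smul, φ.map_smul, _root_.map_mul, ← hρ01, RingHom.id_apply,
      Algebra.smul_def]

theorem framingInt_apply
    (hρ01 : ∀ r : R01, algebraMap R01 F₂ r = ψ (E.e01 (algebraMap R01 S01 r)))
    (ld : LiftData Mo N) (φ : Framing E N) (x : Mo.N01) :
    framingInt E ψ hρ01 ld φ x = ψ (φ (ld.e01 ((1 : S01) ⊗ₜ[R01] x))) := rfl

theorem framingInt_ne_zero
    (hρ01 : ∀ r : R01, algebraMap R01 F₂ r = ψ (E.e01 (algebraMap R01 S01 r)))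
    (ld : LiftData Mo N) (φ : Framing E N) : framingInt E ψ hρ01 ld φ ≠ 0 := by
  letI := algI01 (R01 := R01) E
  intro h0
  apply restrictLin_ne_zero E ld φ
  apply LinearMap.ext
  intro x
  have h1 := framingInt_apply E ψ hρ01 ld φ x
  rw [h0, LinearMap.zero_apply] at h1
  have h2 : φ (ld.e01 ((1 : S01) ⊗ₜ[R01] x)) = 0 := by
    by_contra hne
    exact (map_ne_zero ψ).2 hne h1.symm
  rw [LinearMap.zero_apply]
  exact h2

/-- The frames of `framingInt` are the `ψ`-images of the integral frames in `F₁`. -/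
theorem coe_frame0_framingInt
    (hρ01 : ∀ r : R01, algebraMap R01 F₂ r = ψ (E.e01 (algebraMap R01 S01 r)))
    (ld : LiftData Mo N) (φ : Framing E N) :
    (Frame.frame0 Mo (framingInt E ψ hρ01 ld φ) : Set F₂) = ψ '' intFrame0 E ld φ := by
  ext z
  rw [SetLike.mem_coe, Frame.mem_frame0]
  constructor
  · rintro ⟨x, rfl⟩
    refine ⟨_, ⟨x, rfl⟩, ?_⟩
    rw [framingInt_apply, ← ld.comm0]
  · rintro ⟨_, ⟨x, rfl⟩, rfl⟩
    refine ⟨x, ?_⟩
    rw [framingInt_apply, ← ld.comm0]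

theorem coe_frame1_framingInt
    (hρ01 : ∀ r : R01, algebraMap R01 F₂ r = ψ (E.e01 (algebraMap R01 S01 r)))
    (ld : LiftData Mo N) (φ : Framing E N) :
    (Frame.frame1 Mo (framingInt E ψ hρ01 ld φ) : Set F₂) = ψ '' intFrame1 E ld φ := by
  ext z
  rw [SetLike.mem_coe, Frame.mem_frame1]
  constructor
  · rintro ⟨x, rfl⟩
    refine ⟨_, ⟨x, rfl⟩, ?_⟩
    rw [framingInt_apply, ← ld.comm1]
  · rintro ⟨_, ⟨x, rfl⟩, rfl⟩
    refine ⟨x, ?_⟩
    rw [framingInt_apply, ← ld.comm1]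

/-- **FRAME-INT.**  Let `Mo` be a line on the integral model `c` whose class is killed by `p`, `N` its
generic fibre and `φ` ANY framing of `N`.  Then there is ONE `g ≠ 0` in `F₁` such that
`(framePair E hN φ).I_j ^ p = C_j ∙ g` and `frame_j Mo (framingInt ..) ^ p = R_j ∙ ψ g`, `j = 0, 1`. -/
theorem exists_pow_eq_span_of_pow_eq_one (c : TwoChart O R0 R1 R01)
    (hc0 : (algebraMap S0 S01).comp (algebraMap R0 S0) =
      (algebraMap R01 S01).comp (algebraMap R0 R01))
    (hc1 : (algebraMap S1 S01).comp (algebraMap R1 S1) =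
      (algebraMap R01 S01).comp (algebraMap R1 R01))
    (hρ0 : ∀ r : R0, algebraMap R0 F₂ r = ψ (E.ι0 (algebraMap R0 S0 r)))
    (hρ1 : ∀ r : R1, algebraMap R1 F₂ r = ψ (E.ι1 (algebraMap R1 S1 r)))
    (hρ01 : ∀ r : R01, algebraMap R01 F₂ r = ψ (E.e01 (algebraMap R01 S01 r)))
    (hMo : Mo.IsLine) (hN : N.IsLine) (ld : LiftData Mo N) {p : ℕ}
    (h : (LinePic.mk c Mo hMo) ^ p = 1) (φ : Framing E N) :
    ∃ g : F₁, g ≠ 0 ∧
      (framePair E hN φ).I0 ^ p = Submodule.span (C0 (K := K) t) {g} ∧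
      (framePair E hN φ).I1 ^ p = Submodule.span (C1 (K := K) t) {g} ∧
      Frame.frame0 Mo (framingInt E ψ hρ01 ld φ) ^ p = Submodule.span R0 {ψ g} ∧
      Frame.frame1 Mo (framingInt E ψ hρ01 ld φ) ^ p = Submodule.span R1 {ψ g} := by
  -- frames in `F₁`
  have key : ∃ g : F₁, g ≠ 0 ∧
      (framePair E hN φ).I0 ^ p = Submodule.span (C0 (K := K) t) {g} ∧
      (framePair E hN φ).I1 ^ p = Submodule.span (C1 (K := K) t) {g} ∧
      (letI := algI0 (R0 := R0) E
       ∃ I : Submodule R0 F₁, (I : Set F₁) = intFrame0 E ld φ ∧ I ^ p = Submodule.span R0 {g}) ∧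
      (letI := algI1 (R1 := R1) E
       ∃ I : Submodule R1 F₁, (I : Set F₁) = intFrame1 E ld φ ∧ I ^ p = Submodule.span R1 {g}) := by
    letI := algI0 (R0 := R0) E
    letI := algI1 (R1 := R1) E
    letI := algI01 (R01 := R01) E
    haveI := towerI0 E hc0
    haveI := towerI1 E hc1
    obtain ⟨ψiso⟩ := Frame.nonempty_iso_tpow_of_pow_eq_one c hMo h
    obtain ⟨g, hg, h0, h1⟩ :=
      Frame.exists_pow_eq_span (restrictLin E ld φ) (restrictLin_ne_zero E ld φ) p ψiso
    refine ⟨g, hg, ?_, ?_, ⟨_, coe_frame0_restrict E hc0 hc1 ld φ, h0⟩,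
      ⟨_, coe_frame1_restrict E hc0 hc1 ld φ, h1⟩⟩
    · letI : Algebra R0 (C0 (K := K) t) :=
        ((E.e0 : S0 →+* C0 (K := K) t).comp (algebraMap R0 S0)).toAlgebra
      haveI : IsScalarTower R0 (C0 (K := K) t) F₁ := IsScalarTower.of_algebraMap_eq (fun x => rfl)
      have h2 := span_pow_eq_span_singleton (C := C0 (K := K) t)
        (Frame.frame0 Mo (restrictLin E ld φ)) h0
      rw [coe_frame0_restrict E hc0 hc1 ld φ, ← frameI0_eq_span E ld φ] at h2
      exact h2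
    · letI : Algebra R1 (C1 (K := K) t) :=
        ((E.e1 : S1 →+* C1 (K := K) t).comp (algebraMap R1 S1)).toAlgebra
      haveI : IsScalarTower R1 (C1 (K := K) t) F₁ := IsScalarTower.of_algebraMap_eq (fun x => rfl)
      have h2 := span_pow_eq_span_singleton (C := C1 (K := K) t)
        (Frame.frame1 Mo (restrictLin E ld φ)) h1
      rw [coe_frame1_restrict E hc0 hc1 ld φ, ← frameI1_eq_span E ld φ] at h2
      exact h2
  obtain ⟨g, hg, hG0, hG1, ⟨I0, hI0, hp0⟩, ⟨I1, hI1, hp1⟩⟩ := key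
  refine ⟨g, hg, hG0, hG1, ?_, ?_⟩
  · letI := algI0 (R0 := R0) E
    let ψ0 : F₁ →ₐ[R0] F₂ := { ψ with commutes' := fun r => (hρ0 r).symm }
    have hmap : Frame.frame0 Mo (framingInt E ψ hρ01 ld φ) = I0.map ψ0.toLinearMap := by
      apply SetLike.coe_injective
      rw [coe_frame0_framingInt, Submodule.map_coe, hI0]
      rfl
    rw [hmap, ← Submodule.map_pow, hp0, Submodule.map_span, Set.image_singleton]
    rfl
  · letI := algI1 (R1 := R1) E
    let ψ1 : F₁ →ₐ[R1] F₂ := { ψ with commutes' := fun r => (hρ1 r).symm }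
    have hmap : Frame.frame1 Mo (framingInt E ψ hρ01 ld φ) = I1.map ψ1.toLinearMap := by
      apply SetLike.coe_injective
      rw [coe_frame1_framingInt, Submodule.map_coe, hI1]
      rfl
    rw [hmap, ← Submodule.map_pow, hp1, Submodule.map_span, Set.image_singleton]
    rfl

end Fermat.Agent.T1B.Hol31.FrameInt
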