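/-
T1B (S44), brick F8' slice S5 HOL (brick 594), helper31: HUB-ASM = from a `p`-torsion class of `J⁰(L)`
(hub vocabulary `PicX c0 O`, `RedN3.J0L`, `RedN3.ExtInjective00`) to the input of FRAME-BC / FRAME-INT.

* `exists_line_of_mem_J0L` : if `z ∈ J0L c0 O L P00`, `z ^ p = 1` and `P00 → Pic X_L` is injective, then
  there is a line `Mo` on `c0.baseChange O` with `mk Mo ∈ P00`, `(mk Mo) ^ p = 1`,
  `PicX.map c0 O L (mk Mo) = z`, and EVERY line `N` on `c0.baseChange L` with `mk N = z` is a base change of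
  `Mo` (`Nonempty (LiftData Mo N)`).
-/
import Mathlib
import Fermat.Agent.T1B.RedN3.Iface

set_option autoImplicit false
set_option linter.unusedSectionVars false

universe u

open TensorProduct

namespace Fermat.Agent.T1B.Hol31.HubAsm

open Fermat.Agent.Jac Fermat.Agent.Jac.LineOps39 Fermat.Agent.Jac.JGroup85Pic
open Fermat.Agent.Jac.JSmooth85Alg
open Fermat.Agent.Jac.BaseChange75 Fermat.Agent.T1.RedIface75 Fermat.Agent.T1B.RedN3
open scoped Fermat.Agent.Jac.BaseChange75

variable {W B0 B1 B01 : Type u} [CommRing W] [CommRing B0] [CommRing B1] [CommRing B01]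
  [Algebra W B0] [Algebra W B1] [Algebra W B01] [Algebra B0 B01] [Algebra B1 B01]
  [IsScalarTower W B0 B01] [IsScalarTower W B1 B01]
  (c0 : TwoChart W B0 B1 B01)
  (O : Type u) [CommRing O] [Algebra W O]
  (L : Type u) [CommRing L] [Algebra W L] [Algebra O L] [IsScalarTower W O L]

/-- A `p`-torsion class of `J⁰(L)` is the generic fibre of a line of `P00` which is itself `p`-torsion. -/
theorem exists_line_of_mem_J0L (P00 : Subgroup (PicX c0 O)) (hinj : ExtInjective00 c0 O L P00)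
    {z : PicX c0 L} (hz : z ∈ J0L c0 O L P00) {p : ℕ} (hzp : z ^ p = 1) :
    ∃ (Mo : QC2 O (O ⊗[W] B0) (O ⊗[W] B1) (O ⊗[W] B01)) (hMo : Mo.IsLine),
      LinePic.mk (c0.baseChange O) Mo hMo ∈ P00 ∧
      (LinePic.mk (c0.baseChange O) Mo hMo) ^ p = 1 ∧
      PicX.map c0 O L (LinePic.mk (c0.baseChange O) Mo hMo) = z ∧
      ∀ (N : QC2 L (L ⊗[W] B0) (L ⊗[W] B1) (L ⊗[W] B01)) (hN : N.IsLine),
        LinePic.mk (c0.baseChange L) N hN = z → Nonempty (LiftData Mo N) := by
  obtain ⟨y, hy, rfl⟩ := hz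
  obtain ⟨Mo, hMo, rfl⟩ := LinePic.exists_rep y
  refine ⟨Mo, hMo, hy, ?_, rfl, ?_⟩
  · apply hinj _ (P00.pow_mem hy p)
    rw [map_pow]
    exact hzp
  · intro N hN hNz
    exact LinePic.nonempty_liftData_of_bc_eq (square_comm W O L B0 B01) (square_comm W O L B1 B01)
      (c0.baseChange O) (c0.baseChange L) hMo hN hNz.symm

end Fermat.Agent.T1B.Hol31.HubAsm
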