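/-
T1B (S44), brick F8' slice S5 HOL (brick 594), helper31: HUB-ASM, divisor side = S5 FRAME at the hub.

Hub vocabulary: `c0 : TwoChart W B0 B1 B01`, `O` a `W`-algebra (the DVR `A ∩ L`), `L ⊆ ℚ̄` a number field
which is an `O`-algebra, `P00 ≤ PicX c0 O` with `ExtInjective00`, `E : ChartIso (c0.baseChange L) t`.
For a `p`-torsion class `z ∈ J0L c0 O L P00` and ANY framed line `(N, φ)` on `c0.baseChange L` with
`mk N = z`, `Λ = framePair E hN φ`: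

* `exists_isPData_frames_hub` (shape of `Hol80.delta_mem_Hol` / `holLog_delta`);
* `exists_isPData_framingInt_hub` (shape of `Ker85.AsmComp`).
-/
import Mathlib
import Fermat.Agent.T1B.Hol31.HubAsm
import Fermat.Agent.T1B.Hol31.FrameBCDiv
import Fermat.Agent.T1B.Hol31.FrameIntDiv

set_option autoImplicit false
set_option linter.unusedSectionVars false
set_option linter.style.haveILetI false

open TensorProduct

namespace Fermat.Agent.T1B.Hol31.HubAsmDiv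

open Fermat.Agent.Jac Fermat.Agent.Jac.LineOps39 Fermat.Agent.Jac.JGroup85Pic
open Fermat.Agent.Jac.JSmooth85Alg
open Fermat.Agent.Jac.BaseChange75 Fermat.Agent.T1.RedIface75 Fermat.Agent.T1B.RedN3
open Fermat.Agent.T1.Dict59 Fermat.Agent.T1.Adapt96 Fermat.Agent.T1B.Hol31.DictExt
open HahnSeries AlgebraicCurve ModularCurve IntermediateField
open Fermat.Agent.RED.Interface4 Fermat.Agent.T1B.Hecke3
open scoped Fermat.Agent.Jac.BaseChange75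

set_option synthInstance.maxHeartbeats 400000
set_option maxHeartbeats 1000000

variable {M : ℕ} [NeZero M] {L : IntermediateField ℚ Qbar} {t : FK M L}
  {W B0 B1 B01 : Type} [CommRing W] [CommRing B0] [CommRing B1] [CommRing B01]
  [Algebra W B0] [Algebra W B1] [Algebra W B01] [Algebra B0 B01] [Algebra B1 B01]
  [IsScalarTower W B0 B01] [IsScalarTower W B1 B01]
  (c0 : TwoChart W B0 B1 B01)
  (O : Type) [CommRing O] [Algebra W O]
  [Algebra W L] [Algebra O L] [IsScalarTower W O L]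
  (E : ChartIso (c0.baseChange ↥L) t)
  [Algebra (O ⊗[W] B0) (Fbar M)] [Algebra (O ⊗[W] B1) (Fbar M)] [Algebra (O ⊗[W] B01) (Fbar M)]
  [IsScalarTower (O ⊗[W] B0) (O ⊗[W] B01) (Fbar M)]
  [IsScalarTower (O ⊗[W] B1) (O ⊗[W] B01) (Fbar M)]

/-- **S5 FRAME at the hub**, `I_j`/`J_j` form. -/
theorem exists_isPData_frames_hub
    (hρ0 : ∀ r : O ⊗[W] B0, algebraMap (O ⊗[W] B0) (Fbar M) r =
      cL M L (E.ι0 (algebraMap (O ⊗[W] B0) (↥L ⊗[W] B0) r)))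
    (hρ1 : ∀ r : O ⊗[W] B1, algebraMap (O ⊗[W] B1) (Fbar M) r =
      cL M L (E.ι1 (algebraMap (O ⊗[W] B1) (↥L ⊗[W] B1) r)))
    (ht : NonConst M t) (P00 : Subgroup (PicX c0 O)) (hinj : ExtInjective00 c0 O ↥L P00)
    {z : PicX c0 ↥L} (hz : z ∈ J0L c0 O ↥L P00) {p : ℕ} (hp : p ≠ 0) (hzp : z ^ p = 1)
    {N : QC2 ↥L (↥L ⊗[W] B0) (↥L ⊗[W] B1) (↥L ⊗[W] B01)} (hN : N.IsLine)
    (hNz : LinePic.mk (c0.baseChange ↥L) N hN = z) (φ : Framing E N) :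
    ∃ (hdeg : LinePair.deg (framePair E hN φ) = 0) (g : FK M L)
      (I0 J0 : Submodule (O ⊗[W] B0) (Fbar M)) (I1 J1 : Submodule (O ⊗[W] B1) (Fbar M)), g ≠ 0 ∧
      IsPData (K := Qbar) p (LinePair.cls (framePair E hN φ))
        ⟨LinePair.divL (framePair E hN φ), Divisor.mem_degZero.2 hdeg⟩ (cL M L g)⁻¹ ∧
      I0 * J0 = 1 ∧ I1 * J1 = 1 ∧
      I0 ^ p = Submodule.span (O ⊗[W] B0) {(cL M L g)⁻¹} ∧
      I1 ^ p = Submodule.span (O ⊗[W] B1) {(cL M L g)⁻¹} := by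
  obtain ⟨Mo, hMo, -, hpow, -, hld⟩ := HubAsm.exists_line_of_mem_J0L c0 O ↥L P00 hinj hz hzp
  obtain ⟨ld⟩ := hld N hN hNz
  exact FrameBCDiv.exists_isPData_frames E (c0.baseChange O) (square_comm W O ↥L B0 B01)
    (square_comm W O ↥L B1 B01) hρ0 hρ1 ht hMo hN ld hp hpow φ

/-- **S5 FRAME at the hub**, `Hol31.Frame` form. -/
theorem exists_isPData_framingInt_hub
    (hρ0 : ∀ r : O ⊗[W] B0, algebraMap (O ⊗[W] B0) (Fbar M) r =
      cL M L (E.ι0 (algebraMap (O ⊗[W] B0) (↥L ⊗[W] B0) r)))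
    (hρ1 : ∀ r : O ⊗[W] B1, algebraMap (O ⊗[W] B1) (Fbar M) r =
      cL M L (E.ι1 (algebraMap (O ⊗[W] B1) (↥L ⊗[W] B1) r)))
    (hρ01 : ∀ r : O ⊗[W] B01, algebraMap (O ⊗[W] B01) (Fbar M) r =
      cL M L (E.e01 (algebraMap (O ⊗[W] B01) (↥L ⊗[W] B01) r)))
    (ht : NonConst M t) (P00 : Subgroup (PicX c0 O)) (hinj : ExtInjective00 c0 O ↥L P00)
    {z : PicX c0 ↥L} (hz : z ∈ J0L c0 O ↥L P00) {p : ℕ} (hp : p ≠ 0) (hzp : z ^ p = 1)
    {N : QC2 ↥L (↥L ⊗[W] B0) (↥L ⊗[W] B1) (↥L ⊗[W] B01)} (hN : N.IsLine)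
    (hNz : LinePic.mk (c0.baseChange ↥L) N hN = z) (φ : Framing E N) :
    ∃ (Mo : QC2 O (O ⊗[W] B0) (O ⊗[W] B1) (O ⊗[W] B01)) (hMo : Mo.IsLine) (ld : LiftData Mo N)
      (hdeg : LinePair.deg (framePair E hN φ) = 0) (g : FK M L),
      LinePic.mk (c0.baseChange O) Mo hMo ∈ P00 ∧
      (LinePic.mk (c0.baseChange O) Mo hMo) ^ p = 1 ∧
      PicX.map c0 O ↥L (LinePic.mk (c0.baseChange O) Mo hMo) = z ∧ g ≠ 0 ∧
      IsPData (K := Qbar) p (LinePair.cls (framePair E hN φ))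
        ⟨LinePair.divL (framePair E hN φ), Divisor.mem_degZero.2 hdeg⟩ (cL M L g)⁻¹ ∧
      FrameInt.framingInt E (cL M L) hρ01 ld φ ≠ 0 ∧
      Frame.frame0 Mo (FrameInt.framingInt E (cL M L) hρ01 ld φ) ^ p =
        Submodule.span (O ⊗[W] B0) {cL M L g} ∧
      Frame.frame1 Mo (FrameInt.framingInt E (cL M L) hρ01 ld φ) ^ p =
        Submodule.span (O ⊗[W] B1) {cL M L g} := by
  obtain ⟨Mo, hMo, hmem, hpow, hmap, hld⟩ :=
    HubAsm.exists_line_of_mem_J0L c0 O ↥L P00 hinj hz hzp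
  obtain ⟨ld⟩ := hld N hN hNz
  obtain ⟨hdeg, g, hg, hP, hε, h0, h1⟩ :=
    FrameIntDiv.exists_isPData_framingInt E (c0.baseChange O) (square_comm W O ↥L B0 B01)
      (square_comm W O ↥L B1 B01) hρ0 hρ1 hρ01 ht hMo hN ld hp hpow φ
  exact ⟨Mo, hMo, ld, hdeg, g, hmem, hpow, hmap, hg, hP, hε, h0, h1⟩

end Fermat.Agent.T1B.Hol31.HubAsmDiv
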