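/-
T1B (S44), brick F8' slice S5 HOL (brick 594), helper31: HUB-INST = the canonical algebra structures of
`ℚ̄·F_M` over the integral charts `O ⊗[W] B_j`, and the two hub theorems of `HubAsmDiv` with these plugged in.

`algF0 c0 O E`, `algF1`, `algF01` : `Fbar M` as an algebra over `O ⊗[W] B0`, `O ⊗[W] B1`, `O ⊗[W] B01` through
`O ⊗ B_j → L ⊗ B_j →(E) L·F_M →(cL) ℚ̄·F_M` (reducible defs, NOT instances: use `letI`);
`towerF0`, `towerF1`; `algF0_apply` etc. (`rfl`).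
-/
import Mathlib
import Fermat.Agent.T1B.Hol31.HubAsmDiv

set_option autoImplicit false
set_option linter.unusedSectionVars false
set_option linter.style.haveILetI false

open TensorProduct

namespace Fermat.Agent.T1B.Hol31.HubInst

open Fermat.Agent.Jac Fermat.Agent.Jac.LineOps39 Fermat.Agent.Jac.JGroup85Pic
open Fermat.Agent.Jac.JSmooth85Alg
open Fermat.Agent.Jac.BaseChange75 Fermat.Agent.T1.RedIface75 Fermat.Agent.T1B.RedN3
open Fermat.Agent.T1.Dict59 Fermat.Agent.T1.Adapt96 Fermat.Agent.T1B.Hol31.DictExt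
open HahnSeries AlgebraicCurve ModularCurve IntermediateField
open Fermat.Agent.RED.Interface4 Fermat.Agent.T1B.Hecke3
open scoped Fermat.Agent.Jac.BaseChange75

set_option synthInstance.maxHeartbeats 400000
set_option maxHeartbeats 1000000

variable {M : ℕ} [NeZero M] {L : IntermediateField ℚ Qbar} {t : FK M L}
  {W B0 B1 B01 : Type} [CommRing W] [CommRing B0] [CommRing B1] [CommRing B01]
  [Algebra W B0] [Algebra W B1] [Algebra W B01] [Algebra B0 B01] [Algebra B1 B01]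
  [IsScalarTower W B0 B01] [IsScalarTower W B1 B01]
  (c0 : TwoChart W B0 B1 B01)
  (O : Type) [CommRing O] [Algebra W O]
  [Algebra W L] [Algebra O L] [IsScalarTower W O L]
  (E : ChartIso (c0.baseChange ↥L) t)

/-- `ℚ̄·F_M` as an algebra over the integral chart `O ⊗[W] B0`.  Not an instance. -/
@[reducible] noncomputable def algF0 : Algebra (O ⊗[W] B0) (Fbar M) :=
  ((cL M L).comp (E.ι0.comp (algebraMap (O ⊗[W] B0) (↥L ⊗[W] B0)))).toAlgebra

/-- `ℚ̄·F_M` as an algebra over the integral chart `O ⊗[W] B1`.  Not an instance. -/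
@[reducible] noncomputable def algF1 : Algebra (O ⊗[W] B1) (Fbar M) :=
  ((cL M L).comp (E.ι1.comp (algebraMap (O ⊗[W] B1) (↥L ⊗[W] B1)))).toAlgebra

/-- `ℚ̄·F_M` as an algebra over the integral overlap ring `O ⊗[W] B01`.  Not an instance. -/
@[reducible] noncomputable def algF01 : Algebra (O ⊗[W] B01) (Fbar M) :=
  ((cL M L).comp (E.e01.comp (algebraMap (O ⊗[W] B01) (↥L ⊗[W] B01)))).toAlgebra

theorem algF0_apply (r : O ⊗[W] B0) :
    (letI := algF0 c0 O E; algebraMap (O ⊗[W] B0) (Fbar M) r) =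
      cL M L (E.ι0 (algebraMap (O ⊗[W] B0) (↥L ⊗[W] B0) r)) := rfl

theorem algF1_apply (r : O ⊗[W] B1) :
    (letI := algF1 c0 O E; algebraMap (O ⊗[W] B1) (Fbar M) r) =
      cL M L (E.ι1 (algebraMap (O ⊗[W] B1) (↥L ⊗[W] B1) r)) := rfl

theorem algF01_apply (r : O ⊗[W] B01) :
    (letI := algF01 c0 O E; algebraMap (O ⊗[W] B01) (Fbar M) r) =
      cL M L (E.e01 (algebraMap (O ⊗[W] B01) (↥L ⊗[W] B01) r)) := rfl

theorem towerF0 :
    letI := algF0 c0 O E
    letI := algF01 c0 O E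
    IsScalarTower (O ⊗[W] B0) (O ⊗[W] B01) (Fbar M) := by
  letI := algF0 c0 O E
  letI := algF01 c0 O E
  refine IsScalarTower.of_algebraMap_eq fun x => ?_
  change cL M L (E.ι0 (algebraMap (O ⊗[W] B0) (↥L ⊗[W] B0) x)) =
    cL M L (E.e01 (algebraMap (O ⊗[W] B01) (↥L ⊗[W] B01)
      (algebraMap (O ⊗[W] B0) (O ⊗[W] B01) x)))
  rw [← E.e01_algebraMap0]
  exact congrArg (fun y => cL M L (E.e01 y)) (RingHom.congr_fun (square_comm W O ↥L B0 B01) x)

theorem towerF1 :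
    letI := algF1 c0 O E
    letI := algF01 c0 O E
    IsScalarTower (O ⊗[W] B1) (O ⊗[W] B01) (Fbar M) := by
  letI := algF1 c0 O E
  letI := algF01 c0 O E
  refine IsScalarTower.of_algebraMap_eq fun x => ?_
  change cL M L (E.ι1 (algebraMap (O ⊗[W] B1) (↥L ⊗[W] B1) x)) =
    cL M L (E.e01 (algebraMap (O ⊗[W] B01) (↥L ⊗[W] B01)
      (algebraMap (O ⊗[W] B1) (O ⊗[W] B01) x)))
  rw [← E.e01_algebraMap1]
  exact congrArg (fun y => cL M L (E.e01 y)) (RingHom.congr_fun (square_comm W O ↥L B1 B01) x)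

/-- The chart maps into `ℚ̄·F_M` are injective when `O ⊗ B0 → L ⊗ B0` is. -/
theorem algF0_injective
    (h : Function.Injective (algebraMap (O ⊗[W] B0) (↥L ⊗[W] B0))) :
    letI := algF0 c0 O E
    Function.Injective (algebraMap (O ⊗[W] B0) (Fbar M)) := by
  letI := algF0 c0 O E
  exact (cL_injective M L).comp (E.ι0_injective.comp h)

/-- **S5 FRAME at the hub** with the canonical algebra structures, `I_j`/`J_j` form. -/
theorem exists_isPData_frames_hub (ht : NonConst M t) (P00 : Subgroup (PicX c0 O))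
    (hinj : ExtInjective00 c0 O ↥L P00) {z : PicX c0 ↥L} (hz : z ∈ J0L c0 O ↥L P00) {p : ℕ}
    (hp : p ≠ 0) (hzp : z ^ p = 1)
    {N : QC2 ↥L (↥L ⊗[W] B0) (↥L ⊗[W] B1) (↥L ⊗[W] B01)} (hN : N.IsLine)
    (hNz : LinePic.mk (c0.baseChange ↥L) N hN = z) (φ : Framing E N) :
    letI := algF0 c0 O E
    letI := algF1 c0 O E
    ∃ (hdeg : LinePair.deg (framePair E hN φ) = 0) (g : FK M L)
      (I0 J0 : Submodule (O ⊗[W] B0) (Fbar M)) (I1 J1 : Submodule (O ⊗[W] B1) (Fbar M)), g ≠ 0 ∧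
      IsPData (K := Qbar) p (LinePair.cls (framePair E hN φ))
        ⟨LinePair.divL (framePair E hN φ), Divisor.mem_degZero.2 hdeg⟩ (cL M L g)⁻¹ ∧
      I0 * J0 = 1 ∧ I1 * J1 = 1 ∧
      I0 ^ p = Submodule.span (O ⊗[W] B0) {(cL M L g)⁻¹} ∧
      I1 ^ p = Submodule.span (O ⊗[W] B1) {(cL M L g)⁻¹} := by
  letI := algF0 c0 O E
  letI := algF1 c0 O E
  letI := algF01 c0 O E
  haveI := towerF0 c0 O E
  haveI := towerF1 c0 O E
  exact HubAsmDiv.exists_isPData_frames_hub c0 O E (fun _ => rfl) (fun _ => rfl) ht P00 hinj hz hp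
    hzp hN hNz φ

/-- **S5 FRAME at the hub** with the canonical algebra structures, `Hol31.Frame` form. -/
theorem exists_isPData_framingInt_hub (ht : NonConst M t) (P00 : Subgroup (PicX c0 O))
    (hinj : ExtInjective00 c0 O ↥L P00) {z : PicX c0 ↥L} (hz : z ∈ J0L c0 O ↥L P00) {p : ℕ}
    (hp : p ≠ 0) (hzp : z ^ p = 1)
    {N : QC2 ↥L (↥L ⊗[W] B0) (↥L ⊗[W] B1) (↥L ⊗[W] B01)} (hN : N.IsLine)
    (hNz : LinePic.mk (c0.baseChange ↥L) N hN = z) (φ : Framing E N) :
    letI := algF0 c0 O E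
    letI := algF1 c0 O E
    letI := algF01 c0 O E
    haveI := towerF0 c0 O E
    haveI := towerF1 c0 O E
    ∃ (Mo : QC2 O (O ⊗[W] B0) (O ⊗[W] B1) (O ⊗[W] B01)) (hMo : Mo.IsLine) (ld : LiftData Mo N)
      (hdeg : LinePair.deg (framePair E hN φ) = 0) (g : FK M L),
      LinePic.mk (c0.baseChange O) Mo hMo ∈ P00 ∧
      (LinePic.mk (c0.baseChange O) Mo hMo) ^ p = 1 ∧
      PicX.map c0 O ↥L (LinePic.mk (c0.baseChange O) Mo hMo) = z ∧ g ≠ 0 ∧
      IsPData (K := Qbar) p (LinePair.cls (framePair E hN φ))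
        ⟨LinePair.divL (framePair E hN φ), Divisor.mem_degZero.2 hdeg⟩ (cL M L g)⁻¹ ∧
      FrameInt.framingInt E (cL M L) (fun _ => rfl) ld φ ≠ 0 ∧
      Frame.frame0 Mo (FrameInt.framingInt E (cL M L) (fun _ => rfl) ld φ) ^ p =
        Submodule.span (O ⊗[W] B0) {cL M L g} ∧
      Frame.frame1 Mo (FrameInt.framingInt E (cL M L) (fun _ => rfl) ld φ) ^ p =
        Submodule.span (O ⊗[W] B1) {cL M L g} := by
  letI := algF0 c0 O E
  letI := algF1 c0 O E
  letI := algF01 c0 O E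
  haveI := towerF0 c0 O E
  haveI := towerF1 c0 O E
  exact HubAsmDiv.exists_isPData_framingInt_hub c0 O E (fun _ => rfl) (fun _ => rfl)
    (fun _ => rfl) ht P00 hinj hz hp hzp hN hNz φ

end Fermat.Agent.T1B.Hol31.HubInst
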