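/-
T1B (S44), brick F8' slice S5 HOL, helper31: DET-INPUTS = **the Hol80 detector inputs at the hub**.

Setting = `Hol31.HubInst` (`c0 : TwoChart W B0 B1 B01` the hub over `W = A ∩ K`, `O ⊇ W` the integers of the
level `L ⊇ K`, `E : ChartIso (c0.baseChange ↥L) t`, canonical algebra structures `algF_j c0 O E` of `ℚ̄·F_M`
over `O ⊗[W] B_j`), plus

* embeddings `β_j : B_j →+* FK M K` for which `E` is STANDARD on pure tensors
  (`h_j : ChartIso90.IsStd M hle β_j E.ι_j`, i.e. `E.ι_j (l ⊗ b) = l · cLL (β_j b)`; for the nodal family of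
  `Bridge48.HubFam.nodalFamily` this is `(hstd L hle).std0/.std1`);
* a detector `(A, e, HD : DeltaInputs A e p)`, `V = gaussVal A e HD.norm`, with
  `hO : ∀ a : O, (a : ℚ̄) ∈ A`, `hB_j : ∀ b : B_j, cL M K (β_j b) ∈ V` (`B_j ⊂ O1 ⊓ O2` + (W3));
* `int_j` : `B_0` integral over `W[t]`, `B_1` integral over `W[s]` (`NodalTwoChartModel.int0/int1`).

Results:
* `algF0_tmul`, `algF1_tmul` : the structure maps on pure tensors, `a ⊗ b ↦ (a : ℚ̄) · cL (β_j b)`;
* `algF0_mem`, `algF1_mem` : the charts `O ⊗[W] B_j` land in `V`;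
* `exists_detector_inputs` : the binders `φ0 hφ0 φ1 hφ1 τ hint0 hint1` of `Hol80.holLog_delta_of_level`;
* `holLog_delta_of_level_std`, `holLog_delta_of_level_std_of_exists` : **`δ_hol` at one level of the hub
  with no detector binder left** (JSpec-F in universal / existence form).
-/
import Mathlib
import Fermat.Agent.T1B.Hol31.HubInst
import Fermat.Agent.T1B.Hol31.DetGen
import Fermat.Agent.T1B.Hol80.DeltaHolLevel
import Fermat.Agent.T1.ChartIso90

set_option autoImplicit false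
set_option linter.unusedSectionVars false
set_option linter.style.haveILetI false

open TensorProduct

namespace Fermat.Agent.T1B.Hol31.DetInputs

open Fermat.Agent.Jac Fermat.Agent.Jac.LineOps39 Fermat.Agent.Jac.JGroup85Pic
open Fermat.Agent.Jac.JSmooth85Alg
open Fermat.Agent.Jac.BaseChange75 Fermat.Agent.T1.RedIface75 Fermat.Agent.T1B.RedN3
open Fermat.Agent.T1.Dict59 Fermat.Agent.T1.Adapt96 Fermat.Agent.T1B.Hol31.DictExt
open Fermat.Agent.T1.ChartIso90
open HahnSeries AlgebraicCurve ModularCurve IntermediateField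
open Fermat.Agent.RED.Interface4 Fermat.Agent.T1B.Hecke3 Fermat.Agent.T1B.Hol13
open Fermat.Agent.T1B.Hol80 Fermat.Agent.T1B.Hol31.HubInst Fermat.Agent.T1B.Hol31.DetGen
open scoped Fermat.Agent.Jac.BaseChange75

set_option synthInstance.maxHeartbeats 400000
set_option maxHeartbeats 1000000

variable {M : ℕ} [NeZero M] {K L : IntermediateField ℚ Qbar} {t : FK M L}
  {W B0 B1 B01 : Type} [CommRing W] [CommRing B0] [CommRing B1] [CommRing B01]
  [Algebra W B0] [Algebra W B1] [Algebra W B01] [Algebra B0 B01] [Algebra B1 B01]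
  [IsScalarTower W B0 B01] [IsScalarTower W B1 B01]
  (c0 : TwoChart W B0 B1 B01)
  (O : Type) [CommRing O] [Algebra W O]
  [Algebra W L] [Algebra O L] [IsScalarTower W O L]
  (E : ChartIso (c0.baseChange ↥L) t)
  {hle : K ≤ L} {β0 : B0 →+* FK M K} {β1 : B1 →+* FK M K}

/-- `cL ∘ cLL = cL`. -/
theorem cL_cLL' (h : K ≤ L) (x : FK M K) : cL M L (cLL M h x) = cL M K x := by
  apply Subtype.ext
  show coeffMap (algebraMap L Qbar)
      (coeffMap (IntermediateField.inclusion h).toRingHom (x : LaurentSeries K))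
    = coeffMap (algebraMap K Qbar) (x : LaurentSeries K)
  rw [coeffMap_coeffMap]
  exact coeffMap_congr (RingHom.ext fun a => rfl) _

/-- `cL` on constants. -/
theorem cL_algebraMap' (a : L) :
    cL M L (algebraMap L (FK M L) a) = algebraMap Qbar (Fbar M) (algebraMap L Qbar a) := by
  apply Subtype.ext
  rw [coe_cL]
  exact Fermat.Agent.RED.DESC.CoeffDescent1.coeffMap_algebraMap_of_ringHom (algebraMap L Qbar) a

/-! ### The structure maps on pure tensors -/

/-- Chart `0` on pure tensors. -/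
theorem algF0_tmul (h0 : IsStd M hle β0 E.ι0) (a : O) (b : B0) :
    (letI := algF0 c0 O E; algebraMap (O ⊗[W] B0) (Fbar M) (a ⊗ₜ[W] b)) =
      algebraMap Qbar (Fbar M) (algebraMap ↥L Qbar (algebraMap O ↥L a)) * cL M K (β0 b) := by
  rw [algF0_apply, algebraMap_left_tmul, isStd_iff.1 h0, map_mul, cL_algebraMap', cL_cLL']

/-- Chart `1` on pure tensors. -/
theorem algF1_tmul (h1 : IsStd M hle β1 E.ι1) (a : O) (b : B1) :
    (letI := algF1 c0 O E; algebraMap (O ⊗[W] B1) (Fbar M) (a ⊗ₜ[W] b)) =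
      algebraMap Qbar (Fbar M) (algebraMap ↥L Qbar (algebraMap O ↥L a)) * cL M K (β1 b) := by
  rw [algF1_apply, algebraMap_left_tmul, isStd_iff.1 h1, map_mul, cL_algebraMap', cL_cLL']

/-- The coordinate: `1 ⊗ t ↦ cL t`. -/
theorem algF0_t :
    (letI := algF0 c0 O E; algebraMap (O ⊗[W] B0) (Fbar M) ((1 : O) ⊗ₜ[W] c0.t)) = cL M L t := by
  rw [algF0_apply, algebraMap_left_tmul, map_one]
  exact congrArg (cL M L) E.map_t

/-- The inverse coordinate: `1 ⊗ s ↦ (cL t)⁻¹`. -/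
theorem algF1_s :
    (letI := algF1 c0 O E; algebraMap (O ⊗[W] B1) (Fbar M) ((1 : O) ⊗ₜ[W] c0.s)) =
      (cL M L t)⁻¹ := by
  rw [algF1_apply, algebraMap_left_tmul, map_one, ← map_inv₀]
  exact congrArg (cL M L) E.map_s

/-! ### The charts land in the Gauss valuation ring -/

section Det

variable {A : ValuationSubring Qbar} {e : Fbar M →+* LaurentSeries Qbar} {p : ℕ}
  (HD : DeltaInputs A e p)

/-- Chart `0` lands in the Gauss valuation ring of the detector. -/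
theorem algF0_mem (h0 : IsStd M hle β0 E.ι0)
    (hO : ∀ a : O, algebraMap ↥L Qbar (algebraMap O ↥L a) ∈ A)
    (hB0 : ∀ b : B0, cL M K (β0 b) ∈ gaussVal A e HD.norm) (r : O ⊗[W] B0) :
    (letI := algF0 c0 O E; algebraMap (O ⊗[W] B0) (Fbar M) r) ∈ gaussVal A e HD.norm := by
  letI := algF0 c0 O E
  refine algebraMap_mem_of_tmul (gaussVal A e HD.norm).toSubring (fun a b => ?_) r
  rw [algF0_tmul c0 O E h0]
  exact (gaussVal A e HD.norm).mul_mem _ _
    (const_mem_gaussVal HD.norm HD.e_const ⟨_, hO a⟩) (hB0 b)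

/-- Chart `1` lands in the Gauss valuation ring of the detector. -/
theorem algF1_mem (h1 : IsStd M hle β1 E.ι1)
    (hO : ∀ a : O, algebraMap ↥L Qbar (algebraMap O ↥L a) ∈ A)
    (hB1 : ∀ b : B1, cL M K (β1 b) ∈ gaussVal A e HD.norm) (r : O ⊗[W] B1) :
    (letI := algF1 c0 O E; algebraMap (O ⊗[W] B1) (Fbar M) r) ∈ gaussVal A e HD.norm := by
  letI := algF1 c0 O E
  refine algebraMap_mem_of_tmul (gaussVal A e HD.norm).toSubring (fun a b => ?_) r
  rw [algF1_tmul c0 O E h1]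
  exact (gaussVal A e HD.norm).mul_mem _ _
    (const_mem_gaussVal HD.norm HD.e_const ⟨_, hO a⟩) (hB1 b)

/-- **The detector inputs at the hub**: the binders `φ0 hφ0 φ1 hφ1 τ hint0 hint1` of
`Hol80.holLog_delta_of_level` for the canonical algebra structures `algF_j c0 O E`. -/
theorem exists_detector_inputs (ht : NonConst M t)
    (h0 : IsStd M hle β0 E.ι0) (h1 : IsStd M hle β1 E.ι1)
    (hO : ∀ a : O, algebraMap ↥L Qbar (algebraMap O ↥L a) ∈ A)
    (hB0 : ∀ b : B0, cL M K (β0 b) ∈ gaussVal A e HD.norm)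
    (hB1 : ∀ b : B1, cL M K (β1 b) ∈ gaussVal A e HD.norm)
    (int0 : ∀ b : B0, IsIntegral (Algebra.adjoin W {c0.t}) b)
    (int1 : ∀ b : B1, IsIntegral (Algebra.adjoin W {c0.s}) b)
    (N' : ℕ)
    (hrange : ∀ y : ↥(gaussVal A e HD.norm),
      gaussResV A e HD.norm y ∈ modularFunctionFieldFullC (Kap A) N') :
    letI := algF0 c0 O E
    letI := algF1 c0 O E
    ∃ (φ0 : (O ⊗[W] B0) →+* ↥(gaussVal A e HD.norm))
      (_ : ∀ r, algebraMap (O ⊗[W] B0) (Fbar M) r = (φ0 r : Fbar M))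
      (φ1 : (O ⊗[W] B1) →+* ↥(gaussVal A e HD.norm))
      (_ : ∀ r, algebraMap (O ⊗[W] B1) (Fbar M) r = (φ1 r : Fbar M))
      (τ : ↥(modularFunctionFieldFullC (Kap A) N')),
      (∀ r, IsIntegral (Algebra.adjoin (Kap A) {τ}) (resK HD.norm N' hrange (φ0 r))) ∧
      (∀ r, IsIntegral (Algebra.adjoin (Kap A) {τ⁻¹}) (resK HD.norm N' hrange (φ1 r))) := by
  letI := algF0 c0 O E
  letI := algF1 c0 O E
  have hm0 := algF0_mem c0 O E HD h0 hO hB0
  have hm1 := algF1_mem c0 O E HD h1 hO hB1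
  have hc0 : ∀ a : O, ∃ c : ↥A,
      algebraMap (O ⊗[W] B0) (Fbar M) (a ⊗ₜ[W] (1 : B0)) = algebraMap Qbar (Fbar M) (c : Qbar) :=
    fun a => ⟨⟨_, hO a⟩, by rw [algF0_tmul c0 O E h0, map_one, map_one, mul_one]⟩
  have hc1 : ∀ a : O, ∃ c : ↥A,
      algebraMap (O ⊗[W] B1) (Fbar M) (a ⊗ₜ[W] (1 : B1)) = algebraMap Qbar (Fbar M) (c : Qbar) :=
    fun a => ⟨⟨_, hO a⟩, by rw [algF1_tmul c0 O E h1, map_one, map_one, mul_one]⟩
  have hi0 := isIntegral_resK_detHom HD.norm HD.e_const hm0 N' hrange hc0 c0.t int0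
  have hi1 := isIntegral_resK_detHom HD.norm HD.e_const hm1 N' hrange hc1 c0.s int1
  -- the residues of `1 ⊗ t` and `1 ⊗ s` are inverse to each other
  have ht0 : cL M L t ≠ 0 := by
    intro h
    have : t = 0 := cL_injective M L (by rw [h, map_zero])
    exact ht (this ▸ isAlgebraic_zero)
  have hmul : detHom HD.norm hm0 ((1 : O) ⊗ₜ[W] c0.t) * detHom HD.norm hm1 ((1 : O) ⊗ₜ[W] c0.s) =
      1 := by
    apply Subtype.ext
    show ((detHom HD.norm hm0 ((1 : O) ⊗ₜ[W] c0.t) : ↥(gaussVal A e HD.norm)) : Fbar M) *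
      ((detHom HD.norm hm1 ((1 : O) ⊗ₜ[W] c0.s) : ↥(gaussVal A e HD.norm)) : Fbar M) = 1
    rw [← coe_detHom, ← coe_detHom, algF0_t, algF1_s, mul_inv_cancel₀ ht0]
  have hτ : resK HD.norm N' hrange (detHom HD.norm hm1 ((1 : O) ⊗ₜ[W] c0.s)) =
      (resK HD.norm N' hrange (detHom HD.norm hm0 ((1 : O) ⊗ₜ[W] c0.t)))⁻¹ := by
    have h2 := congrArg (resK HD.norm N' hrange) hmul
    rw [map_mul, map_one] at h2
    exact eq_inv_of_mul_eq_one_right h2
  refine ⟨detHom HD.norm hm0, coe_detHom HD.norm hm0, detHom HD.norm hm1, coe_detHom HD.norm hm1,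
    resK HD.norm N' hrange (detHom HD.norm hm0 ((1 : O) ⊗ₜ[W] c0.t)), hi0, fun r => ?_⟩
  rw [← hτ]
  exact hi1 r

/-! ### `δ_hol` at one level of the hub, no detector binder left -/

/-- **`δ_hol` at one level of the hub**, JSpec-F in existence form; the detector inputs are discharged
by standardness of `E`, `B_j ⊂ V` and integrality of the hub charts. -/
theorem holLog_delta_of_level_std_of_exists
    (ht : NonConst M t) (P00 : Subgroup (PicX c0 O)) (hinj : ExtInjective00 c0 O ↥L P00)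
    {z : PicX c0 ↥L} (hz : z ∈ J0L c0 O ↥L P00) (hp : p ≠ 0) (hzp : z ^ p = 1)
    (x : ↥(Pic0.torsion Qbar (Fbar M) p))
    (hJ : ∃ (N : QC2 ↥L (↥L ⊗[W] B0) (↥L ⊗[W] B1) (↥L ⊗[W] B01)) (hN : N.IsLine)
      (φ : Framing E N), LinePic.mk (c0.baseChange ↥L) N hN = z ∧
        LinePair.cls (framePair E hN φ) = (x : Pic0 Qbar (Fbar M)))
    (h0 : IsStd M hle β0 E.ι0) (h1 : IsStd M hle β1 E.ι1)
    (hO : ∀ a : O, algebraMap ↥L Qbar (algebraMap O ↥L a) ∈ A)
    (hB0 : ∀ b : B0, cL M K (β0 b) ∈ gaussVal A e HD.norm)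
    (hB1 : ∀ b : B1, cL M K (β1 b) ∈ gaussVal A e HD.norm)
    (int0 : ∀ b : B0, IsIntegral (Algebra.adjoin W {c0.t}) b)
    (int1 : ∀ b : B1, IsIntegral (Algebra.adjoin W {c0.s}) b)
    (N' : ℕ)
    (hrange : ∀ y : ↥(gaussVal A e HD.norm),
      gaussResV A e HD.norm y ∈ modularFunctionFieldFullC (Kap A) N') :
    HolLog (Kap A) N' p (delta A e p HD x) := by
  letI := algF0 c0 O E
  letI := algF1 c0 O E
  letI := algF01 c0 O E
  haveI := towerF0 c0 O E
  haveI := towerF1 c0 O E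
  obtain ⟨φ0, hφ0, φ1, hφ1, τ, hint0, hint1⟩ :=
    exists_detector_inputs c0 O E HD ht h0 h1 hO hB0 hB1 int0 int1 N' hrange
  exact holLog_delta_of_level_of_exists c0 O E (fun _ => rfl) (fun _ => rfl) ht P00 hinj hz hp hzp
    x hJ HD N' hrange φ0 hφ0 φ1 hφ1 τ hint0 hint1

/-- **`δ_hol` at one level of the hub**, JSpec-F in universal form. -/
theorem holLog_delta_of_level_std
    (ht : NonConst M t) (P00 : Subgroup (PicX c0 O)) (hinj : ExtInjective00 c0 O ↥L P00)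
    {z : PicX c0 ↥L} (hz : z ∈ J0L c0 O ↥L P00) (hp : p ≠ 0) (hzp : z ^ p = 1)
    (x : ↥(Pic0.torsion Qbar (Fbar M) p))
    (hJ : ∀ (N : QC2 ↥L (↥L ⊗[W] B0) (↥L ⊗[W] B1) (↥L ⊗[W] B01)) (hN : N.IsLine)
      (φ : Framing E N), LinePic.mk (c0.baseChange ↥L) N hN = z →
        LinePair.cls (framePair E hN φ) = (x : Pic0 Qbar (Fbar M)))
    (h0 : IsStd M hle β0 E.ι0) (h1 : IsStd M hle β1 E.ι1)
    (hO : ∀ a : O, algebraMap ↥L Qbar (algebraMap O ↥L a) ∈ A)
    (hB0 : ∀ b : B0, cL M K (β0 b) ∈ gaussVal A e HD.norm)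
    (hB1 : ∀ b : B1, cL M K (β1 b) ∈ gaussVal A e HD.norm)
    (int0 : ∀ b : B0, IsIntegral (Algebra.adjoin W {c0.t}) b)
    (int1 : ∀ b : B1, IsIntegral (Algebra.adjoin W {c0.s}) b)
    (N' : ℕ)
    (hrange : ∀ y : ↥(gaussVal A e HD.norm),
      gaussResV A e HD.norm y ∈ modularFunctionFieldFullC (Kap A) N') :
    HolLog (Kap A) N' p (delta A e p HD x) := by
  obtain ⟨N, hN, hzN⟩ := LinePic.exists_rep z
  obtain ⟨φ⟩ := nonempty_framing E hN
  exact holLog_delta_of_level_std_of_exists c0 O E HD ht P00 hinj hz hp hzp x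
    ⟨N, hN, φ, hzN.symm, hJ N hN φ hzN.symm⟩ h0 h1 hO hB0 hB1 int0 int1 N' hrange

end Det

end Fermat.Agent.T1B.Hol31.DetInputs
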