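/-
T1B (S44), brick F8' slice S5 HOL, helper31: DET-HUB = **`δ_hol` at one level of the CONCRETE nodal hub**
`H : Bridge48.HubRec.NodalHubAt A p M' n e K` (`c0 := H.c0`, `β_j := H.β_j` the inclusions `↥B_j ⊂ FK (M' p) K`,
`W = A ∩ K`), for BOTH sides `i : Fin 2` (`Hecke3.expSide`, `Hecke3.deltaInputsSide`).

The hypotheses `hB0 hB1 int0 int1` of `Hol31.DetInputs.holLog_delta_of_level_std` are discharged:
* `int_j` from `NodalTwoChartModel.int0/int1` (`nodalChart_int0/1`, generic);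
* `hB_j` from `B_j ⊂ O1 ⊓ O2` (`NodalTwoChartModel.le_O*_j`) and (W3) at the finite level
  (`GaussW77.comap_gaussVal_iota_eq_O1`, `comap_gaussVal_Wp_eq_O2`): `cL_mem_gaussVal_side`.

* `holLog_delta_of_level_hub` / `holLog_deltaSide_of_level_hub` : what is left is `E` with `hstd`, `hO`
  (`O ⊂ A`), `hinj`, JSpec-F `hJ`, and `hrange` (RESFIELD-ID).
-/
import Mathlib
import Fermat.Agent.T1B.Hol31.DetInputs
import Fermat.Agent.T1B.Bridge48.HubFam
import Fermat.Agent.T1B.GaussW77.Wp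
import Fermat.Agent.T1B.Hecke3.Side

set_option autoImplicit false
set_option linter.unusedSectionVars false
set_option linter.style.haveILetI false

open TensorProduct Polynomial

namespace Fermat.Agent.T1B.Hol31.DetHub

/-! ### Generic: integrality of the charts of the nodal hub -/

section Generic

/-- Integrality over `R[s] ⊂ F` of an element of a subalgebra `S ∋ s`, restated inside `S`
(twin of `Unif77.isIntegral_adjoin_subalgebra`, light imports). -/
theorem isIntegral_adjoin_subalgebra' {R F : Type*} [CommRing R] [CommRing F] [Algebra R F]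
    (S : Subalgebra R F) (s : F) (hs : s ∈ S) (a : S)
    (h : IsIntegral (Algebra.adjoin R {s}) (a : F)) :
    IsIntegral (Algebra.adjoin R {(⟨s, hs⟩ : S)}) a := by
  obtain ⟨P, hPm, hP⟩ := h
  let gF : R[X] →ₐ[R] Algebra.adjoin R {s} :=
    (aeval s).codRestrict _ (fun p => by
      rw [Algebra.adjoin_singleton_eq_range_aeval]; exact ⟨p, rfl⟩)
  have hgF : Function.Surjective gF := by
    rintro ⟨x, hx⟩
    rw [Algebra.adjoin_singleton_eq_range_aeval] at hx
    obtain ⟨p, rfl⟩ := hx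
    exact ⟨p, rfl⟩
  have hl : P ∈ lifts gF.toRingHom := by
    rw [lifts_iff_coeff_lifts]
    intro n
    exact hgF _
  obtain ⟨Q, hQ, -, hQm⟩ := lifts_and_natDegree_eq_and_monic hl hPm
  let gS : R[X] →ₐ[R] Algebra.adjoin R {(⟨s, hs⟩ : S)} :=
    (aeval (⟨s, hs⟩ : S)).codRestrict _ (fun p => by
      rw [Algebra.adjoin_singleton_eq_range_aeval]; exact ⟨p, rfl⟩)
  refine ⟨Q.map gS.toRingHom, hQm.map _, ?_⟩
  apply Subtype.ext
  rw [eval₂_map]
  have h1 := hom_eval₂ Q ((algebraMap (↥(Algebra.adjoin R {(⟨s, hs⟩ : S)})) ↥S).comp gS.toRingHom)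
    (S.val : ↥S →+* F) a
  refine h1.trans ?_
  show _ = (0 : F)
  rw [← hP, ← hQ, eval₂_map]
  congr 1
  apply Polynomial.ringHom_ext
  · intro r
    show ((aeval (⟨s, hs⟩ : S) (C r) : S) : F) = ((gF (C r) : Algebra.adjoin R {s}) : F)
    show _ = aeval s (C r)
    rw [aeval_C, aeval_C]
    rfl
  · show ((aeval (⟨s, hs⟩ : S) X : S) : F) = aeval s X
    rw [aeval_X, aeval_X]

open Fermat.Agent.ES.N34.NodalCore13 Fermat.Agent.T1B.NodalFacts23 Fermat.Agent.T1.Coh60
open Fermat.Agent.Jac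

universe u

variable {R F : Type u} [CommRing R] [Field F] [Algebra R F] {π : R} {t : F}
  {B0 B1 : Subalgebra R F} {O1 O2 : ValuationSubring F}

attribute [local instance] Fermat.Agent.T1.Coh60.algebra0 Fermat.Agent.T1.Coh60.algebra1
  Fermat.Agent.T1.Coh60.isScalarTower0 Fermat.Agent.T1.Coh60.isScalarTower1

/-- Chart `0` of the nodal hub is integral over `R[t]`. -/
theorem nodalChart_int0 (Mo : NodalTwoChartModel R F π t B0 B1 O1 O2) (b : ↥B0) :
    IsIntegral (Algebra.adjoin R {(nodalChart Mo).t}) b :=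
  isIntegral_adjoin_subalgebra' B0 t Mo.t_mem b (Mo.int0 b b.2)

/-- Chart `1` of the nodal hub is integral over `R[t⁻¹]`. -/
theorem nodalChart_int1 (Mo : NodalTwoChartModel R F π t B0 B1 O1 O2) (b : ↥B1) :
    IsIntegral (Algebra.adjoin R {(nodalChart Mo).s}) b :=
  isIntegral_adjoin_subalgebra' B1 t⁻¹ Mo.tinv_mem b (Mo.int1 b b.2)

end Generic

/-! ### The concrete hub -/

section Concrete

open HahnSeries ModularCurve IntermediateField AlgebraicCurve
open Fermat.Agent Fermat.Agent.Jac Fermat.Agent.Jac.LineOps39 Fermat.Agent.Jac.JGroup85Pic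
open Fermat.Agent.Jac.JSmooth85Alg Fermat.Agent.T1.HubInst98
open Fermat.Agent.Jac.BaseChange75 Fermat.Agent.T1.RedIface75 Fermat.Agent.T1B.RedN3
open Fermat.Agent.RED.Interface4 Fermat.Agent.RED.PUR.GaussGen8
  Fermat.Agent.RED.BASE.EtaQuot12 Fermat.Agent.ES.N34.ModelDefs9 Fermat.Agent.ES.N34.NumData13
  Fermat.Agent.ES.N34.NodalCore13 Fermat.Agent.T1B.NodalFacts23
  Fermat.Agent.T1.Adapt96 Fermat.Agent.T1.Dict59 Fermat.Agent.T1.Coh60
  Fermat.Agent.T1.ChartIso90 Fermat.Agent.T1B.Bridge48.HubRec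
open Fermat.Agent.RED.DESC.PlaceExtend27
open Fermat.Agent.T1B.Hecke3 Fermat.Agent.T1B.Hol13 Fermat.Agent.T1B.Hol80
open Fermat.Agent.T1B.GaussW77 Fermat.Agent.T1B.Hol31.DictExt
open Fermat.Agent.T1B.Hol31.DetInputs
open scoped Fermat.Agent.Jac.BaseChange75

set_option synthInstance.maxHeartbeats 400000
set_option maxHeartbeats 1000000

variable {A : ValuationSubring Qbar} {p M' n e : ℕ} [NeZero p] [NeZero M'] [NeZero n]
  {K L : IntermediateField ℚ Qbar}

/-- `Dict59.cL` and `PlaceExtend27.baseChangeHom` are the same map. -/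
theorem cL_eq_baseChangeHom (N : ℕ) (K : IntermediateField ℚ Qbar) (x : FK N K) :
    cL N K x = baseChangeHom N K x := Subtype.ext rfl

/-- **`O1 ⊓ O2` at the level `K` lies in the Gauss valuation rings of both sides.** -/
theorem cL_mem_gaussVal_side (H : NodalHubAt A p M' n e K) [FiniteDimensional ℚ K]
    (hp : p.Prime) (hpM : ¬ p ∣ M') [CharP (Kap A) p] (hA : A.LiesOverPrime p)
    (hjt : jqModC (↥K) ∈ IntermediateField.adjoin (↥K) {tq (↥K) n e})
    (i : Fin 2) (x : FK (M' * p) K) (hx1 : x ∈ O1 M' p H.hπ H.hE) (hx2 : x ∈ O2 M' p H.hπ H.hE) :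
    cL (M' * p) K x ∈
      gaussVal A (expSide M' p hp hpM i) (deltaInputsSide A M' p hp hpM i).norm := by
  rw [cL_eq_baseChangeHom]
  induction i using Fin.cases with
  | zero =>
    have h := comap_gaussVal_iota_eq_O1 (A := A) M' p K H.hπ H.hE
      (deltaInputsSide A M' p hp hpM 0).norm
    rw [← h] at hx1
    exact hx1
  | succ i =>
    have hi : i = 0 := Subsingleton.elim _ _
    subst hi
    have h := comap_gaussVal_Wp_eq_O2 (A := A) M' p hp hpM hA K H.ht hjt H.hπ H.hE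
      (deltaInputsSide A M' p hp hpM 1).norm
    rw [← h] at hx2
    exact hx2

attribute [local instance] Fermat.Agent.T1.Coh60.algebra0 Fermat.Agent.T1.Coh60.algebra1
  Fermat.Agent.T1.Coh60.isScalarTower0 Fermat.Agent.T1.Coh60.isScalarTower1

/-- **`δ_hol` at one level of the concrete nodal hub**, generic `delta` of side `i`. -/
theorem holLog_delta_of_level_hub (H : NodalHubAt A p M' n e K) [FiniteDimensional ℚ K]
    (hp : p.Prime) (hpM : ¬ p ∣ M') [CharP (Kap A) p] (hA : A.LiesOverPrime p)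
    (hjt : jqModC (↥K) ∈ IntermediateField.adjoin (↥K) {tq (↥K) n e})
    (hle : K ≤ L) (O : Type) [CommRing O] [Algebra ↥(AK A K) O] [Algebra ↥(AK A K) ↥L]
    [Algebra O ↥L] [IsScalarTower ↥(AK A K) O ↥L]
    {t : FK (M' * p) L} (E : ChartIso (H.c0.baseChange ↥L) t)
    (hstd : IsStdIso (M' * p) hle H.β0 H.β1 H.β01 E)
    (hO : ∀ a : O, algebraMap ↥L Qbar (algebraMap O ↥L a) ∈ A)
    (ht : NonConst (M' * p) t) (P00 : Subgroup (PicX H.c0 O))
    (hinj : ExtInjective00 H.c0 O ↥L P00)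
    {z : PicX H.c0 ↥L} (hz : z ∈ J0L H.c0 O ↥L P00) (hzp : z ^ p = 1)
    (x : ↥(Pic0.torsion Qbar (Fbar (M' * p)) p))
    (hJ : ∀ (N : QC2 ↥L (↥L ⊗[↥(AK A K)] ↥(B0 A p H.ht)) (↥L ⊗[↥(AK A K)] ↥(B1 A p H.ht))
        (↥L ⊗[↥(AK A K)] ↥(B0 A p H.ht ⊔ B1 A p H.ht))) (hN : N.IsLine)
      (φ : Framing E N), LinePic.mk (H.c0.baseChange ↥L) N hN = z →
        LinePair.cls (framePair E hN φ) = (x : Pic0 Qbar (Fbar (M' * p))))
    (i : Fin 2) (N' : ℕ)
    (hrange : ∀ y : ↥(gaussVal A (expSide M' p hp hpM i) (deltaInputsSide A M' p hp hpM i).norm),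
      gaussResV A (expSide M' p hp hpM i) (deltaInputsSide A M' p hp hpM i).norm y ∈
        modularFunctionFieldFullC (Kap A) N') :
    HolLog (Kap A) N' p
      (delta A (expSide M' p hp hpM i) p (deltaInputsSide A M' p hp hpM i) x) := by
  have hM := H.num.model
  refine holLog_delta_of_level_std H.c0 O E (deltaInputsSide A M' p hp hpM i) ht P00 hinj hz
    hp.ne_zero hzp x hJ (hle := hle) (β0 := H.β0) (β1 := H.β1) hstd.std0 hstd.std1 hO
    (fun b => ?_) (fun b => ?_) (nodalChart_int0 hM) (nodalChart_int1 hM) N' hrange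
  · exact cL_mem_gaussVal_side H hp hpM hA hjt i _ (hM.le_O1_0 _ b.2) (hM.le_O2_0 _ b.2)
  · exact cL_mem_gaussVal_side H hp hpM hA hjt i _ (hM.le_O1_1 _ b.2) (hM.le_O2_1 _ b.2)

/-- **`δ_hol` at one level of the concrete nodal hub**, for helper3's `deltaSide`. -/
theorem holLog_deltaSide_of_level_hub (H : NodalHubAt A p M' n e K) [FiniteDimensional ℚ K]
    (hp : p.Prime) (hpM : ¬ p ∣ M') [CharP (Kap A) p] (hA : A.LiesOverPrime p)
    (hjt : jqModC (↥K) ∈ IntermediateField.adjoin (↥K) {tq (↥K) n e})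
    (hle : K ≤ L) (O : Type) [CommRing O] [Algebra ↥(AK A K) O] [Algebra ↥(AK A K) ↥L]
    [Algebra O ↥L] [IsScalarTower ↥(AK A K) O ↥L]
    {t : FK (M' * p) L} (E : ChartIso (H.c0.baseChange ↥L) t)
    (hstd : IsStdIso (M' * p) hle H.β0 H.β1 H.β01 E)
    (hO : ∀ a : O, algebraMap ↥L Qbar (algebraMap O ↥L a) ∈ A)
    (ht : NonConst (M' * p) t) (P00 : Subgroup (PicX H.c0 O))
    (hinj : ExtInjective00 H.c0 O ↥L P00)
    {z : PicX H.c0 ↥L} (hz : z ∈ J0L H.c0 O ↥L P00) (hzp : z ^ p = 1)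
    (x : ↥(Pic0.torsion Qbar (Fbar (M' * p)) p))
    (hJ : ∀ (N : QC2 ↥L (↥L ⊗[↥(AK A K)] ↥(B0 A p H.ht)) (↥L ⊗[↥(AK A K)] ↥(B1 A p H.ht))
        (↥L ⊗[↥(AK A K)] ↥(B0 A p H.ht ⊔ B1 A p H.ht))) (hN : N.IsLine)
      (φ : Framing E N), LinePic.mk (H.c0.baseChange ↥L) N hN = z →
        LinePair.cls (framePair E hN φ) = (x : Pic0 Qbar (Fbar (M' * p))))
    (i : Fin 2) (N' : ℕ)
    (hrange : ∀ y : ↥(gaussVal A (expSide M' p hp hpM i) (deltaInputsSide A M' p hp hpM i).norm),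
      gaussResV A (expSide M' p hp hpM i) (deltaInputsSide A M' p hp hpM i).norm y ∈
        modularFunctionFieldFullC (Kap A) N') :
    HolLog (Kap A) N' p (deltaSide A M' p hp hpM i x) := by
  rw [deltaSide_eq_delta]
  exact holLog_delta_of_level_hub H hp hpM hA hjt hle O E hstd hO ht P00 hinj hz hzp x hJ i N'
    hrange

end Concrete

end Fermat.Agent.T1B.Hol31.DetHub
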