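/-
T1B (S44), brick F8' slice S5 HOL (brick 594), helper31: FRAME-GEN = frames whose `p`-th power is
principal only UP TO A VERTICAL FACTOR (generic `p`-torsion).

Same setting as `FrameInt.lean`.  Hypotheses on the integral frames `I_j = frame_j Mo (framingInt ..)`
(`Hol80` shape): `π_j ^ n_j * f ∈ I_j ^ p` and `π_j ^ n_j * I_j ^ p ⊆ R_j ∙ f`, where `π_j ∈ R_j` becomes a
unit on the generic chart `S_j`.  Then `f = ψ g` for ONE `g ∈ F₁` and the chart modules of the generic fibre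
satisfy `(framePair E hN φ).I_j ^ p = C_j ∙ g`.

* `exists_span_pow_eq_of_vertical` : the one-chart algebra lemma;
* **`exists_pow_eq_span_of_vertical`** : the two-chart statement.
-/
import Mathlib
import Fermat.Agent.T1B.Hol31.FrameInt

set_option autoImplicit false
set_option linter.unusedSectionVars false
set_option linter.style.haveILetI false

universe u v w

open TensorProduct

namespace Fermat.Agent.T1B.Hol31.FrameGen

open Fermat.Agent.Jac Fermat.Agent.Jac.LineOps39 Fermat.Agent.Jac.JGroup85Pic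
open Fermat.Agent.Jac.JSmooth85Alg
open Fermat.Agent.T1.Dict59 Fermat.Agent.T1.Adapt96 Fermat.Agent.T1B.Hol31.DictExt
open Fermat.Agent.T1B.Hol31.FrameBC Fermat.Agent.T1B.Hol31.FrameInt

/-! ### One chart -/

section OneChart

open scoped Pointwise

variable {R C : Type*} [CommRing R] [CommRing C] [Algebra R C]
  {F₁ : Type*} [Field F₁] [Algebra R F₁] [Algebra C F₁] [IsScalarTower R C F₁]
  {F₂ : Type*} [Field F₂] [Algebra R F₂]

/-- If `π ^ n * g ∈ I ^ p` and `π ^ n * I ^ p ⊆ R ∙ g` with `π` a unit of the bigger ring `C`, then the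
`C`-span of `I` has `p`-th power `C ∙ g`. -/
theorem span_pow_eq_of_vertical (I : Submodule R F₁) {p : ℕ} {g : F₁} (π : R)
    (hπ : IsUnit (algebraMap R C π)) (n : ℕ)
    (h1 : algebraMap R F₁ π ^ n * g ∈ I ^ p)
    (h2 : ∀ z ∈ I ^ p, ∃ r : R, algebraMap R F₁ π ^ n * z = r • g) :
    Submodule.span C (I : Set F₁) ^ p = Submodule.span C {g} := by
  obtain ⟨u, hu⟩ := hπ
  have hπF : algebraMap R F₁ π = algebraMap C F₁ (u : C) := by
    rw [hu, ← IsScalarTower.algebraMap_apply]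
  have hu' : algebraMap C F₁ ((u⁻¹ : Cˣ) : C) * algebraMap R F₁ π = 1 := by
    rw [hπF, ← map_mul, Units.inv_mul, map_one]
  have hcancel : ∀ z : F₁, ((u⁻¹ : Cˣ) : C) ^ n • (algebraMap R F₁ π ^ n * z) = z := by
    intro z
    rw [Algebra.smul_def, map_pow, ← mul_assoc, ← mul_pow, hu', one_pow, one_mul]
  rw [Submodule.span_pow]
  have hI : I ^ p = Submodule.span R ((I : Set F₁) ^ p) := by
    conv_lhs => rw [← Submodule.span_eq I]
    rw [Submodule.span_pow]
  apply le_antisymm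
  · rw [Submodule.span_le]
    intro z hz
    have hz' : z ∈ I ^ p := by
      rw [hI]
      exact Submodule.subset_span hz
    obtain ⟨r, hr⟩ := h2 z hz'
    rw [SetLike.mem_coe, Submodule.mem_span_singleton]
    refine ⟨((u⁻¹ : Cˣ) : C) ^ n * algebraMap R C r, ?_⟩
    rw [mul_smul, algebraMap_smul, ← hr, hcancel]
  · rw [Submodule.span_le, Set.singleton_subset_iff, SetLike.mem_coe]
    have h3 : algebraMap R F₁ π ^ n * g ∈ Submodule.span C ((I : Set F₁) ^ p) := by
      rw [hI] at h1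
      exact Submodule.span_subset_span R C _ h1
    have h4 := Submodule.smul_mem _ (((u⁻¹ : Cˣ) : C) ^ n) h3
    rwa [hcancel] at h4

/-- The same with the hypotheses stated after pushing the frame to a second field `F₂`. -/
theorem exists_span_pow_eq_of_vertical (ψ : F₁ →ₐ[R] F₂) (I : Submodule R F₁) {p : ℕ} {f : F₂}
    (π : R) (hπ : IsUnit (algebraMap R C π)) (n : ℕ)
    (h1 : algebraMap R F₂ π ^ n * f ∈ I.map ψ.toLinearMap ^ p)
    (h2 : ∀ z ∈ I.map ψ.toLinearMap ^ p, ∃ r : R, algebraMap R F₂ π ^ n * z = r • f) :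
    ∃ g : F₁, ψ g = f ∧ Submodule.span C (I : Set F₁) ^ p = Submodule.span C {g} := by
  have hψinj : Function.Injective ψ := ψ.toRingHom.injective
  obtain ⟨u, hu⟩ := hπ
  have hπ0 : algebraMap R F₁ π ≠ 0 := by
    have h3 : algebraMap R F₁ π = algebraMap C F₁ (u : C) := by
      rw [hu, ← IsScalarTower.algebraMap_apply]
    rw [h3]
    exact (u.isUnit.map (algebraMap C F₁)).ne_zero
  have hπn : algebraMap R F₁ π ^ n ≠ 0 := pow_ne_zero n hπ0
  rw [← Submodule.map_pow] at h1 h2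
  obtain ⟨y, hy, hyf⟩ := h1
  have hyf' : ψ y = algebraMap R F₂ π ^ n * f := hyf
  refine ⟨(algebraMap R F₁ π ^ n)⁻¹ * y, ?_, ?_⟩
  · rw [map_mul, map_inv₀, map_pow, ψ.commutes, hyf']
    have : algebraMap R F₂ π ^ n ≠ 0 := by
      rw [← ψ.commutes, ← map_pow]
      exact (map_ne_zero ψ.toRingHom).2 hπn
    rw [inv_mul_cancel_left₀ this]
  · refine span_pow_eq_of_vertical I π ⟨u, hu⟩ n ?_ ?_
    · rw [mul_inv_cancel_left₀ hπn]
      exact hy
    · intro z hz
      obtain ⟨r, hr⟩ := h2 (ψ z) ⟨z, hz, rfl⟩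
      refine ⟨r, hψinj ?_⟩
      rw [map_mul, map_pow, ψ.commutes, hr, map_smul, map_mul, map_inv₀, map_pow, ψ.commutes,
        hyf']
      have : algebraMap R F₂ π ^ n ≠ 0 := by
        rw [← ψ.commutes, ← map_pow]
        exact (map_ne_zero ψ.toRingHom).2 hπn
      rw [inv_mul_cancel_left₀ this]

end OneChart

/-! ### Two charts -/

variable {O R0 R1 R01 : Type u} [CommRing O] [CommRing R0] [CommRing R1] [CommRing R01]
  [Algebra O R0] [Algebra O R1] [Algebra O R01] [Algebra R0 R01] [Algebra R1 R01]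
  [IsScalarTower O R0 R01] [IsScalarTower O R1 R01]
  {K S0 S1 S01 : Type u} [Field K] [CommRing S0] [CommRing S1] [CommRing S01]
  [Algebra K S0] [Algebra K S1] [Algebra K S01] [Algebra S0 S01] [Algebra S1 S01]
  [IsScalarTower K S0 S01] [IsScalarTower K S1 S01]
  [Algebra R0 S0] [Algebra R1 S1] [Algebra R01 S01]
  {F₁ : Type v} [Field F₁] [Algebra K F₁]
  {c' : TwoChart K S0 S1 S01} {t : F₁} (E : ChartIso c' t)
  {F₂ : Type w} [Field F₂] (ψ : F₁ →+* F₂)
  [Algebra R0 F₂] [Algebra R1 F₂] [Algebra R01 F₂]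
  [IsScalarTower R0 R01 F₂] [IsScalarTower R1 R01 F₂]
  {Mo : QC2 O R0 R1 R01} {N : QC2 K S0 S1 S01}

/-- **FRAME-GEN.**  If the `p`-th powers of the integral frames are `f ·` (a vertical module) on both
charts, then `f = ψ g` for ONE `g ∈ F₁` generating the `p`-th powers of both chart modules of the line
pair of the generic fibre. -/
theorem exists_pow_eq_span_of_vertical
    (hc0 : (algebraMap S0 S01).comp (algebraMap R0 S0) =
      (algebraMap R01 S01).comp (algebraMap R0 R01))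
    (hc1 : (algebraMap S1 S01).comp (algebraMap R1 S1) =
      (algebraMap R01 S01).comp (algebraMap R1 R01))
    (hρ0 : ∀ r : R0, algebraMap R0 F₂ r = ψ (E.ι0 (algebraMap R0 S0 r)))
    (hρ1 : ∀ r : R1, algebraMap R1 F₂ r = ψ (E.ι1 (algebraMap R1 S1 r)))
    (hρ01 : ∀ r : R01, algebraMap R01 F₂ r = ψ (E.e01 (algebraMap R01 S01 r)))
    (hN : N.IsLine) (ld : LiftData Mo N) (φ : Framing E N) {p : ℕ}
    (π0 : R0) (π1 : R1) (hπ0 : IsUnit (algebraMap R0 S0 π0)) (hπ1 : IsUnit (algebraMap R1 S1 π1))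
    {f : F₂} (n0 n1 : ℕ)
    (h10 : algebraMap R0 F₂ π0 ^ n0 * f ∈ Frame.frame0 Mo (framingInt E ψ hρ01 ld φ) ^ p)
    (h20 : ∀ z ∈ Frame.frame0 Mo (framingInt E ψ hρ01 ld φ) ^ p,
      ∃ r : R0, algebraMap R0 F₂ π0 ^ n0 * z = r • f)
    (h11 : algebraMap R1 F₂ π1 ^ n1 * f ∈ Frame.frame1 Mo (framingInt E ψ hρ01 ld φ) ^ p)
    (h21 : ∀ z ∈ Frame.frame1 Mo (framingInt E ψ hρ01 ld φ) ^ p,
      ∃ r : R1, algebraMap R1 F₂ π1 ^ n1 * z = r • f) :
    ∃ g : F₁, ψ g = f ∧
      (framePair E hN φ).I0 ^ p = Submodule.span (C0 (K := K) t) {g} ∧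
      (framePair E hN φ).I1 ^ p = Submodule.span (C1 (K := K) t) {g} := by
  -- chart 0
  have key0 : ∃ g : F₁, ψ g = f ∧
      (framePair E hN φ).I0 ^ p = Submodule.span (C0 (K := K) t) {g} := by
    letI := algI0 (R0 := R0) E
    letI := algI1 (R1 := R1) E
    letI := algI01 (R01 := R01) E
    haveI := towerI0 E hc0
    haveI := towerI1 E hc1
    letI : Algebra R0 (C0 (K := K) t) :=
      ((E.e0 : S0 →+* C0 (K := K) t).comp (algebraMap R0 S0)).toAlgebra
    haveI : IsScalarTower R0 (C0 (K := K) t) F₁ := IsScalarTower.of_algebraMap_eq (fun x => rfl)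
    let ψ0 : F₁ →ₐ[R0] F₂ := { ψ with commutes' := fun r => (hρ0 r).symm }
    have hmap : Frame.frame0 Mo (framingInt E ψ hρ01 ld φ) =
        (Frame.frame0 Mo (restrictLin E ld φ)).map ψ0.toLinearMap := by
      apply SetLike.coe_injective
      rw [coe_frame0_framingInt, Submodule.map_coe, coe_frame0_restrict E hc0 hc1 ld φ]
      rfl
    rw [hmap] at h10 h20
    have hu : IsUnit (algebraMap R0 (C0 (K := K) t) π0) :=
      hπ0.map (E.e0 : S0 →+* C0 (K := K) t)
    obtain ⟨g, hg, hspan⟩ := exists_span_pow_eq_of_vertical (C := C0 (K := K) t) ψ0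
      (Frame.frame0 Mo (restrictLin E ld φ)) π0 hu n0 h10 h20
    refine ⟨g, hg, ?_⟩
    rw [coe_frame0_restrict E hc0 hc1 ld φ, ← frameI0_eq_span E ld φ] at hspan
    exact hspan
  -- chart 1
  have key1 : ∃ g : F₁, ψ g = f ∧
      (framePair E hN φ).I1 ^ p = Submodule.span (C1 (K := K) t) {g} := by
    letI := algI0 (R0 := R0) E
    letI := algI1 (R1 := R1) E
    letI := algI01 (R01 := R01) E
    haveI := towerI0 E hc0
    haveI := towerI1 E hc1
    letI : Algebra R1 (C1 (K := K) t) :=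
      ((E.e1 : S1 →+* C1 (K := K) t).comp (algebraMap R1 S1)).toAlgebra
    haveI : IsScalarTower R1 (C1 (K := K) t) F₁ := IsScalarTower.of_algebraMap_eq (fun x => rfl)
    let ψ1 : F₁ →ₐ[R1] F₂ := { ψ with commutes' := fun r => (hρ1 r).symm }
    have hmap : Frame.frame1 Mo (framingInt E ψ hρ01 ld φ) =
        (Frame.frame1 Mo (restrictLin E ld φ)).map ψ1.toLinearMap := by
      apply SetLike.coe_injective
      rw [coe_frame1_framingInt, Submodule.map_coe, coe_frame1_restrict E hc0 hc1 ld φ]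
      rfl
    rw [hmap] at h11 h21
    have hu : IsUnit (algebraMap R1 (C1 (K := K) t) π1) :=
      hπ1.map (E.e1 : S1 →+* C1 (K := K) t)
    obtain ⟨g, hg, hspan⟩ := exists_span_pow_eq_of_vertical (C := C1 (K := K) t) ψ1
      (Frame.frame1 Mo (restrictLin E ld φ)) π1 hu n1 h11 h21
    refine ⟨g, hg, ?_⟩
    rw [coe_frame1_restrict E hc0 hc1 ld φ, ← frameI1_eq_span E ld φ] at hspan
    exact hspan
  obtain ⟨g, hg, hG0⟩ := key0
  obtain ⟨g', hg', hG1⟩ := key1
  have hgg : g' = g := ψ.injective (hg'.trans hg.symm)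
  rw [hgg] at hG1
  exact ⟨g, hg, hG0, hG1⟩

end Fermat.Agent.T1B.Hol31.FrameGen
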