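/-
T1B (S44), brick F8' slice S5 HOL (brick 594), helper31: FRAME-GEN, divisor side =
`exists_isPData_of_generic_frames` (requested by helper80 for the dictionary `ρ x = lam f`).

Setting of `FrameIntDiv.lean`; NO hypothesis on the class of the integral line `Mo`.  If the integral frames
`I_j = frame_j Mo (framingInt E cL .. φ)` satisfy `π_j ^ n_j * f ∈ I_j ^ p`, `π_j ^ n_j * I_j ^ p ⊆ R_j ∙ f`
(`π_j` a unit on the generic chart), then `f = cL g`, the line pair `Λ = framePair E hN φ` of the generic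
fibre has degree `0`, and `Hecke3.IsPData p (cls Λ) ⟨divL Λ, _⟩ f⁻¹`.
-/
import Mathlib
import Fermat.Agent.T1B.Hol31.FrameGen
import Fermat.Agent.T1B.Hol31.DictExtDiv

set_option autoImplicit false
set_option linter.unusedSectionVars false
set_option linter.style.haveILetI false

namespace Fermat.Agent.T1B.Hol31.FrameGenDiv

open Fermat.Agent.Jac Fermat.Agent.Jac.LineOps39 Fermat.Agent.Jac.JGroup85Pic
open Fermat.Agent.Jac.JSmooth85Alg
open Fermat.Agent.T1.Dict59 Fermat.Agent.T1.Adapt96 Fermat.Agent.T1B.Hol31.DictExt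
open HahnSeries AlgebraicCurve ModularCurve IntermediateField
open Fermat.Agent.RED.Interface4 Fermat.Agent.T1B.Hecke3

set_option synthInstance.maxHeartbeats 400000
set_option maxHeartbeats 1000000

variable {M : ℕ} [NeZero M] {L : IntermediateField ℚ Qbar} {t : FK M L}
  {O R0 R1 R01 : Type} [CommRing O] [CommRing R0] [CommRing R1] [CommRing R01]
  [Algebra O R0] [Algebra O R1] [Algebra O R01] [Algebra R0 R01] [Algebra R1 R01]
  [IsScalarTower O R0 R01] [IsScalarTower O R1 R01]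
  {S0 S1 S01 : Type} [CommRing S0] [CommRing S1] [CommRing S01]
  [Algebra L S0] [Algebra L S1] [Algebra L S01] [Algebra S0 S01] [Algebra S1 S01]
  [IsScalarTower L S0 S01] [IsScalarTower L S1 S01]
  [Algebra R0 S0] [Algebra R1 S1] [Algebra R01 S01]
  {c' : TwoChart L S0 S1 S01} (E : ChartIso c' t)
  [Algebra R0 (Fbar M)] [Algebra R1 (Fbar M)] [Algebra R01 (Fbar M)]
  [IsScalarTower R0 R01 (Fbar M)] [IsScalarTower R1 R01 (Fbar M)]
  {Mo : QC2 O R0 R1 R01} {N : QC2 L S0 S1 S01}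

/-- **`exists_isPData_of_generic_frames`.** -/
theorem exists_isPData_of_generic_frames
    (hc0 : (algebraMap S0 S01).comp (algebraMap R0 S0) =
      (algebraMap R01 S01).comp (algebraMap R0 R01))
    (hc1 : (algebraMap S1 S01).comp (algebraMap R1 S1) =
      (algebraMap R01 S01).comp (algebraMap R1 R01))
    (hρ0 : ∀ r : R0, algebraMap R0 (Fbar M) r = cL M L (E.ι0 (algebraMap R0 S0 r)))
    (hρ1 : ∀ r : R1, algebraMap R1 (Fbar M) r = cL M L (E.ι1 (algebraMap R1 S1 r)))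
    (hρ01 : ∀ r : R01, algebraMap R01 (Fbar M) r = cL M L (E.e01 (algebraMap R01 S01 r)))
    (ht : NonConst M t) (hN : N.IsLine) (ld : LiftData Mo N) (φ : Framing E N) {p : ℕ}
    (hp : p ≠ 0) (π0 : R0) (π1 : R1) (hπ0 : IsUnit (algebraMap R0 S0 π0))
    (hπ1 : IsUnit (algebraMap R1 S1 π1)) {f : Fbar M} (hf : f ≠ 0) (n0 n1 : ℕ)
    (h10 : algebraMap R0 (Fbar M) π0 ^ n0 * f ∈
      Frame.frame0 Mo (FrameInt.framingInt E (cL M L) hρ01 ld φ) ^ p)
    (h20 : ∀ z ∈ Frame.frame0 Mo (FrameInt.framingInt E (cL M L) hρ01 ld φ) ^ p,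
      ∃ r : R0, algebraMap R0 (Fbar M) π0 ^ n0 * z = r • f)
    (h11 : algebraMap R1 (Fbar M) π1 ^ n1 * f ∈
      Frame.frame1 Mo (FrameInt.framingInt E (cL M L) hρ01 ld φ) ^ p)
    (h21 : ∀ z ∈ Frame.frame1 Mo (FrameInt.framingInt E (cL M L) hρ01 ld φ) ^ p,
      ∃ r : R1, algebraMap R1 (Fbar M) π1 ^ n1 * z = r • f) :
    ∃ (hdeg : LinePair.deg (framePair E hN φ) = 0) (g : FK M L), cL M L g = f ∧
      (framePair E hN φ).I0 ^ p = Submodule.span (C0 (K := L) t) {g} ∧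
      (framePair E hN φ).I1 ^ p = Submodule.span (C1 (K := L) t) {g} ∧
      IsPData (K := Qbar) p (LinePair.cls (framePair E hN φ))
        ⟨LinePair.divL (framePair E hN φ), Divisor.mem_degZero.2 hdeg⟩ f⁻¹ := by
  obtain ⟨g, hgf, hG0, hG1⟩ := FrameGen.exists_pow_eq_span_of_vertical E (cL M L) hc0 hc1 hρ0 hρ1
    hρ01 hN ld φ π0 π1 hπ0 hπ1 n0 n1 h10 h20 h11 h21
  have hg : g ≠ 0 := by
    rintro rfl
    rw [map_zero] at hgf
    exact hf hgf.symm
  obtain ⟨hdeg, hP⟩ := DictExtDiv.isPData_of_pow_eq_span ht (framePair E hN φ) hp hg hG0 hG1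
  rw [hgf] at hP
  exact ⟨hdeg, g, hgf, hG0, hG1, hP⟩

end Fermat.Agent.T1B.Hol31.FrameGenDiv
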