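/-
T1B (S44), brick F8' slice S5 HOL (brick 594), helper31: LEVEL-HOL = `δ_hol` at ONE finite level
(requested by helper80, owner of the `δ_hol` assembly).

Hub vocabulary: `c0 : TwoChart W B0 B1 B01`, `O` a `W`-algebra (the DVR `A ∩ L`), `L ⊆ ℚ̄` a number field
over `O`, `P00 ≤ PicX c0 O` with `ExtInjective00`, `E : ChartIso (c0.baseChange L) t`.  For a `p`-torsion
class `x` of `J₀(M)(ℚ̄)` whose dictionary image `z` lies in `J0L c0 O L P00` (JSpec-F as the hypothesis `hJ`)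
and every detector side `(A, e)` whose Gauss ring contains the two integral charts:
`HolLog (Kap A) N' p (delta A e p HD x)`.

* `holLog_delta_of_level`  : `z ∈ J0L c0 O L P00`, `z ^ p = 1` form;
* `holLog_delta_of_level'` : explicit extension `y ∈ P00`, `PicX.map c0 O L y = z` form.
-/
import Mathlib
import Fermat.Agent.T1B.Hol31.HubAsm
import Fermat.Agent.T1B.Hol80.DeltaHolLine

set_option autoImplicit false
set_option linter.unusedSectionVars false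
set_option linter.style.haveILetI false

open TensorProduct

namespace Fermat.Agent.T1B.Hol31.LevelHol

open Fermat.Agent.Jac Fermat.Agent.Jac.LineOps39 Fermat.Agent.Jac.JGroup85Pic
open Fermat.Agent.Jac.JSmooth85Alg
open Fermat.Agent.Jac.BaseChange75 Fermat.Agent.T1.RedIface75 Fermat.Agent.T1B.RedN3
open Fermat.Agent.T1.Dict59 Fermat.Agent.T1.Adapt96 Fermat.Agent.T1B.Hol31.DictExt
open HahnSeries AlgebraicCurve ModularCurve IntermediateField
open Fermat.Agent.RED.Interface4 Fermat.Agent.T1B.Hecke3 Fermat.Agent.T1B.Hol13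
open Fermat.Agent.T1B.Hol80
open scoped Fermat.Agent.Jac.BaseChange75

set_option synthInstance.maxHeartbeats 400000
set_option maxHeartbeats 1000000

variable {M : ℕ} [NeZero M] {L : IntermediateField ℚ Qbar} {t : FK M L}
  {W B0 B1 B01 : Type} [CommRing W] [CommRing B0] [CommRing B1] [CommRing B01]
  [Algebra W B0] [Algebra W B1] [Algebra W B01] [Algebra B0 B01] [Algebra B1 B01]
  [IsScalarTower W B0 B01] [IsScalarTower W B1 B01]
  (c0 : TwoChart W B0 B1 B01)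
  (O : Type) [CommRing O] [Algebra W O]
  [Algebra W L] [Algebra O L] [IsScalarTower W O L]
  (E : ChartIso (c0.baseChange ↥L) t)
  [Algebra (O ⊗[W] B0) (Fbar M)] [Algebra (O ⊗[W] B1) (Fbar M)]

/-- **`δ_hol` at one level.** -/
theorem holLog_delta_of_level
    (hρ0 : ∀ r : O ⊗[W] B0, algebraMap (O ⊗[W] B0) (Fbar M) r =
      cL M L (E.ι0 (algebraMap (O ⊗[W] B0) (↥L ⊗[W] B0) r)))
    (hρ1 : ∀ r : O ⊗[W] B1, algebraMap (O ⊗[W] B1) (Fbar M) r =
      cL M L (E.ι1 (algebraMap (O ⊗[W] B1) (↥L ⊗[W] B1) r)))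
    (ht : NonConst M t) (P00 : Subgroup (PicX c0 O)) (hinj : ExtInjective00 c0 O ↥L P00)
    {z : PicX c0 ↥L} (hz : z ∈ J0L c0 O ↥L P00) {p : ℕ} (hp : p ≠ 0) (hzp : z ^ p = 1)
    (x : ↥(Pic0.torsion Qbar (Fbar M) p))
    (hJ : ∀ (N : QC2 ↥L (↥L ⊗[W] B0) (↥L ⊗[W] B1) (↥L ⊗[W] B01)) (hN : N.IsLine)
      (φ : Framing E N), LinePic.mk (c0.baseChange ↥L) N hN = z →
        LinePair.cls (framePair E hN φ) = (x : Pic0 Qbar (Fbar M)))
    -- the detector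
    {A : ValuationSubring Qbar} {e : Fbar M →+* LaurentSeries Qbar} (HD : DeltaInputs A e p)
    (N' : ℕ)
    (hrange : ∀ x : ↥(gaussVal A e HD.norm),
      gaussResV A e HD.norm x ∈ modularFunctionFieldFullC (Kap A) N')
    (φ0 : (O ⊗[W] B0) →+* ↥(gaussVal A e HD.norm))
    (hφ0 : ∀ x, algebraMap (O ⊗[W] B0) (Fbar M) x = (φ0 x : Fbar M))
    (φ1 : (O ⊗[W] B1) →+* ↥(gaussVal A e HD.norm))
    (hφ1 : ∀ x, algebraMap (O ⊗[W] B1) (Fbar M) x = (φ1 x : Fbar M))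
    (τ : ↥(modularFunctionFieldFullC (Kap A) N'))
    (hint0 : ∀ x, IsIntegral (Algebra.adjoin (Kap A) {τ}) (resK HD.norm N' hrange (φ0 x)))
    (hint1 : ∀ x, IsIntegral (Algebra.adjoin (Kap A) {τ⁻¹}) (resK HD.norm N' hrange (φ1 x))) :
    HolLog (Kap A) N' p (delta A e p HD x) := by
  obtain ⟨Mo, hMo, -, hpow, -, hld⟩ := HubAsm.exists_line_of_mem_J0L c0 O ↥L P00 hinj hz hzp
  obtain ⟨N, hN, rfl⟩ := LinePic.exists_rep z
  obtain ⟨ld⟩ := hld N hN rfl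
  obtain ⟨φ⟩ := nonempty_framing E hN
  obtain ⟨htors, hHol⟩ := holLog_delta_of_line E (c0.baseChange O) (square_comm W O ↥L B0 B01)
    (square_comm W O ↥L B1 B01) hρ0 hρ1 ht hMo hN ld hp hpow φ HD N' hrange φ0 hφ0 φ1 hφ1 τ
    hint0 hint1
  have hx : (⟨LinePair.cls (framePair E hN φ), htors⟩ : ↥(Pic0.torsion Qbar (Fbar M) p)) = x :=
    Subtype.ext (hJ N hN φ rfl)
  rw [hx] at hHol
  exact hHol

/-- **`δ_hol` at one level**, with an explicit extension `y ∈ P00` of `z`. -/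
theorem holLog_delta_of_level'
    (hρ0 : ∀ r : O ⊗[W] B0, algebraMap (O ⊗[W] B0) (Fbar M) r =
      cL M L (E.ι0 (algebraMap (O ⊗[W] B0) (↥L ⊗[W] B0) r)))
    (hρ1 : ∀ r : O ⊗[W] B1, algebraMap (O ⊗[W] B1) (Fbar M) r =
      cL M L (E.ι1 (algebraMap (O ⊗[W] B1) (↥L ⊗[W] B1) r)))
    (ht : NonConst M t) (P00 : Subgroup (PicX c0 O)) (hinj : ExtInjective00 c0 O ↥L P00)
    (y : PicX c0 O) (hy : y ∈ P00) {z : PicX c0 ↥L} (hmap : PicX.map c0 O ↥L y = z) {p : ℕ}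
    (hp : p ≠ 0) (hzp : z ^ p = 1) (x : ↥(Pic0.torsion Qbar (Fbar M) p))
    (hJ : ∀ (N : QC2 ↥L (↥L ⊗[W] B0) (↥L ⊗[W] B1) (↥L ⊗[W] B01)) (hN : N.IsLine)
      (φ : Framing E N), LinePic.mk (c0.baseChange ↥L) N hN = z →
        LinePair.cls (framePair E hN φ) = (x : Pic0 Qbar (Fbar M)))
    {A : ValuationSubring Qbar} {e : Fbar M →+* LaurentSeries Qbar} (HD : DeltaInputs A e p)
    (N' : ℕ)
    (hrange : ∀ x : ↥(gaussVal A e HD.norm),
      gaussResV A e HD.norm x ∈ modularFunctionFieldFullC (Kap A) N')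
    (φ0 : (O ⊗[W] B0) →+* ↥(gaussVal A e HD.norm))
    (hφ0 : ∀ x, algebraMap (O ⊗[W] B0) (Fbar M) x = (φ0 x : Fbar M))
    (φ1 : (O ⊗[W] B1) →+* ↥(gaussVal A e HD.norm))
    (hφ1 : ∀ x, algebraMap (O ⊗[W] B1) (Fbar M) x = (φ1 x : Fbar M))
    (τ : ↥(modularFunctionFieldFullC (Kap A) N'))
    (hint0 : ∀ x, IsIntegral (Algebra.adjoin (Kap A) {τ}) (resK HD.norm N' hrange (φ0 x)))
    (hint1 : ∀ x, IsIntegral (Algebra.adjoin (Kap A) {τ⁻¹}) (resK HD.norm N' hrange (φ1 x))) :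
    HolLog (Kap A) N' p (delta A e p HD x) :=
  holLog_delta_of_level c0 O E hρ0 hρ1 ht P00 hinj (Subgroup.mem_map.2 ⟨y, hy, hmap⟩) hp hzp x hJ
    HD N' hrange φ0 hφ0 φ1 hφ1 τ hint0 hint1

end Fermat.Agent.T1B.Hol31.LevelHol
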