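/-
T1B (S44), brick F8' slice S5 HOL (brick 594), helper31: REGULAR DIFFERENTIALS, function form.
Mathlib only.

Same notions as `Hol31.Local.regSpan / IsRegularAt`, but for an arbitrary FUNCTION `θ : k → k`
(no `Derivation ℤ k k`: for `k = κ((q))` Mathlib has two non-defeq `Algebra ℤ` instances, so a
bundled derivation is awkward to feed).  Differentials of `k` are identified with `k` through `θ`
(for `k ⊆ κ((q))`, `θ = q d/dq`: `ω ↔ ω · dq/q`).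

* `regSpan ρ θ`      : the additive group generated by the `ρ x · θ (ρ y)`, `x y : R`
                       (the image of `Ω_{ρ(R)}`);
* `IsRegularAt ρ θ 𝔮 ω` : `ρ d · ω ∈ regSpan ρ θ` for some `d ∉ 𝔮`;
* `hol ρ θ`          : the additive group of the `ω` regular at every prime `𝔮 ⊇ ker ρ` of `R`
                       (= the regular differentials on `Spec ρ(R)`);
* `hol₂ ρ0 ρ1 θ`     : regular on both charts (= `H⁰(X_i, Ω¹)` for a two-chart curve `X_i`).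
-/
import Mathlib

set_option autoImplicit false

namespace Fermat.Agent.T1B.Hol31.Reg

variable {R k : Type*} [CommRing R] [Field k]

/-- The set of "elementary regular differentials" `ρ x · θ (ρ y)`, `x y : R`. -/
def elemSet (ρ : R →+* k) (θ : k → k) : Set k := {z | ∃ x y : R, z = ρ x * θ (ρ y)}

/-- `Ω(R)`: the additive group generated by the `ρ x · θ (ρ y)`. -/
def regSpan (ρ : R →+* k) (θ : k → k) : AddSubgroup k := AddSubgroup.closure (elemSet ρ θ)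

theorem mul_theta_mem_regSpan (ρ : R →+* k) (θ : k → k) (x y : R) :
    ρ x * θ (ρ y) ∈ regSpan ρ θ :=
  AddSubgroup.subset_closure ⟨x, y, rfl⟩

theorem theta_mem_regSpan (ρ : R →+* k) (θ : k → k) (y : R) : θ (ρ y) ∈ regSpan ρ θ := by
  have := mul_theta_mem_regSpan ρ θ 1 y
  rwa [map_one, one_mul] at this

/-- `regSpan` is stable under multiplication by `ρ x`. -/
theorem mul_mem_regSpan (ρ : R →+* k) (θ : k → k) (x : R) {z : k} (hz : z ∈ regSpan ρ θ) :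
    ρ x * z ∈ regSpan ρ θ := by
  refine AddSubgroup.closure_induction (p := fun z _ => ρ x * z ∈ regSpan ρ θ) ?_ ?_ ?_ ?_ hz
  · rintro z ⟨a, b, rfl⟩
    rw [← mul_assoc, ← map_mul]
    exact mul_theta_mem_regSpan ρ θ _ _
  · rw [mul_zero]; exact (regSpan ρ θ).zero_mem
  · intro a b _ _ ha hb
    rw [mul_add]; exact (regSpan ρ θ).add_mem ha hb
  · intro a _ ha
    rw [mul_neg]; exact (regSpan ρ θ).neg_mem ha

/-- `ω` is regular at the prime `𝔮` of `R`: `ρ d · ω ∈ Ω(R)` for some `d ∉ 𝔮`. -/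
def IsRegularAt (ρ : R →+* k) (θ : k → k) (𝔮 : Ideal R) (ω : k) : Prop :=
  ∃ d : R, d ∉ 𝔮 ∧ ρ d * ω ∈ regSpan ρ θ

variable {ρ : R →+* k} {θ : k → k} {𝔮 : Ideal R}

theorem isRegularAt_of_mem (h𝔮 : 𝔮 ≠ ⊤) {ω : k} (h : ω ∈ regSpan ρ θ) : IsRegularAt ρ θ 𝔮 ω :=
  ⟨1, fun h1 => h𝔮 ((Ideal.eq_top_iff_one _).mpr h1), by rwa [map_one, one_mul]⟩

theorem isRegularAt_zero (h𝔮 : 𝔮 ≠ ⊤) : IsRegularAt ρ θ 𝔮 0 :=
  isRegularAt_of_mem h𝔮 (regSpan ρ θ).zero_mem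

theorem IsRegularAt.add [𝔮.IsPrime] {ω ω' : k} (h : IsRegularAt ρ θ 𝔮 ω)
    (h' : IsRegularAt ρ θ 𝔮 ω') : IsRegularAt ρ θ 𝔮 (ω + ω') := by
  obtain ⟨d, hd, hdω⟩ := h
  obtain ⟨d', hd', hdω'⟩ := h'
  refine ⟨d * d', fun hmem => (Ideal.IsPrime.mem_or_mem ‹_› hmem).elim hd hd', ?_⟩
  have e : ρ (d * d') * (ω + ω') = ρ d' * (ρ d * ω) + ρ d * (ρ d' * ω') := by
    rw [map_mul]; ring
  rw [e]
  exact (regSpan ρ θ).add_mem (mul_mem_regSpan ρ θ d' hdω) (mul_mem_regSpan ρ θ d hdω')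

theorem IsRegularAt.neg {ω : k} (h : IsRegularAt ρ θ 𝔮 ω) : IsRegularAt ρ θ 𝔮 (-ω) := by
  obtain ⟨d, hd, hdω⟩ := h
  exact ⟨d, hd, by rw [mul_neg]; exact (regSpan ρ θ).neg_mem hdω⟩

theorem IsRegularAt.sub [𝔮.IsPrime] {ω ω' : k} (h : IsRegularAt ρ θ 𝔮 ω)
    (h' : IsRegularAt ρ θ 𝔮 ω') : IsRegularAt ρ θ 𝔮 (ω - ω') := by
  rw [sub_eq_add_neg]; exact h.add h'.neg

theorem IsRegularAt.mul_left {ω : k} (h : IsRegularAt ρ θ 𝔮 ω) (x : R) :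
    IsRegularAt ρ θ 𝔮 (ρ x * ω) := by
  obtain ⟨d, hd, hdω⟩ := h
  refine ⟨d, hd, ?_⟩
  rw [mul_left_comm]
  exact mul_mem_regSpan ρ θ x hdω

/-- `θ (ρ r) / ρ r` is regular at `𝔮` for `r ∉ 𝔮`. -/
theorem isRegularAt_dlog {r : R} (hr : r ∉ 𝔮) (hr0 : ρ r ≠ 0) :
    IsRegularAt ρ θ 𝔮 (θ (ρ r) / ρ r) :=
  ⟨r, hr, by rw [mul_div_cancel₀ _ hr0]; exact theta_mem_regSpan ρ θ r⟩

variable (ρ θ)

/-- The differentials regular at every prime of `R` containing `ker ρ` (regular on `Spec ρ(R)`). -/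
def hol : AddSubgroup k where
  carrier := {ω | ∀ (𝔮 : Ideal R) [𝔮.IsPrime], RingHom.ker ρ ≤ 𝔮 → IsRegularAt ρ θ 𝔮 ω}
  zero_mem' := fun _ h𝔮 _ => isRegularAt_zero (Ideal.IsPrime.ne_top h𝔮)
  add_mem' := fun ha hb 𝔮 _ h => (ha 𝔮 h).add (hb 𝔮 h)
  neg_mem' := fun ha 𝔮 _ h => (ha 𝔮 h).neg

theorem mem_hol {ω : k} :
    ω ∈ hol ρ θ ↔ ∀ (𝔮 : Ideal R) [𝔮.IsPrime], RingHom.ker ρ ≤ 𝔮 → IsRegularAt ρ θ 𝔮 ω :=
  Iff.rfl

/-- Regular on both charts of a two-chart curve. -/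
def hol₂ {R' : Type*} [CommRing R'] (ρ0 : R →+* k) (ρ1 : R' →+* k) (θ : k → k) : AddSubgroup k :=
  hol ρ0 θ ⊓ hol ρ1 θ

theorem mem_hol₂ {R' : Type*} [CommRing R'] {ρ0 : R →+* k} {ρ1 : R' →+* k} {θ : k → k} {ω : k} :
    ω ∈ hol₂ ρ0 ρ1 θ ↔ ω ∈ hol ρ0 θ ∧ ω ∈ hol ρ1 θ := Iff.rfl

end Fermat.Agent.T1B.Hol31.Reg
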