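/-
T1B (S44), brick F8' slice S5 HOL (brick 594), helper31: the holomorphy statement in helper3's
`q`-dlog vocabulary (`T1B/Hecke3`: `gaussSub A e`, `gaussRes A e`, `dl A`) and the function-form
regularity of `Hol31/Reg.lean` with `θ := theta` (`q d/dq` on `κ((q))`).

* `dl_isRegularAt` : `R → gaussSub A e` a chart ring, `I` an invertible `R`-submodule of `F` with
  `I ^ p = R ∙ g`, `𝔮` a prime of `R` outside of which the elements of `R` have nonzero Gauss residue
  (i.e. `𝔮 ⊇` the centre of the Gauss valuation): then `dl A (e g)` is regular at `𝔮`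
  (`∃ d ∉ 𝔮, ρ d · dl A (e g) ∈ ∑ ρ(R) θ(ρ(R))`, `ρ = gaussRes ∘ φ`);
* `dl_mem_hol` : hence `dl A (e g) ∈ Reg.hol ρ θ`;
* `exists_dl_mem_hol₂_of_pow_eq_one` : **S5 HOL**: for a line `M` on a two-chart ring whose class is
  killed by `p` there are a framing `ε` and ONE `g ≠ 0` with `frame_j M ε ^ p = R_j ∙ g`, and
  `dl A (e g) ∈ hol₂ ρ0 ρ1 θ` (regular on both charts).  Divisor side (to be plugged by the
  dictionary): `P = cls(D)`, `D` = the divisor of the framed generic fibre, `p D = ± div g`, so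
  `δ_i(P) = ± dl A (e_i g)` by `Hecke3.delta_eq`.
-/
import Mathlib
import Fermat.Agent.T1B.Hol31.Local
import Fermat.Agent.T1B.Hol31.Frame
import Fermat.Agent.T1B.Hol31.Reg
import Fermat.Agent.T1B.Hecke3.GaussVal

set_option autoImplicit false
set_option linter.unusedSectionVars false

noncomputable section

namespace Fermat.Agent.T1B.Hol31.Main

open HahnSeries ModularCurve Fermat.Agent.IG.PR.Theta20 Fermat.Agent.T1B.Hecke3
open Fermat.Agent.T1B.Hol31.Local Fermat.Agent.T1B.Hol31.Frame Fermat.Agent.T1B.Hol31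
open Fermat.Agent.Jac Fermat.Agent.Jac.JGroup85Pic

/-- `θ = q d/dq` on `k((q))`, as a plain function. -/
def thetaFn (k : Type*) [Field k] : LaurentSeries k → LaurentSeries k := fun g => theta g

theorem thetaFn_div_eq_dlog (k : Type*) [Field k] (g : LaurentSeries k) :
    thetaFn k g / g = dlog g := by
  rw [thetaFn, dlog, div_eq_mul_inv]

section Chart

variable {K : Type*} [Field K] {F : Type*} [Field F] (A : ValuationSubring K)
  (e : F →+* LaurentSeries K) {R : Type*} [CommRing R] [Algebra R F]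

/-- **S5 HOL at one prime of one chart.** -/
theorem dl_isRegularAt (p : ℕ) (hp : p ≠ 0) [CharP (Kap A) p] (ι : K →+* F)
    (hι : ∀ c : K, e (ι c) = HahnSeries.C c)
    (H : ∀ f : F, f ≠ 0 → Normalisable A (e f))
    (φ : R →+* gaussSub A e) (hφ : ∀ x, algebraMap R F x = ((φ x : gaussSub A e) : F))
    {I J : Submodule R F} (hIJ : I * J = 1) {g : F} (hg : g ≠ 0)
    (hI : I ^ p = Submodule.span R {g}) (𝔮 : Ideal R) [𝔮.IsPrime]
    (hunit : ∀ x : R, x ∉ 𝔮 → gaussRes A e (φ x) ≠ 0) :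
    Reg.IsRegularAt ((gaussRes A e).comp φ) (thetaFn (Kap A)) 𝔮 (dl A (e g)) := by
  obtain ⟨a, -, s, r, hs, hr, hsr⟩ := exists_smul_eq_smul_pow hIJ p hg hI 𝔮
  have hs0 := hunit s hs
  have hr0 := hunit r hr
  rw [Algebra.smul_def, Algebra.smul_def, hφ, hφ] at hsr
  have hsF : ((φ s : gaussSub A e) : F) ≠ 0 := fun h0 => hs0 (by
    have : φ s = 0 := Subtype.ext h0
    rw [this, map_zero])
  have ha : a ≠ 0 := by
    intro ha0
    rw [ha0, zero_pow hp, mul_zero] at hsr
    exact (mul_ne_zero hsF hg) hsr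
  -- the Gauss unit `u = φ r / φ s`
  have hsinv := inv_mem_gaussSub hs0
  set u : gaussSub A e := φ r * ⟨_, hsinv⟩ with hu
  have hures : gaussRes A e u * gaussRes A e (φ s) = gaussRes A e (φ r) := by
    rw [← map_mul, hu, mul_assoc]
    have : (⟨_, hsinv⟩ : gaussSub A e) * φ s = 1 := Subtype.ext (inv_mul_cancel₀ hsF)
    rw [this, mul_one]
  have hu0 : gaussRes A e u ≠ 0 := by
    intro h0
    rw [h0, zero_mul] at hures
    exact hr0 hures.symm
  have hgeq : g = ι 1 * (u : F) * a ^ p := by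
    rw [map_one, one_mul, hu]
    change g = ((φ r : gaussSub A e) : F) * (((φ s : gaussSub A e) : F))⁻¹ * a ^ p
    rw [mul_assoc, mul_comm _ (a ^ p), ← mul_assoc, ← hsr]
    field_simp
  rw [dl_eq_dlog_gaussRes_of_eq p ι hι one_ne_zero hu0 (H a ha) hgeq]
  -- `dlog ū = dlog ρ(r) - dlog ρ(s)`
  have hudiv : gaussRes A e u = gaussRes A e (φ r) / gaussRes A e (φ s) := by
    rw [eq_div_iff hs0, hures]
  rw [hudiv, div_eq_mul_inv, dlog_mul hr0 (inv_ne_zero hs0), dlog_inv, ← sub_eq_add_neg,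
    ← thetaFn_div_eq_dlog, ← thetaFn_div_eq_dlog]
  exact (Reg.isRegularAt_dlog (ρ := (gaussRes A e).comp φ) hr hr0).sub
    (Reg.isRegularAt_dlog (ρ := (gaussRes A e).comp φ) hs hs0)

/-- **S5 HOL on one chart**: `dl A (e g)` is regular on `Spec ρ(R)`, `ρ = gaussRes ∘ φ`. -/
theorem dl_mem_hol (p : ℕ) (hp : p ≠ 0) [CharP (Kap A) p] (ι : K →+* F)
    (hι : ∀ c : K, e (ι c) = HahnSeries.C c)
    (H : ∀ f : F, f ≠ 0 → Normalisable A (e f))
    (φ : R →+* gaussSub A e) (hφ : ∀ x, algebraMap R F x = ((φ x : gaussSub A e) : F))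
    {I J : Submodule R F} (hIJ : I * J = 1) {g : F} (hg : g ≠ 0)
    (hI : I ^ p = Submodule.span R {g}) :
    dl A (e g) ∈ Reg.hol ((gaussRes A e).comp φ) (thetaFn (Kap A)) := by
  intro 𝔮 _ hker
  refine dl_isRegularAt A e p hp ι hι H φ hφ hIJ hg hI 𝔮 (fun x hx h0 => hx (hker ?_))
  rw [RingHom.mem_ker, RingHom.comp_apply]
  exact h0

end Chart

section TwoChart

universe u v

variable {O R0 R1 R01 : Type u} [CommRing O] [CommRing R0] [CommRing R1] [CommRing R01]
  [Algebra O R0] [Algebra O R1] [Algebra O R01] [Algebra R0 R01] [Algebra R1 R01]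
  [IsScalarTower O R0 R01] [IsScalarTower O R1 R01]
  {F : Type v} [Field F] [Algebra R0 F] [Algebra R1 F] [Algebra R01 F]
  [IsScalarTower R0 R01 F] [IsScalarTower R1 R01 F]
  {K : Type*} [Field K] (A : ValuationSubring K) (e : F →+* LaurentSeries K)

/-- **S5 HOL.**  Let `M` be a line on the two-chart ring `c` (the integral model over `O`) whose class
in the Picard group is killed by `p`, `F` the function field (a field into which `R0` injects),
`e : F → K((q))` an expansion all of whose nonzero values are normalisable with respect to the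
valuation subring `A` of `K` (residue characteristic `p`), and `φ_j : R_j → gaussSub A e`
(the charts are integral for the Gauss valuation).  Then there are a framing `ε` of `M` and ONE
`g ≠ 0` in `F` with `frame_j M ε ^ p = R_j ∙ g` (`j = 0, 1`), and `dl A (e g)` is a regular
differential on both charts of the component `ρ_j = gaussRes ∘ φ_j`. -/
theorem exists_dl_mem_hol₂_of_pow_eq_one (c : TwoChart O R0 R1 R01) {M : QC2 O R0 R1 R01}
    (hM : M.IsLine) (hinj : Function.Injective (algebraMap R0 F)) (p : ℕ) (hp : p ≠ 0)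
    (h : (LinePic.mk c M hM) ^ p = 1) [CharP (Kap A) p] (ι : K →+* F)
    (hι : ∀ c : K, e (ι c) = HahnSeries.C c)
    (H : ∀ f : F, f ≠ 0 → Normalisable A (e f))
    (φ0 : R0 →+* gaussSub A e) (hφ0 : ∀ x, algebraMap R0 F x = ((φ0 x : gaussSub A e) : F))
    (φ1 : R1 →+* gaussSub A e) (hφ1 : ∀ x, algebraMap R1 F x = ((φ1 x : gaussSub A e) : F)) :
    ∃ (ε : M.N01 →ₗ[R01] F) (g : F), ε ≠ 0 ∧ g ≠ 0 ∧
      frame0 M ε ^ p = Submodule.span R0 {g} ∧ frame1 M ε ^ p = Submodule.span R1 {g} ∧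
      dl A (e g) ∈ Reg.hol₂ ((gaussRes A e).comp φ0) ((gaussRes A e).comp φ1) (thetaFn (Kap A)) := by
  obtain ⟨ε, g, hε, hg, h0, h1, ⟨J0, hJ0⟩, ⟨J1, hJ1⟩⟩ :=
    exists_frames_of_pow_eq_one (F := F) c hM hinj hp h
  exact ⟨ε, g, hε, hg, h0, h1, dl_mem_hol A e p hp ι hι H φ0 hφ0 hJ0 hg h0,
    dl_mem_hol A e p hp ι hι H φ1 hφ1 hJ1 hg h1⟩

end TwoChart

end Fermat.Agent.T1B.Hol31.Main
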